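import Fermat.Agent.CFT.EC.Defs
import Fermat.Agent.H02M.SUnit
import Fermat.Agent.CC.Iface3
import Fermat.Prelude.Def_GaloisRep_ComplexConjugation

/-!
# Global Euler characteristic : interface statement on units
-/

set_option autoImplicit false

noncomputable section

namespace Fermat.Agent.CFT.EC

open Fermat.Agent.CC
open scoped Pointwise

/-- the `S`-units of `K`, written additively -/
def ESK (S : Finset Nat.Primes) (K : IntermediateField ℚ Qb) : AddSubgroup (UL Qb) where
  carrier := {a | a.val ∈ K ∧ H02M.SU S a.val}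
  zero_mem' := ⟨K.one_mem, H02M.SU.one⟩
  add_mem' := fun ha hb => ⟨K.mul_mem ha.1 hb.1, ha.2.mul hb.2⟩
  neg_mem' := fun {a} ha => ⟨by
    have := K.inv_mem ha.1
    rwa [← UL.val_neg] at this, by
    have := ha.2.inv
    rwa [← UL.val_neg] at this⟩

/-- the complex conjugation of `Qb` -/
abbrev cc : GQ := complexConjugation

/-- the finite places of `K` over `S` as a `Gal(K/ℚ)`-set -/
abbrev SfK (K : IntermediateField ℚ Qb) [K.fixingSubgroup.Normal] (S : Finset Nat.Primes)
    (A : S → ValuationSubring Qb) : Type :=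
  Σ q : S, (GQ ⧸ K.fixingSubgroup) ⧸ (((A q).decompositionSubgroup ℚ).map
    (QuotientGroup.mk' K.fixingSubgroup))

/-- the infinite places of `K` as a `Gal(K/ℚ)`-set -/
abbrev SooK (K : IntermediateField ℚ Qb) [K.fixingSubgroup.Normal] : Type :=
  (GQ ⧸ K.fixingSubgroup) ⧸ (Subgroup.zpowers (QuotientGroup.mk' K.fixingSubgroup cc))

/-- (B) **the Galois structure of `S`-units** -/
def UnitEq (p : ℕ) [Fact p.Prime] : Prop :=
  ∀ (S : Finset Nat.Primes) (K : IntermediateField ℚ Qb) [K.fixingSubgroup.Normal],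
    SK p S K → ∀ (A : S → ValuationSubring Qb),
    (∀ q : S, (A q).LiesOverPrime ((q : Nat.Primes) : ℕ)) →
    ∀ [DistribMulAction (GQ ⧸ K.fixingSubgroup) (ESK S K)]
      [DistribMulAction (GQ ⧸ K.fixingSubgroup) (Mu p)],
      (∀ (g : GQ) (x : ESK S K), (((g : GQ ⧸ K.fixingSubgroup) • x : ESK S K) : UL Qb) = g • (x : UL Qb)) →
      (∀ (g : GQ) (x : Mu p), ((g : GQ ⧸ K.fixingSubgroup) • x : Mu p) = g • x) →
      ∀ E : AddF p (GQ ⧸ K.fixingSubgroup),
        E.d (LP p (ESK S K)) + E.d (Tv (ZMod p)) =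
          E.d (Mu p) + E.d (Pm (SfK K S A) (ZMod p)) + E.d (Pm (SooK K) (ZMod p))

end Fermat.Agent.CFT.EC
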