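import Fermat.Agent.CFT.EC.Data

/-!
# Global Euler characteristic : additivity
-/

set_option autoImplicit false
set_option maxHeartbeats 400000

noncomputable section

namespace Fermat.Agent.CFT.EC

open Fermat.Agent.CC

section Card

variable (p : ℕ) [Fact p.Prime]

/-- finite groups killed by `p` have order a power of `p` -/
theorem card_pow {X : Type*} [AddCommGroup X] [Finite X] (h : ∀ x : X, p • x = 0) :
    ∃ n, Nat.card X = p ^ n := by
  let _ : Module (ZMod p) X := AddCommGroup.zmodModule h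
  have : Module.Finite (ZMod p) X := Module.Finite.of_finite
  exact ⟨_, by rw [Module.natCard_eq_pow_finrank (K := ZMod p), Nat.card_zmod]⟩

/-- `p`-adic valuation as an integer -/
def lg (n : ℕ) : ℤ := padicValNat p n

theorem lg_mul {a b : ℕ} (ha : a ≠ 0) (hb : b ≠ 0) : lg p (a * b) = lg p a + lg p b := by
  rw [lg, lg, lg, padicValNat.mul ha hb]
  push_cast
  rfl

theorem lg_pow (n : ℕ) : lg p (p ^ n) = n := by
  rw [lg, padicValNat.prime_pow]

omit [Fact p.Prime] in
theorem lg_one : lg p 1 = 0 := by rw [lg, padicValNat_one_right]; rfl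

omit [Fact p.Prime] in
theorem lg_nonneg (n : ℕ) : 0 ≤ lg p n := Int.natCast_nonneg _

end Card

section Fix

variable {G : Type} [Group G] (c : G) (M : Type) [AddCommGroup M] [DistribMulAction G M]

/-- fixed points of `c` -/
def Fix : AddSubgroup M where
  carrier := {m | c • m = m}
  zero_mem' := smul_zero c
  add_mem' := fun {a b} ha hb => by
    change c • (a + b) = a + b
    rw [smul_add, show c • a = a from ha, show c • b = b from hb]
  neg_mem' := fun {a} ha => by
    change c • (-a) = -a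
    rw [smul_neg, show c • a = a from ha]

theorem mem_Fix {m : M} : m ∈ Fix c M ↔ c • m = m := Iff.rfl

theorem cfix_eq : cfix c M = Nat.card (Fix c M) := rfl

variable {c M}

theorem cfix_add {p : ℕ} (hp : Odd p) (hcc : c * c = 1) {A B C : Type} [AddCommGroup A]
    [AddCommGroup B] [AddCommGroup C] [DistribMulAction G A] [DistribMulAction G B]
    [DistribMulAction G C] (kC : ∀ x : C, p • x = 0) (i : A →+ B)
    (j : B →+ C) (hi : ∀ (g : G) (a : A), i (g • a) = g • i a)
    (hj : ∀ (g : G) (b : B), j (g • b) = g • j b) (inj : Function.Injective i)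
    (surj : Function.Surjective j) (ex : ∀ b, j b = 0 ↔ ∃ a, i a = b) :
    cfix c B = cfix c A * cfix c C := by
  let j' : Fix c B →+ Fix c C :=
    { toFun := fun b => ⟨j b, by
        rw [mem_Fix, ← hj, (mem_Fix c B).mp b.2]⟩
      map_zero' := Subtype.ext (map_zero j)
      map_add' := fun a b => Subtype.ext (map_add j _ _) }
  rw [cfix_eq, card_ker_range j', cfix_eq, cfix_eq]
  congr 1
  · refine (Nat.card_congr (Equiv.ofBijective (fun a : Fix c A =>
      (⟨⟨i a, by rw [mem_Fix, ← hi, (mem_Fix c A).mp a.2]⟩, Subtype.ext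
        ((ex _).mpr ⟨a, rfl⟩)⟩ : j'.ker)) ⟨?_, ?_⟩)).symm
    · intro a b hab
      exact Subtype.ext (inj (congrArg (fun t : j'.ker => ((t : Fix c B) : B)) hab))
    · rintro ⟨b, hb⟩
      obtain ⟨a, ha⟩ := (ex b).mp (congrArg Subtype.val hb)
      refine ⟨⟨a, inj ?_⟩, Subtype.ext (Subtype.ext ha)⟩
      rw [hi, ha, (mem_Fix c B).mp b.2]
  · have hs : Function.Surjective j' := by
      rintro ⟨x, hx⟩
      obtain ⟨n, hn⟩ := hp
      obtain ⟨b, rfl⟩ := surj x
      refine ⟨⟨(n + 1) • (b + c • b), ?_⟩, Subtype.ext ?_⟩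
      · rw [mem_Fix]
        refine (map_nsmul (DistribSMul.toAddMonoidHom B c) (n + 1) _).trans ?_
        change (n + 1) • (c • (b + c • b)) = _
        rw [smul_add, ← mul_smul, hcc, one_smul, add_comm b]
      · change j _ = j b
        have hx' : c • j b = j b := hx
        rw [map_nsmul, map_add, hj, hx', ← two_nsmul, ← mul_nsmul', 
          show (n + 1) * 2 = p + 1 by rw [hn]; ring, add_nsmul, kC, zero_add, one_nsmul]
    rw [AddMonoidHom.range_eq_top.mpr hs]
    exact Nat.card_congr AddSubgroup.topEquiv.toEquiv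

end Fix

/-- dual module -/
def Du (M T : Type) [AddCommGroup M] [AddCommGroup T] : Type := M →+ T

section Du

variable {M T : Type} [AddCommGroup M] [AddCommGroup T]

instance : AddCommGroup (Du M T) := inferInstanceAs (AddCommGroup (M →+ T))

/-- evaluation pairing -/
def evP (M T : Type) [AddCommGroup M] [AddCommGroup T] : M →+ Du M T →+ T :=
  (AddMonoidHom.id (M →+ T)).flip

theorem Du.ext {φ ψ : Du M T} (h : ∀ m, evP M T m φ = evP M T m ψ) : φ = ψ :=
  AddMonoidHom.ext h

variable {G : Type} [Group G] [DistribMulAction G M] [DistribMulAction G T]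

instance : DistribMulAction G (Du M T) where
  smul g φ := (DistribSMul.toAddMonoidHom T g).comp
    (AddMonoidHom.comp (M := M) φ (DistribSMul.toAddMonoidHom M g⁻¹))
  one_smul φ := Du.ext fun m => by
    change (1 : G) • evP M T ((1 : G)⁻¹ • m) φ = _
    rw [inv_one, one_smul, one_smul]
  mul_smul g h φ := Du.ext fun m => by
    change (g * h) • evP M T ((g * h)⁻¹ • m) φ = g • h • evP M T (h⁻¹ • g⁻¹ • m) φ
    rw [mul_inv_rev, mul_smul, mul_smul]
  smul_zero g := Du.ext fun m => by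
    change g • (0 : T) = 0
    rw [smul_zero]
  smul_add g φ ψ := Du.ext fun m => by
    change g • (evP M T (g⁻¹ • m) φ + evP M T (g⁻¹ • m) ψ) =
      g • evP M T (g⁻¹ • m) φ + g • evP M T (g⁻¹ • m) ψ
    rw [smul_add]

theorem evP_smul (g : G) (m : M) (φ : Du M T) :
    evP M T m (g • φ) = g • evP M T (g⁻¹ • m) φ := rfl

theorem Du.triv (htM : ∀ (g : G) (m : M), g • m = m) (htT : ∀ (g : G) (t : T), g • t = t)
    (g : G) (φ : Du M T) : g • φ = φ := Du.ext fun m => by
  rw [evP_smul, htT, htM]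

theorem pr_du {p : ℕ} [Fact p.Prime] {𝓛 : Lev G} (τ : T ≃+ ZMod p) [Finite M]
    (kM : ∀ m : M, p • m = 0) (smM : 𝓛.Smooth M) (smT : 𝓛.Smooth T) : Pr p 𝓛 (evP M T) where
  fA := inferInstance
  fB := by
    have : Finite T := Finite.of_equiv _ τ.symm.toEquiv
    have h1 : Finite (M →+ T) :=
      Finite.of_injective (fun (φ : M →+ T) => (φ : M → T)) DFunLike.coe_injective
    exact h1
  he := fun g m φ => by rw [evP_smul, inv_smul_smul]
  smA := smM
  smB := fun φ => by
    have : Finite T := Finite.of_equiv _ τ.symm.toEquiv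
    obtain ⟨U, hU, h⟩ := smM.finite (Set.toFinite (Set.univ : Set M))
    obtain ⟨V, hV, h'⟩ := smT.finite (Set.toFinite (Set.univ : Set T))
    refine ⟨U ⊓ V, 𝓛.inf _ _ hU hV, fun s hs => Du.ext fun m => ?_⟩
    rw [evP_smul, h' _ trivial s hs.2, h _ trivial s⁻¹ (inv_mem hs.1)]
  kA := kM
  kB := fun φ => Du.ext fun m => by
    rw [map_nsmul, map_zero]
    refine (map_nsmul ((evP M T).flip φ) p m).symm.trans ?_
    rw [kM, map_zero]
  hl := fun m h => by
    by_contra hm
    obtain ⟨l, -, hl⟩ := fp_sep (p := p) kM ⊥ (y := m) (fun h0 => hm (AddSubgroup.mem_bot.mp h0))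
    apply hl
    have h1 := h (τ.symm.toAddMonoidHom.comp l)
    change τ.symm (l m) = 0 at h1
    rwa [EmbeddingLike.map_eq_zero_iff] at h1
  hr := fun φ h => Du.ext fun m => by rw [h, map_zero]

end Du

section dZ

variable {p : ℕ} [Fact p.Prime] {G : Type} [Group G] {T : Type} [AddCommGroup T]
  [DistribMulAction G T] (𝒢 : GLD p G T) (c : G)

/-- the defect in the global Euler characteristic formula -/
def dZ (M : Type) [AddCommGroup M] [DistribMulAction G M] : ℤ :=
  lg p (Nat.card (H1 𝒢.𝓛 M)) + lg p (cfix c M) -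
    (lg p (Nat.card (H0 G M)) + lg p (Nat.card (H2 𝒢.𝓛 M)) + lg p (Nat.card M))

variable {𝒢} {H H₀ : Subgroup G} [Finite (G ⧸ H)] [Finite (G ⧸ H₀)] (I : 𝒢.GIn H H₀)

section Basic

variable {M : Type} [AddCommGroup M] [DistribMulAction G M]

include I in
theorem sm_of_triv (ht : ∀ (h : H) (m : M), h • m = m) : 𝒢.𝓛.Smooth M :=
  fun m => ⟨H, I.hH, fun s hs => ht ⟨s, hs⟩ m⟩

include I in
theorem prD [Finite M] (kM : ∀ m : M, p • m = 0) (ht : ∀ (h : H) (m : M), h • m = m) :
    Pr p 𝒢.𝓛 (evP M T) :=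
  pr_du 𝒢.τ kM (sm_of_triv I ht) (sm_of_triv I I.htT)

include I in
theorem finH1 [Finite M] (kM : ∀ m : M, p • m = 0) (ht : ∀ (h : H) (m : M), h • m = m) :
    Finite (H1 𝒢.𝓛 M) := I.finite_H1 (prD I kM ht) ht

include I in
theorem finH2 [Finite M] (kM : ∀ m : M, p • m = 0) (ht : ∀ (h : H) (m : M), h • m = m) :
    Finite (H2 𝒢.𝓛 M) := I.finite_H2 (prD I kM ht) ht

theorem cfix_ne [Finite M] : cfix c M ≠ 0 := by
  rw [cfix_eq]
  exact Nat.card_pos.ne'

include I in
theorem dZ_eq [Finite M] (kM : ∀ m : M, p • m = 0) (ht : ∀ (h : H) (m : M), h • m = m) :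
    ∃ a b : ℕ, Nat.card (H1 𝒢.𝓛 M) * cfix c M = p ^ a ∧
      Nat.card (H0 G M) * Nat.card (H2 𝒢.𝓛 M) * Nat.card M = p ^ b ∧
        dZ 𝒢 c M = (a : ℤ) - b := by
  have f1 := finH1 I kM ht
  have f2 := finH2 I kM ht
  obtain ⟨n1, h1⟩ := card_pow p (X := H1 𝒢.𝓛 M) (H1_killed kM)
  obtain ⟨n2, h2⟩ := card_pow p (X := H2 𝒢.𝓛 M) (H2_killed kM)
  obtain ⟨n3, h3⟩ := card_pow p (X := H0 G M) (H0_killed kM)
  obtain ⟨n4, h4⟩ := card_pow p (X := Fix c M) (fun x => Subtype.ext (kM x))
  obtain ⟨n5, h5⟩ := card_pow p (X := M) kM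
  refine ⟨n1 + n4, n3 + n2 + n5, ?_, ?_, ?_⟩
  · rw [h1, cfix_eq, h4, pow_add]
  · rw [h3, h2, h5, pow_add, pow_add]
  · rw [dZ, cfix_eq, h1, h2, h3, h4, h5, lg_pow, lg_pow, lg_pow, lg_pow, lg_pow]
    push_cast
    rfl

include I in
theorem dZ_eq_zero_iff [Finite M] (kM : ∀ m : M, p • m = 0) (ht : ∀ (h : H) (m : M), h • m = m) :
    dZ 𝒢 c M = 0 ↔ Nat.card (H1 𝒢.𝓛 M) * cfix c M =
      Nat.card (H0 G M) * Nat.card (H2 𝒢.𝓛 M) * Nat.card M := by
  obtain ⟨a, b, h1, h2, h3⟩ := dZ_eq c I kM ht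
  rw [h1, h2, h3, sub_eq_zero]
  constructor
  · intro h
    rw [Int.natCast_inj.mp h]
  · intro h
    rw [Nat.pow_right_injective (Fact.out : p.Prime).two_le h]

include I in
theorem dZ_nonpos_iff [Finite M] (kM : ∀ m : M, p • m = 0) (ht : ∀ (h : H) (m : M), h • m = m) :
    dZ 𝒢 c M ≤ 0 ↔ Nat.card (H1 𝒢.𝓛 M) * cfix c M ≤
      Nat.card (H0 G M) * Nat.card (H2 𝒢.𝓛 M) * Nat.card M := by
  obtain ⟨a, b, h1, h2, h3⟩ := dZ_eq c I kM ht
  rw [h1, h2, h3, Nat.pow_le_pow_iff_right (Fact.out : p.Prime).one_lt]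
  omega

end Basic

variable {A B C : Type} [AddCommGroup A] [AddCommGroup B] [AddCommGroup C] [DistribMulAction G A]
  [DistribMulAction G B] [DistribMulAction G C]

include I in
theorem dZ_add (hp : Odd p) (hcc : c * c = 1) [Finite B] (kB : ∀ b : B, p • b = 0)
    (tB : ∀ (h : H) (b : B), h • b = b) (i : A →+ B)
    (j : B →+ C) (hi : ∀ (g : G) (a : A), i (g • a) = g • i a)
    (hj : ∀ (g : G) (b : B), j (g • b) = g • j b) (inj : Function.Injective i)
    (surj : Function.Surjective j) (ex : ∀ b, j b = 0 ↔ ∃ a, i a = b) :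
    dZ 𝒢 c B = dZ 𝒢 c A + dZ 𝒢 c C := by
  have fA : Finite A := Finite.of_injective i inj
  have fC : Finite C := Finite.of_surjective j surj
  have kA : ∀ a : A, p • a = 0 := fun a => inj (by rw [map_nsmul, kB, map_zero])
  have kC : ∀ x : C, p • x = 0 := fun x => by
    obtain ⟨b, rfl⟩ := surj x
    rw [← map_nsmul, kB, map_zero]
  have tA : ∀ (h : H) (a : A), h • a = a := fun h a => inj (by
    change i ((h : G) • a) = i a
    rw [hi]; exact tB h _)
  have tC : ∀ (h : H) (x : C), h • x = x := fun h x => by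
    obtain ⟨b, rfl⟩ := surj x
    change (h : G) • j b = j b
    rw [← hj]
    exact congrArg j (tB h b)
  let E : SES 𝒢.𝓛 A B C :=
    { i := i, j := j, hi := hi, hj := hj, inj := inj, surj := surj, exact := ex
      smA := sm_of_triv I tA, smB := sm_of_triv I tB, smC := sm_of_triv I tC }
  have e1 := E.euler (I.H2_surj kB kC (sm_of_triv I tB) (sm_of_triv I tC) tB tC j hj surj)
  have e2 := cfix_add (c := c) hp hcc kC i j hi hj inj surj ex
  have e3 : Nat.card B = Nat.card A * Nat.card C := by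
    rw [card_exact i j ex, AddMonoidHom.range_eq_top.mpr surj,
      Nat.card_congr (AddSubgroup.topEquiv (G := C)).toEquiv,
      ← Nat.card_congr (AddMonoidHom.ofInjective inj).toEquiv]
  have := finH1 I kA tA
  have := finH1 I kB tB
  have := finH1 I kC tC
  have := finH2 I kA tA
  have := finH2 I kB tB
  have := finH2 I kC tC
  have n : ∀ (X : Type) [AddCommGroup X] [Finite X], Nat.card X ≠ 0 :=
    fun X _ _ => Nat.card_pos.ne'
  have e4 := congrArg (lg p) e1
  have a0 := n (H0 G A)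
  have a1 := n (H1 𝒢.𝓛 A)
  have a2 := n (H2 𝒢.𝓛 A)
  have b0 := n (H0 G B)
  have b1 := n (H1 𝒢.𝓛 B)
  have b2 := n (H2 𝒢.𝓛 B)
  have c0 := n (H0 G C)
  have c1 := n (H1 𝒢.𝓛 C)
  have c2 := n (H2 𝒢.𝓛 C)
  rw [lg_mul p (by positivity) b2, lg_mul p (by positivity) c1, lg_mul p b0 a1,
    lg_mul p (by positivity) c2, lg_mul p (by positivity) a2, lg_mul p (by positivity) b1,
    lg_mul p a0 c0] at e4
  have e5 := congrArg (lg p) e2
  rw [lg_mul p (cfix_ne c) (cfix_ne c)] at e5
  have e6 := congrArg (lg p) e3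
  rw [lg_mul p (n A) (n C)] at e6
  rw [dZ, dZ, dZ]
  linarith

include I in
theorem dZ_subsingleton (hp : Odd p) (hcc : c * c = 1) [Subsingleton C] : dZ 𝒢 c C = 0 := by
  have h1 := dZ_add (A := C) (B := C) (C := C) c I hp hcc (fun b => Subsingleton.elim _ _)
    (fun h b => Subsingleton.elim _ _) 0 0 (fun _ _ => Subsingleton.elim _ _)
    (fun _ _ => Subsingleton.elim _ _) (fun _ _ _ => Subsingleton.elim _ _)
    (fun x => ⟨x, Subsingleton.elim _ _⟩) (fun b => ⟨fun _ => ⟨0, Subsingleton.elim _ _⟩,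
      fun _ => Subsingleton.elim _ _⟩)
  linarith

include I in
theorem dZ_congr (hp : Odd p) (hcc : c * c = 1) [Finite B] (kB : ∀ b : B, p • b = 0)
    (tB : ∀ (h : H) (b : B), h • b = b) (f : A ≃+ B)
    (hf : ∀ (g : G) (a : A), f (g • a) = g • f a) : dZ 𝒢 c A = dZ 𝒢 c B := by
  have h1 := dZ_add (C := Tv PUnit) c I hp hcc kB tB f.toAddMonoidHom 0 hf
    (fun _ _ => rfl) f.injective (fun x => ⟨0, rfl⟩)
    (fun b => ⟨fun _ => ⟨f.symm b, f.apply_symm_apply b⟩, fun _ => rfl⟩)
  have : Subsingleton (Tv PUnit) := inferInstanceAs (Subsingleton PUnit)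
  rw [dZ_subsingleton (C := Tv PUnit) c I hp hcc, add_zero] at h1
  exact h1.symm

end dZ

/-- inflation of a `G ⧸ H`-module to `G` -/
def Infl {G : Type} [Group G] (_ : Subgroup G) (M : Type) : Type := M

section Infl

variable {G : Type} [Group G] {H : Subgroup G} {M : Type}

instance [AddCommGroup M] : AddCommGroup (Infl H M) := inferInstanceAs (AddCommGroup M)

instance [Finite M] : Finite (Infl H M) := inferInstanceAs (Finite M)

instance [H.Normal] [AddCommGroup M] [DistribMulAction (G ⧸ H) M] :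
    DistribMulAction G (Infl H M) :=
  DistribMulAction.compHom M (QuotientGroup.mk' H)

theorem Infl.triv [H.Normal] [AddCommGroup M] [DistribMulAction (G ⧸ H) M] (h : H)
    (m : Infl H M) : h • m = m := by
  change @HSMul.hSMul (G ⧸ H) M M _ ((h : G) : G ⧸ H) m = m
  rw [(QuotientGroup.eq_one_iff _).mpr h.2]
  exact one_smul (G ⧸ H) (show M from m)

end Infl

/-- the Euler characteristic defect as an additive function -/
def ecF {p : ℕ} [Fact p.Prime] {G : Type} [Group G] {T : Type} [AddCommGroup T]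
    [DistribMulAction G T] {𝒢 : GLD p G T} {H H₀ : Subgroup G} [H.Normal] [Finite (G ⧸ H)]
    [Finite (G ⧸ H₀)] (D : ECData p 𝒢 H H₀) : AddF p (G ⧸ H) where
  d M _ _ := dZ 𝒢 D.c (Infl H M)
  add {A B C} _ _ _ _ _ _ _ kB i j hi hj inj surj ex :=
    dZ_add (A := Infl H A) (B := Infl H B) (C := Infl H C) D.c D.I
      ((Fact.out : p.Prime).odd_of_ne_two D.odd) D.cc kB Infl.triv i j
      (fun _ a => hi _ a) (fun _ b => hj _ b) inj surj ex

end Fermat.Agent.CFT.EC
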