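import Mathlib

/-!
# Representations of finite groups in characteristic zero with the same character are isomorphic
-/

set_option autoImplicit false
set_option linter.unusedSectionVars false
set_option linter.style.haveILetI false

namespace Fermat.Agent.CFT.EC

open Module

section Trace

variable {k : Type*} [Field k] {V : Type*} [AddCommGroup V] [Module k V] [FiniteDimensional k V]

theorem trace_of_isCompl {p q : Submodule k V} (h : IsCompl p q) (f : Module.End k V)
    (hp : ∀ x ∈ p, f x ∈ p) (hq : ∀ x ∈ q, f x ∈ q) :
    LinearMap.trace k V f = LinearMap.trace k p (f.restrict hp) +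
      LinearMap.trace k q (f.restrict hq) := by
  have h1 : f = (p.prodEquivOfIsCompl q h).conj ((f.restrict hp).prodMap (f.restrict hq)) := by
    apply LinearMap.ext
    intro x
    obtain ⟨y, rfl⟩ := (p.prodEquivOfIsCompl q h).surjective x
    rw [LinearEquiv.conj_apply_apply, LinearEquiv.symm_apply_apply]
    simp [Submodule.coe_prodEquivOfIsCompl']
  conv_lhs => rw [h1, LinearMap.trace_conj', LinearMap.trace_prodMap']

end Trace

/-- representations with the same character are isomorphic -/
theorem rep_iso {k : Type*} [Field k] [CharZero k] {G : Type*} [Group G] [Finite G] (n : ℕ) :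
    ∀ (V W : Type) [AddCommGroup V] [Module k V] [FiniteDimensional k V] [AddCommGroup W]
      [Module k W] [FiniteDimensional k W] (ρ : Representation k G V)
      (σ : Representation k G W), finrank k V = n → (∀ g, ρ.character g = σ.character g) →
      ∃ e : V ≃ₗ[k] W, ∀ g v, e (ρ g v) = σ g (e v) := by
  classical
  haveI := Fintype.ofFinite G
  haveI : NeZero (Nat.card G : k) := ⟨by exact_mod_cast Nat.card_pos.ne'⟩
  haveI : Invertible (Nat.card G : k) := invertibleOfNonzero (NeZero.ne _)
  induction n using Nat.strong_induction_on with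
  | _ n ih =>
  intro V W _ _ _ _ _ _ ρ σ hn hchar
  have hfr : finrank k V = finrank k W := by
    have := hchar 1
    rw [Representation.char_one, Representation.char_one] at this
    exact_mod_cast this
  rcases Nat.eq_zero_or_pos n with h0 | hpos
  · have hV : Subsingleton V := finrank_zero_iff.mp (hn.trans h0)
    have hW : Subsingleton W := finrank_zero_iff.mp (hfr.symm.trans (hn.trans h0))
    exact ⟨LinearEquiv.ofFinrankEq V W hfr, fun _ _ => Subsingleton.elim _ _⟩
  · -- a nonzero intertwining map
    have h1 : finrank k (Representation.IntertwiningMap ρ σ) =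
        finrank k (Representation.IntertwiningMap ρ ρ) := by
      have e1 := Representation.card_inv_mul_sum_char_mul_char_eq_finrank ρ σ
      have e2 := Representation.card_inv_mul_sum_char_mul_char_eq_finrank ρ ρ
      have e3 : ∀ g, σ.character g = ρ.character g := fun g => (hchar g).symm
      simp only [e3] at e1
      rw [e1] at e2
      exact_mod_cast e2
    haveI hVn : Nontrivial V := nontrivial_of_finrank_pos (R := k) (hn ▸ hpos)
    have h2 : ∃ f : Representation.IntertwiningMap ρ σ, f ≠ 0 := by
      have h3 : Nontrivial (Representation.IntertwiningMap ρ ρ) := by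
        refine ⟨⟨⟨LinearMap.id, fun g => by ext; simp⟩, 0, fun h => ?_⟩⟩
        obtain ⟨v, hv⟩ := exists_ne (0 : V)
        have := congrArg (fun f : Representation.IntertwiningMap ρ ρ => f v) h
        exact hv (by simpa using this)
      have h4 : 0 < finrank k (Representation.IntertwiningMap ρ σ) := by
        rw [h1]
        haveI : FiniteDimensional k (Representation.IntertwiningMap ρ ρ) := inferInstance
        exact finrank_pos
      haveI := nontrivial_of_finrank_pos h4
      exact exists_ne 0
    obtain ⟨f', hf'⟩ := h2
    obtain ⟨f, hf, hfe⟩ : ∃ f : V →ₗ[k] W, f ≠ 0 ∧ ∀ g v, f (ρ g v) = σ g (f v) := by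
      refine ⟨f'.toLinearMap, fun h => hf' (Representation.IntertwiningMap.ext h), fun g v => ?_⟩
      exact Representation.IntertwiningMap.isIntertwining _ _ f' g v
    let K : Subrepresentation ρ := ⟨LinearMap.ker f, fun g v hv => by
      rw [LinearMap.mem_ker] at hv ⊢
      rw [hfe, hv, map_zero]⟩
    let R : Subrepresentation σ := ⟨LinearMap.range f, fun g v hv => by
      obtain ⟨w, rfl⟩ := hv
      exact ⟨ρ g w, hfe g w⟩⟩
    obtain ⟨K', hK'⟩ := exists_isCompl K
    obtain ⟨R', hR'⟩ := exists_isCompl R
    have hp : IsCompl K.toSubmodule K'.toSubmodule := by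
      refine IsCompl.of_eq ?_ ?_
      · rw [← Subrepresentation.toSubmodule_inf, hK'.inf_eq_bot]; rfl
      · rw [← Subrepresentation.toSubmodule_sup, hK'.sup_eq_top]; rfl
    have hr : IsCompl R'.toSubmodule R.toSubmodule := by
      refine IsCompl.of_eq ?_ ?_
      · rw [inf_comm, ← Subrepresentation.toSubmodule_inf, hR'.inf_eq_bot]; rfl
      · rw [sup_comm, ← Subrepresentation.toSubmodule_sup, hR'.sup_eq_top]; rfl
    have hKm : ∀ v, v ∈ K.toSubmodule ↔ f v = 0 := fun v => LinearMap.mem_ker
    -- the isomorphism on the complement of the kernel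
    let f1 : K'.toSubmodule →ₗ[k] R.toSubmodule :=
      (f.domRestrict K'.toSubmodule).codRestrict R.toSubmodule fun x => ⟨x, rfl⟩
    have hf1 : Function.Bijective f1 := by
      constructor
      · rw [injective_iff_map_eq_zero]
        intro x hx
        have h3 : f (x : V) = 0 := congrArg Subtype.val hx
        have h4 : (x : V) ∈ K.toSubmodule ⊓ K'.toSubmodule := ⟨(hKm _).mpr h3, x.2⟩
        rw [hp.inf_eq_bot, Submodule.mem_bot] at h4
        exact Subtype.ext h4
      · rintro ⟨_, v, rfl⟩
        have h3 : v ∈ K.toSubmodule ⊔ K'.toSubmodule := by rw [hp.sup_eq_top]; trivial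
        obtain ⟨x, hx, y, hy, rfl⟩ := Submodule.mem_sup.mp h3
        refine ⟨⟨y, hy⟩, Subtype.ext ?_⟩
        change f y = f (x + y)
        rw [map_add, (hKm x).mp hx, zero_add]
    let e1 : K'.toSubmodule ≃ₗ[k] R.toSubmodule := LinearEquiv.ofBijective f1 hf1
    have he1 : ∀ g (x : K'.toSubmodule), e1 (K'.toRepresentation g x) =
        R.toRepresentation g (e1 x) := fun g x => Subtype.ext (hfe g x)
    have htr1 : ∀ g, K'.toRepresentation.character g = R.toRepresentation.character g := by
      intro g
      have h3 : R.toRepresentation g = e1.conj (K'.toRepresentation g) := by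
        apply LinearMap.ext
        intro y
        obtain ⟨x, rfl⟩ := e1.surjective y
        rw [LinearEquiv.conj_apply_apply, LinearEquiv.symm_apply_apply, he1]
      rw [Representation.character, Representation.character, h3, LinearMap.trace_conj']
    have htr2 : ∀ g, K.toRepresentation.character g = R'.toRepresentation.character g := by
      intro g
      have h3 := hchar g
      have h4 : ρ.character g = K.toRepresentation.character g +
          K'.toRepresentation.character g :=
        trace_of_isCompl hp (ρ g) (fun x hx => K.apply_mem_toSubmodule g hx)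
          (fun x hx => K'.apply_mem_toSubmodule g hx)
      have h5 : σ.character g = R'.toRepresentation.character g +
          R.toRepresentation.character g :=
        trace_of_isCompl hr (σ g) (fun x hx => R'.apply_mem_toSubmodule g hx)
          (fun x hx => R.apply_mem_toSubmodule g hx)
      rw [h4, h5, htr1] at h3
      exact add_right_cancel h3
    have hlt : finrank k K.toSubmodule < n := by
      rw [← hn]
      refine Submodule.finrank_lt ?_
      intro h3
      apply hf
      apply LinearMap.ext
      intro v
      have : v ∈ K.toSubmodule := by rw [h3]; trivial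
      exact (hKm v).mp this
    obtain ⟨e0, he0⟩ := ih _ hlt K.toSubmodule R'.toSubmodule K.toRepresentation
      R'.toRepresentation rfl htr2
    let E := ((K.toSubmodule.prodEquivOfIsCompl K'.toSubmodule hp).symm ≪≫ₗ
      (e0.prodCongr e1)) ≪≫ₗ (R'.toSubmodule.prodEquivOfIsCompl R.toSubmodule hr)
    have hE : ∀ (x : K.toSubmodule) (y : K'.toSubmodule), E (x + y) = (e0 x : W) + (e1 y : W) := by
      intro x y
      have h3 : (x : V) + (y : V) =
          K.toSubmodule.prodEquivOfIsCompl K'.toSubmodule hp (x, y) := by
        rw [Submodule.coe_prodEquivOfIsCompl']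
      rw [h3, LinearEquiv.trans_apply, LinearEquiv.trans_apply, LinearEquiv.symm_apply_apply,
        LinearEquiv.prodCongr_apply, Submodule.coe_prodEquivOfIsCompl']
    refine ⟨E, fun g v => ?_⟩
    have h3 : v ∈ K.toSubmodule ⊔ K'.toSubmodule := by rw [hp.sup_eq_top]; trivial
    obtain ⟨x, hx, y, hy, rfl⟩ := Submodule.mem_sup.mp h3
    have h4 : ρ g (x + y) = ((K.toRepresentation g ⟨x, hx⟩ : K.toSubmodule) : V) +
        ((K'.toRepresentation g ⟨y, hy⟩ : K'.toSubmodule) : V) := map_add _ _ _
    have h5 : x + y = ((⟨x, hx⟩ : K.toSubmodule) : V) + ((⟨y, hy⟩ : K'.toSubmodule) : V) := rfl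
    rw [h4, hE, he0, he1, h5, hE, map_add]
    rfl

end Fermat.Agent.CFT.EC
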