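import Fermat.Agent.CFT.EC.Defs

/-!
# Additive functions : commensurable lattices
-/

set_option autoImplicit false
set_option linter.unusedSectionVars false
set_option linter.style.haveILetI false

noncomputable section

namespace Fermat.Agent.CFT.EC

variable {p : ℕ} {Γ : Type} [Group Γ]

/-- the action on a stable subgroup -/
@[reducible] def subAct {M : Type} [AddCommGroup M] [DistribMulAction Γ M] (H : AddSubgroup M)
    (h : ∀ (g : Γ), ∀ x ∈ H, g • x ∈ H) : DistribMulAction Γ H where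
  smul g x := ⟨g • (x : M), h g x x.2⟩
  one_smul x := Subtype.ext (one_smul Γ (x : M))
  mul_smul g g' x := Subtype.ext (mul_smul g g' (x : M))
  smul_zero g := Subtype.ext (smul_zero g)
  smul_add g x y := Subtype.ext (smul_add g (x : M) (y : M))

/-- the action on the quotient by a stable subgroup -/
@[reducible] def quoAct {M : Type} [AddCommGroup M] [DistribMulAction Γ M] (H : AddSubgroup M)
    (h : ∀ (g : Γ), ∀ x ∈ H, g • x ∈ H) : DistribMulAction Γ (M ⧸ H) where
  smul g x := QuotientAddGroup.map H H (DistribSMul.toAddMonoidHom M g) (fun x hx => h g x hx) x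
  one_smul x := by
    obtain ⟨x, rfl⟩ := QuotientAddGroup.mk_surjective x
    change ((((1 : Γ) • x : M) : M ⧸ H)) = (x : M ⧸ H)
    rw [one_smul]
  mul_smul g g' x := by
    obtain ⟨x, rfl⟩ := QuotientAddGroup.mk_surjective x
    change (((g * g') • x : M) : M ⧸ H) = ((g • g' • x : M) : M ⧸ H)
    rw [mul_smul]
  smul_zero g := map_zero (QuotientAddGroup.map H H (DistribSMul.toAddMonoidHom M g)
    (fun x hx => h g x hx))
  smul_add g x y := map_add (QuotientAddGroup.map H H (DistribSMul.toAddMonoidHom M g)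
    (fun x hx => h g x hx)) x y

namespace AddF

variable (E : AddF p Γ)

theorem zero (M : Type) [AddCommGroup M] [DistribMulAction Γ M] [Subsingleton M] : E.d M = 0 := by
  have h := E.add (A := M) (B := M) (C := M) inferInstance (fun b => Subsingleton.elim _ _)
    (AddMonoidHom.id M) (AddMonoidHom.id M) (fun _ _ => rfl) (fun _ _ => rfl)
    Function.injective_id Function.surjective_id
    (fun b => ⟨fun _ => ⟨b, rfl⟩, fun _ => Subsingleton.elim _ _⟩)
  linarith

instance : Subsingleton (Tv PUnit.{1}) := inferInstanceAs (Subsingleton PUnit)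

theorem congr {A B : Type} [AddCommGroup A] [AddCommGroup B] [DistribMulAction Γ A]
    [DistribMulAction Γ B] (hB : Finite B) (hk : ∀ b : B, p • b = 0) (e : A ≃+ B)
    (he : ∀ (g : Γ) (a : A), e (g • a) = g • e a) : E.d A = E.d B := by
  have h := E.add (A := A) (B := B) (C := Tv PUnit.{1}) hB hk e.toAddMonoidHom 0 he
    (fun _ _ => Subsingleton.elim _ _) e.injective
    (fun y => ⟨0, Subsingleton.elim _ _⟩)
    (fun b => ⟨fun _ => ⟨e.symm b, e.apply_symm_apply b⟩, fun _ => rfl⟩)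
  rw [E.zero (Tv PUnit.{1})] at h
  linarith

/-- four term exact sequences -/
theorem four {C X Y C' : Type} [AddCommGroup C] [AddCommGroup X] [AddCommGroup Y]
    [AddCommGroup C'] [DistribMulAction Γ C] [DistribMulAction Γ X] [DistribMulAction Γ Y]
    [DistribMulAction Γ C'] (hX : Finite X) (hXk : ∀ x : X, p • x = 0) (hY : Finite Y)
    (hYk : ∀ x : Y, p • x = 0) (a : C →+ X) (b : X →+ Y) (c : Y →+ C')
    (ea : ∀ (g : Γ) z, a (g • z) = g • a z) (eb : ∀ (g : Γ) z, b (g • z) = g • b z)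
    (ec : ∀ (g : Γ) z, c (g • z) = g • c z) (ha : Function.Injective a)
    (hab : ∀ x, b x = 0 ↔ ∃ z, a z = x) (hbc : ∀ y, c y = 0 ↔ ∃ x, b x = y)
    (hc : Function.Surjective c) : E.d X + E.d C' = E.d Y + E.d C := by
  letI : DistribMulAction Γ b.range := subAct b.range (by
    rintro g _ ⟨x, rfl⟩
    exact ⟨g • x, eb g x⟩)
  have h1 := E.add (A := C) (B := X) (C := b.range) hX hXk a b.rangeRestrict ea
    (fun g x => Subtype.ext (eb g x)) ha b.rangeRestrict_surjective (fun x => by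
      rw [← hab]
      exact ⟨fun h => congrArg Subtype.val h, fun h => Subtype.ext h⟩)
  have h2 := E.add (A := b.range) (B := Y) (C := C') hY hYk b.range.subtype c (fun _ _ => rfl)
    ec Subtype.val_injective hc (fun y => by
      rw [hbc]
      exact ⟨fun ⟨x, hx⟩ => ⟨⟨y, x, hx⟩, rfl⟩, fun ⟨⟨_, x, hx⟩, h⟩ => ⟨x, hx.trans h⟩⟩)
  linarith

end AddF

theorem finite_LP {L : Type} [AddCommGroup L] [Module.Finite ℤ L] (hp : p ≠ 0) :
    Finite (LP p L) := by
  haveI : Module.Finite ℤ (LP p L) :=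
    Module.Finite.of_surjective (LP.mk p L).toIntLinearMap LP.mk_surjective
  haveI : AddGroup.FG (LP p L) := Module.Finite.iff_addGroup_fg.mp inferInstance
  apply AddCommGroup.finite_of_fg_isAddTorsion
  intro x
  rw [isOfFinAddOrder_iff_nsmul_eq_zero]
  exact ⟨p, Nat.pos_of_ne_zero hp, x.killed⟩

section Comm

variable (E : AddF p Γ) {L J : Type} [AddCommGroup L] [AddCommGroup J] [DistribMulAction Γ L]
  [DistribMulAction Γ J]

theorem LP.map_smul (f : L →+ J) (hf : ∀ (g : Γ) x, f (g • x) = g • f x) (g : Γ) (x : LP p L) :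
    LP.map p f (g • x) = g • LP.map p f x := by
  obtain ⟨x, rfl⟩ := LP.mk_surjective x
  rw [LP.smul_mk, LP.map_mk, LP.map_mk, LP.smul_mk, hf]

/-- the step at the prime `p` -/
theorem step_p [Module.Finite ℤ L] [Module.Finite ℤ J] (hp : p ≠ 0)
    (hJ : ∀ y : J, p • y = 0 → y = 0) (f : L →+ J) (hf : ∀ (g : Γ) x, f (g • x) = g • f x)
    (hinj : Function.Injective f) (h : ∀ y : J, ∃ x, f x = p • y) :
    E.d (LP p L) = E.d (LP p J) := by
  choose s hs using h
  let S : J →+ L :=
    { toFun := s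
      map_zero' := hinj (by rw [hs, smul_zero, map_zero])
      map_add' := fun x y => hinj (by rw [hs, map_add, hs, hs, smul_add]) }
  have hS : ∀ y, f (S y) = p • y := hs
  letI : DistribMulAction Γ (J ⧸ f.range) := quoAct f.range (by
    rintro g _ ⟨x, rfl⟩
    exact ⟨g • x, hf g x⟩)
  let a0 : J →+ LP p L := (LP.mk p L).comp S
  have ha0 : ∀ y, a0 y = 0 ↔ y ∈ f.range := by
    intro y
    change LP.mk p L (S y) = 0 ↔ _
    rw [LP.mk_eq_zero]
    constructor
    · rintro ⟨x, hx⟩
      refine ⟨x, ?_⟩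
      have h1 := hS y
      rw [← hx, map_nsmul] at h1
      have h2 : p • (f x - y) = 0 := by rw [nsmul_sub, h1, sub_self]
      exact sub_eq_zero.mp (hJ _ h2)
    · rintro ⟨x, rfl⟩
      exact ⟨x, hinj (by rw [map_nsmul, hS])⟩
  let a : J ⧸ f.range →+ LP p L := QuotientAddGroup.lift f.range a0 fun y hy => (ha0 y).mpr hy
  let c : LP p J →+ J ⧸ f.range := QuotientAddGroup.lift _ (QuotientAddGroup.mk' f.range) (by
    rintro _ ⟨y, rfl⟩
    rw [QuotientAddGroup.ker_mk']
    exact ⟨S y, hS y⟩)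
  have hcmk : ∀ y, c (LP.mk p J y) = (y : J ⧸ f.range) := fun y => rfl
  have key := E.four (C := J ⧸ f.range) (X := LP p L) (Y := LP p J) (C' := J ⧸ f.range)
    (finite_LP hp) LP.killed (finite_LP hp) LP.killed a (LP.map p f) c ?_
    (LP.map_smul f hf) ?_ ?_ ?_ ?_ ?_
  · linarith
  · intro g z
    obtain ⟨y, rfl⟩ := QuotientAddGroup.mk_surjective z
    change a0 (g • y) = g • a0 y
    change LP.mk p L (S (g • y)) = g • LP.mk p L (S y)
    rw [LP.smul_mk]
    congr 1
    apply hinj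
    rw [hS, hf, hS, smul_comm]
  · intro g z
    obtain ⟨y, rfl⟩ := LP.mk_surjective z
    rw [LP.smul_mk, hcmk, hcmk]
    rfl
  · rw [injective_iff_map_eq_zero]
    intro z hz
    obtain ⟨y, rfl⟩ := QuotientAddGroup.mk_surjective z
    rw [QuotientAddGroup.eq_zero_iff]
    exact (ha0 y).mp hz
  · intro z
    obtain ⟨x, rfl⟩ := LP.mk_surjective z
    rw [LP.map_mk, LP.mk_eq_zero]
    constructor
    · rintro ⟨y, hy⟩
      refine ⟨(y : J ⧸ f.range), ?_⟩
      change LP.mk p L (S y) = _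
      rw [show S y = x from hinj (by rw [hS, hy])]
    · rintro ⟨z, hz⟩
      obtain ⟨y, rfl⟩ := QuotientAddGroup.mk_surjective z
      have h1 : LP.mk p L (S y) = LP.mk p L x := hz
      rw [← sub_eq_zero, ← map_sub, LP.mk_eq_zero] at h1
      obtain ⟨x', hx'⟩ := h1
      refine ⟨y - f x', ?_⟩
      rw [nsmul_sub, ← hS y, ← map_nsmul, ← map_sub, hx']
      congr 1
      abel
  · intro z
    obtain ⟨y, rfl⟩ := LP.mk_surjective z
    rw [hcmk, QuotientAddGroup.eq_zero_iff]
    constructor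
    · rintro ⟨x, rfl⟩
      exact ⟨LP.mk p L x, rfl⟩
    · rintro ⟨x, hx⟩
      obtain ⟨x, rfl⟩ := LP.mk_surjective x
      rw [LP.map_mk, ← sub_eq_zero, ← map_sub, LP.mk_eq_zero] at hx
      obtain ⟨y', hy'⟩ := hx
      refine ⟨x - S y', ?_⟩
      rw [map_sub, hS, hy']
      abel
  · intro z
    obtain ⟨y, rfl⟩ := QuotientAddGroup.mk_surjective z
    exact ⟨LP.mk p J y, rfl⟩

/-- the step at the primes different from `p` -/
theorem step_l [Module.Finite ℤ J] (hp : p ≠ 0) {l : ℕ} (hl : Nat.Coprime l p) (f : L →+ J)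
    (hf : ∀ (g : Γ) x, f (g • x) = g • f x)
    (hinj : Function.Injective f) (h : ∀ y : J, ∃ x, f x = l • y) :
    E.d (LP p L) = E.d (LP p J) := by
  obtain ⟨u, v, huv⟩ : ∃ u v : ℤ, u * l + v * p = 1 := Int.isCoprime_iff_gcd_eq_one.mpr hl
  have hdec : ∀ y : J, y = u • (l • y) + v • (p • y) := by
    intro y
    rw [← natCast_zsmul, ← natCast_zsmul, smul_smul, smul_smul, ← add_smul, huv, one_smul]
  refine E.congr (finite_LP hp) LP.killed (AddEquiv.ofBijective (LP.map p f) ⟨?_, ?_⟩)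
    (LP.map_smul f hf)
  · rw [injective_iff_map_eq_zero]
    intro z hz
    obtain ⟨x, rfl⟩ := LP.mk_surjective z
    rw [LP.map_mk, LP.mk_eq_zero] at hz
    obtain ⟨y, hy⟩ := hz
    obtain ⟨x', hx'⟩ := h y
    rw [LP.mk_eq_zero]
    refine ⟨u • x' + v • x, hinj ?_⟩
    have h1 : f (u • x' + v • x) = y := by
      rw [map_add, map_zsmul, map_zsmul, hx', ← hy, ← hdec]
    rw [map_nsmul, h1, hy]
  · intro z
    obtain ⟨y, rfl⟩ := LP.mk_surjective z
    obtain ⟨x', hx'⟩ := h y
    refine ⟨LP.mk p L (u • x'), ?_⟩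
    rw [LP.map_mk, ← sub_eq_zero, ← map_sub, LP.mk_eq_zero]
    refine ⟨-(v • y), ?_⟩
    rw [map_zsmul, hx', smul_neg, smul_comm p v y]
    have h3 : u • (l • y) - (u • (l • y) + v • (p • y)) = -(v • (p • y)) := by abel
    rw [← hdec y] at h3
    exact h3.symm

end Comm

end Fermat.Agent.CFT.EC
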