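import Fermat.Agent.CFT.EC.Art1
import Fermat.Agent.CFT.EC.Art2

/-!
# Additive functions : lattices with the same character
-/

set_option autoImplicit false
set_option linter.unusedSectionVars false
set_option linter.style.haveILetI false

noncomputable section

namespace Fermat.Agent.CFT.EC

variable {p : ℕ} {Γ : Type} [Group Γ]

/-- commensurable lattices have the same class modulo `p` -/
theorem comm (E : AddF p Γ) (hp : p.Prime) (N : ℕ) : 0 < N → ∀ (L L' : Type) [AddCommGroup L]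
    [AddCommGroup L'] [DistribMulAction Γ L] [DistribMulAction Γ L'] [Module.Finite ℤ L]
    [Module.Finite ℤ L'], (∀ y : L', p • y = 0 → y = 0) → ∀ (f : L →+ L'),
    (∀ (g : Γ) x, f (g • x) = g • f x) → Function.Injective f →
    (∀ y : L', ∃ x, f x = N • y) → E.d (LP p L) = E.d (LP p L') := by
  induction N using Nat.strong_induction_on with
  | _ N ih =>
  intro hN L L' _ _ _ _ _ _ htf f hf hinj hcok
  by_cases h1 : N = 1
  · subst h1
    exact step_l E hp.ne_zero (Nat.coprime_one_left p) f hf hinj hcok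
  · set l := N.minFac with hl
    have hlp : l.Prime := Nat.minFac_prime h1
    obtain ⟨N', hN'⟩ : l ∣ N := Nat.minFac_dvd N
    have hN'0 : 0 < N' := Nat.pos_of_ne_zero (by rintro rfl; rw [mul_zero] at hN'; omega)
    have hlt : N' < N := by
      rw [hN']
      exact lt_mul_of_one_lt_left hN'0 hlp.one_lt
    let J : AddSubgroup L' := f.range ⊔ (nsmulAddMonoidHom (α := L') N').range
    have hJ : ∀ (g : Γ), ∀ x ∈ J, g • x ∈ J := by
      intro g x hx
      obtain ⟨a, ⟨a', rfl⟩, b, ⟨b', rfl⟩, rfl⟩ := AddSubgroup.mem_sup.mp hx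
      rw [smul_add]
      refine AddSubgroup.mem_sup.mpr ⟨_, ⟨g • a', hf g a'⟩, _, ⟨g • b', ?_⟩, rfl⟩
      exact (smul_comm N' g b')
    letI : DistribMulAction Γ J := subAct J hJ
    haveI : Module.Finite ℤ J :=
      Module.Finite.of_injective J.subtype.toIntLinearMap Subtype.val_injective
    have hJtf : ∀ y : J, p • y = 0 → y = 0 := fun y hy =>
      Subtype.ext (htf y (congrArg Subtype.val hy))
    let f1 : L →+ J := f.codRestrict J fun x => AddSubgroup.mem_sup_left ⟨x, rfl⟩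
    have hf1 : ∀ x, ((f1 x : J) : L') = f x := fun _ => rfl
    have hf1e : ∀ (g : Γ) x, f1 (g • x) = g • f1 x := fun g x => Subtype.ext (hf g x)
    have hf1i : Function.Injective f1 := fun x y h => hinj (congrArg Subtype.val h)
    have hf1c : ∀ y : J, ∃ x, f1 x = l • y := by
      rintro ⟨y, hy⟩
      obtain ⟨a, ⟨a', rfl⟩, b, ⟨b', rfl⟩, rfl⟩ := AddSubgroup.mem_sup.mp hy
      obtain ⟨x, hx⟩ := hcok b'
      refine ⟨l • a' + x, Subtype.ext ?_⟩
      rw [hf1, map_add, map_nsmul, hx, hN', mul_nsmul']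
      change _ = l • (f a' + N' • b')
      rw [nsmul_add]
    have h2 : E.d (LP p J) = E.d (LP p L') :=
      ih N' hlt hN'0 J L' htf J.subtype (fun _ _ => rfl) Subtype.val_injective fun y =>
        ⟨⟨N' • y, AddSubgroup.mem_sup_right ⟨y, rfl⟩⟩, rfl⟩
    rw [← h2]
    by_cases hlp' : l = p
    · exact step_p E hp.ne_zero hJtf f1 hf1e hf1i (by rw [← hlp']; exact hf1c)
    · exact step_l E hp.ne_zero ((Nat.coprime_primes hlp hp).mpr hlp') f1 hf1e hf1i hf1c

section Rat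

variable (L : Type) [AddCommGroup L] [DistribMulAction Γ L]

/-- the action as `ℤ`-linear maps -/
def actZ : Γ →* Module.End ℤ L where
  toFun g := (DistribSMul.toAddMonoidHom L g).toIntLinearMap
  map_one' := LinearMap.ext fun x => one_smul Γ x
  map_mul' g h := LinearMap.ext fun x => mul_smul g h x

theorem actZ_apply (g : Γ) (x : L) : actZ L g x = g • x := rfl

/-- the rational representation -/
def repQ : Representation ℚ Γ (TensorProduct ℤ ℚ L) where
  toFun g := (actZ L g).baseChange ℚ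
  map_one' := by rw [map_one]; exact LinearMap.baseChange_one (R := ℤ) (A := ℚ) (M := L)
  map_mul' g h := by
    rw [map_mul]
    exact LinearMap.baseChange_mul (R := ℤ) (A := ℚ) (actZ L g) (actZ L h)

theorem repQ_tmul (g : Γ) (q : ℚ) (x : L) : repQ L g (q ⊗ₜ[ℤ] x) = q ⊗ₜ[ℤ] (g • x) := rfl

theorem repQ_char [Module.Free ℤ L] [Module.Finite ℤ L] (g : Γ) :
    (repQ L g |> LinearMap.trace ℚ _) = (tr g L : ℚ) := by
  have := LinearMap.trace_baseChange (R := ℤ) (A := ℚ) (M := L) (actZ L g)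
  exact this

end Rat

section Tens

variable {L : Type} [AddCommGroup L]

theorem tmul_injective [Module.Free ℤ L] :
    Function.Injective (fun x : L => (1 : ℚ) ⊗ₜ[ℤ] x) := by
  have h1 : Function.Injective ((Algebra.linearMap ℤ ℚ).rTensor L) :=
    Module.Flat.rTensor_preserves_injective_linearMap _ (by
      intro a b h
      have : ((a : ℤ) : ℚ) = b := h
      exact_mod_cast this)
  have h2 : (fun x : L => (1 : ℚ) ⊗ₜ[ℤ] x) =
      ((Algebra.linearMap ℤ ℚ).rTensor L) ∘ (TensorProduct.lid ℤ L).symm := by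
    funext x
    simp
  rw [h2]
  exact h1.comp (TensorProduct.lid ℤ L).symm.injective

theorem exists_den (v : TensorProduct ℤ ℚ L) : ∃ m : ℕ, 0 < m ∧ ∃ y : L,
    (m : ℚ) • v = (1 : ℚ) ⊗ₜ[ℤ] y := by
  induction v using TensorProduct.induction_on with
  | zero => exact ⟨1, one_pos, 0, by rw [smul_zero, TensorProduct.tmul_zero]⟩
  | tmul q x =>
    refine ⟨q.den, q.den_pos, q.num • x, ?_⟩
    rw [TensorProduct.smul_tmul', smul_eq_mul, Rat.den_mul_eq_num, ← TensorProduct.smul_tmul]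
    congr 1
    simp
  | add v w hv hw =>
    obtain ⟨m, hm, y, hy⟩ := hv
    obtain ⟨n, hn, z, hz⟩ := hw
    refine ⟨m * n, mul_pos hm hn, n • y + m • z, ?_⟩
    rw [smul_add, TensorProduct.tmul_add]
    push_cast
    congr 1
    · rw [mul_comm, mul_smul, hy, ← Nat.cast_smul_eq_nsmul ℤ, TensorProduct.tmul_smul]
      rw [← Int.cast_smul_eq_zsmul ℚ]
      norm_num
    · rw [mul_smul, hz, ← Nat.cast_smul_eq_nsmul ℤ, TensorProduct.tmul_smul]
      rw [← Int.cast_smul_eq_zsmul ℚ]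
      norm_num

theorem exists_common_den {L' : Type} [AddCommGroup L'] [Module.Finite ℤ L]
    (φ : L →+ TensorProduct ℤ ℚ L') : ∃ M : ℕ, 0 < M ∧ ∀ x, ∃ z : L',
      (M : ℚ) • φ x = (1 : ℚ) ⊗ₜ[ℤ] z := by
  classical
  obtain ⟨n, s, hs⟩ := Module.Finite.exists_fin (R := ℤ) (M := L)
  choose m hm y hy using fun i => exists_den (φ (s i))
  refine ⟨∏ i, m i, Finset.prod_pos fun i _ => hm i, fun x => ?_⟩
  have hx : x ∈ Submodule.span ℤ (Set.range s) := by rw [hs]; trivial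
  induction hx using Submodule.span_induction with
  | mem x hx =>
    obtain ⟨i, rfl⟩ := hx
    refine ⟨(∏ j ∈ Finset.univ.erase i, m j) • y i, ?_⟩
    rw [← Finset.mul_prod_erase Finset.univ m (Finset.mem_univ i), Nat.cast_mul,
      mul_comm, mul_smul, hy, Nat.cast_smul_eq_nsmul, TensorProduct.tmul_smul]
  | zero => exact ⟨0, by rw [map_zero, smul_zero, TensorProduct.tmul_zero]⟩
  | add x y _ _ hx hy =>
    obtain ⟨z, hz⟩ := hx
    obtain ⟨w, hw⟩ := hy
    exact ⟨z + w, by rw [map_add, smul_add, hz, hw, TensorProduct.tmul_add]⟩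
  | smul a x _ hx =>
    obtain ⟨z, hz⟩ := hx
    refine ⟨a • z, ?_⟩
    rw [map_zsmul, smul_comm, hz, TensorProduct.tmul_smul]

end Tens

/-- **(A1)** lattices with the same character have the same class modulo `p`. -/
theorem latticeEq (hp : p.Prime) : LatticeEq p := by
  intro Γ _ _ E L L' _ _ _ _ _ _ _ _ htr
  obtain ⟨e, he⟩ := rep_iso (k := ℚ) _ (TensorProduct ℤ ℚ L) (TensorProduct ℤ ℚ L')
    (repQ (Γ := Γ) L) (repQ (Γ := Γ) L') rfl (fun g => by
      have h1 := repQ_char (Γ := Γ) L g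
      have h2 := repQ_char (Γ := Γ) L' g
      rw [Representation.character, Representation.character, h1, h2, htr g])
  obtain ⟨M, hM, h1⟩ := exists_common_den (L := L) (L' := L')
    ((e : TensorProduct ℤ ℚ L →+ TensorProduct ℤ ℚ L').comp
      ((TensorProduct.mk ℤ ℚ L 1).toAddMonoidHom))
  obtain ⟨M', hM', h2⟩ := exists_common_den (L := L') (L' := L)
    ((e.symm : TensorProduct ℤ ℚ L' →+ TensorProduct ℤ ℚ L).comp
      ((TensorProduct.mk ℤ ℚ L' 1).toAddMonoidHom))
  choose f0 hf0 using h1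
  have hf0' : ∀ x, (M : ℚ) • e ((1 : ℚ) ⊗ₜ[ℤ] x) = (1 : ℚ) ⊗ₜ[ℤ] f0 x := hf0
  let f : L →+ L' :=
    { toFun := f0
      map_zero' := tmul_injective (by
        change (1 : ℚ) ⊗ₜ[ℤ] f0 0 = (1 : ℚ) ⊗ₜ[ℤ] (0 : L')
        rw [← hf0', TensorProduct.tmul_zero, map_zero, smul_zero, TensorProduct.tmul_zero])
      map_add' := fun x y => tmul_injective (by
        change (1 : ℚ) ⊗ₜ[ℤ] f0 (x + y) = (1 : ℚ) ⊗ₜ[ℤ] (f0 x + f0 y)
        rw [← hf0', TensorProduct.tmul_add, map_add, smul_add, hf0', hf0',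
          TensorProduct.tmul_add]) }
  have hf : ∀ x, (M : ℚ) • e ((1 : ℚ) ⊗ₜ[ℤ] x) = (1 : ℚ) ⊗ₜ[ℤ] f x := hf0
  have hM0 : (M : ℚ) ≠ 0 := by exact_mod_cast hM.ne'
  refine comm E hp (M * M') (mul_pos hM hM') L L' (fun y hy => ?_) f (fun g x => ?_)
    (fun x y hxy => ?_) (fun y => ?_)
  · have h3 : (p : ℤ) • y = 0 := by rw [natCast_zsmul]; exact hy
    exact (smul_eq_zero.mp h3).resolve_left (by exact_mod_cast hp.ne_zero)
  · apply tmul_injective
    change (1 : ℚ) ⊗ₜ[ℤ] f (g • x) = (1 : ℚ) ⊗ₜ[ℤ] (g • f x)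
    rw [← hf, ← repQ_tmul L g, he, ← repQ_tmul L' g, ← hf, map_smul]
  · have h3 : (M : ℚ) • e ((1 : ℚ) ⊗ₜ[ℤ] x) = (M : ℚ) • e ((1 : ℚ) ⊗ₜ[ℤ] y) := by
      rw [hf, hf, hxy]
    exact tmul_injective (e.injective (smul_right_injective _ hM0 h3))
  · obtain ⟨x, hx⟩ := h2 y
    have hx' : (M' : ℚ) • e.symm ((1 : ℚ) ⊗ₜ[ℤ] y) = (1 : ℚ) ⊗ₜ[ℤ] x := hx
    refine ⟨x, tmul_injective ?_⟩
    change (1 : ℚ) ⊗ₜ[ℤ] f x = (1 : ℚ) ⊗ₜ[ℤ] ((M * M') • y)
    rw [← hf, ← hx', map_smul, LinearEquiv.apply_symm_apply, smul_smul, ← Nat.cast_mul,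
      Nat.cast_smul_eq_nsmul, TensorProduct.tmul_smul]

end Fermat.Agent.CFT.EC
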