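import Fermat.Agent.CFT.EC.Art3

/-!
# Additive functions : homomorphism modules and permutation modules
-/

set_option autoImplicit false
set_option linter.unusedSectionVars false
set_option linter.style.haveILetI false

noncomputable section

namespace Fermat.Agent.CFT.EC

open Fermat.Agent.CC

variable {p : ℕ} {Γ : Type} [Group Γ]

/-- homomorphisms, with the conjugation action -/
def Hm (Y M : Type) [AddCommGroup Y] [AddCommGroup M] : Type := Y →+ M

section Hm

variable {Y M : Type} [AddCommGroup Y] [AddCommGroup M]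

instance : AddCommGroup (Hm Y M) := inferInstanceAs (AddCommGroup (Y →+ M))

instance : FunLike (Hm Y M) Y M := inferInstanceAs (FunLike (Y →+ M) Y M)

instance : AddMonoidHomClass (Hm Y M) Y M := inferInstanceAs (AddMonoidHomClass (Y →+ M) Y M)

/-- constructor -/
def Hm.of (f : Y →+ M) : Hm Y M := f

theorem Hm.of_apply (f : Y →+ M) (y : Y) : Hm.of f y = f y := rfl

theorem Hm.ext {f f' : Hm Y M} (h : ∀ y, f y = f' y) : f = f' := AddMonoidHom.ext h

theorem Hm.add_apply (f f' : Hm Y M) (y : Y) : (f + f') y = f y + f' y := rfl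

theorem Hm.zero_apply (y : Y) : (0 : Hm Y M) y = 0 := rfl

theorem Hm.nsmul_apply (n : ℕ) (f : Hm Y M) (y : Y) : (n • f) y = n • f y := rfl

instance [DistribMulAction Γ Y] [DistribMulAction Γ M] : DistribMulAction Γ (Hm Y M) where
  smul g φ := Hm.of (((DistribSMul.toAddMonoidHom M g).comp (φ : Y →+ M)).comp
    (DistribSMul.toAddMonoidHom Y g⁻¹))
  one_smul φ := Hm.ext fun y => by
    change (1 : Γ) • φ ((1 : Γ)⁻¹ • y) = φ y
    rw [inv_one, one_smul, one_smul]
  mul_smul g h φ := Hm.ext fun y => by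
    change (g * h) • φ ((g * h)⁻¹ • y) = g • h • φ (h⁻¹ • g⁻¹ • y)
    rw [mul_inv_rev, mul_smul, mul_smul]
  smul_zero g := Hm.ext fun y => by
    change g • (0 : M) = 0
    rw [smul_zero]
  smul_add g φ ψ := Hm.ext fun y => by
    change g • (φ (g⁻¹ • y) + ψ (g⁻¹ • y)) = g • φ (g⁻¹ • y) + g • ψ (g⁻¹ • y)
    rw [smul_add]

theorem Hm.smul_apply [DistribMulAction Γ Y] [DistribMulAction Γ M] (g : Γ) (φ : Hm Y M) (y : Y) :
    (g • φ) y = g • φ (g⁻¹ • y) := rfl

instance [Finite Y] [Finite M] : Finite (Hm Y M) :=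
  Finite.of_injective (fun (φ : Hm Y M) (y : Y) => φ y) fun _ _ h => Hm.ext (congrFun h)

/-- precomposition -/
def Hm.pre {Z : Type} [AddCommGroup Z] (i : Z →+ Y) (M : Type) [AddCommGroup M] :
    Hm Y M →+ Hm Z M where
  toFun φ := Hm.of ((φ : Y →+ M).comp i)
  map_zero' := rfl
  map_add' _ _ := rfl

theorem Hm.pre_apply {Z : Type} [AddCommGroup Z] (i : Z →+ Y) (φ : Hm Y M) (z : Z) :
    Hm.pre i M φ z = φ (i z) := rfl

end Hm

/-- extension of homomorphisms -/
theorem exists_ext (hp : p.Prime) {A B M : Type} [AddCommGroup A] [AddCommGroup B]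
    [AddCommGroup M] (hB : ∀ b : B, p • b = 0) (i : A →+ B) (hi : Function.Injective i)
    (φ : A →+ M) : ∃ ψ : B →+ M, ψ.comp i = φ := by
  haveI := Fact.mk hp
  letI : Module (ZMod p) A := AddCommGroup.zmodModule fun x => hi (by
    rw [map_nsmul, hB, map_zero])
  letI : Module (ZMod p) B := AddCommGroup.zmodModule hB
  obtain ⟨r, hr⟩ := LinearMap.exists_leftInverse_of_injective (i.toZModLinearMap p)
    (LinearMap.ker_eq_bot.mpr hi)
  refine ⟨φ.comp r.toAddMonoidHom, AddMonoidHom.ext fun x => ?_⟩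
  exact congrArg φ (LinearMap.congr_fun hr x)

/-- the additive function `Y ↦ E (Hom (Y, M))` -/
def AddF.hom (E : AddF p Γ) (hp : p.Prime) (M : Type) [AddCommGroup M] [DistribMulAction Γ M]
    (hM : Finite M) (hk : ∀ m : M, p • m = 0) : AddF p Γ where
  d Y _ _ := E.d (Hm Y M)
  add {A B C} _ _ _ _ _ _ hB hBk i j hi hj hinj hsurj hex := by
    have h := E.add (A := Hm C M) (B := Hm B M) (C := Hm A M) inferInstance
      (fun φ => Hm.ext fun y => by rw [Hm.nsmul_apply, hk, Hm.zero_apply])
      (Hm.pre j M) (Hm.pre i M)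
      (fun g φ => Hm.ext fun y => by
        rw [Hm.pre_apply, Hm.smul_apply, Hm.smul_apply, Hm.pre_apply, hj])
      (fun g φ => Hm.ext fun y => by
        rw [Hm.pre_apply, Hm.smul_apply, Hm.smul_apply, Hm.pre_apply, hi])
      (fun φ ψ h => Hm.ext fun y => by
        obtain ⟨y, rfl⟩ := hsurj y
        exact congrArg (fun f : Hm B M => f y) h)
      (fun φ => by
        obtain ⟨ψ, hψ⟩ := exists_ext hp hBk i hinj (φ : A →+ M)
        exact ⟨Hm.of ψ, hψ⟩)
      (fun φ => by
        constructor
        · intro h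
          have h0 : ∀ a, φ (i a) = 0 := fun a => congrArg (fun f : Hm A M => f a) h
          have h1 : ∀ b, φ (Function.surjInv hsurj (j b)) = φ b := by
            intro b
            have h2 : j (Function.surjInv hsurj (j b) - b) = 0 := by
              rw [map_sub, Function.surjInv_eq hsurj, sub_self]
            obtain ⟨a, ha⟩ := (hex _).mp h2
            have h3 := h0 a
            rw [ha, map_sub, sub_eq_zero] at h3
            exact h3
          refine ⟨Hm.of ⟨⟨fun c => φ (Function.surjInv hsurj c), ?_⟩, ?_⟩, ?_⟩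
          · have := h1 0
            rw [map_zero j, map_zero] at this
            exact this
          · intro x y
            obtain ⟨x, rfl⟩ := hsurj x
            obtain ⟨y, rfl⟩ := hsurj y
            change φ _ = φ _ + φ _
            rw [← map_add, h1, h1, h1, map_add]
          · exact Hm.ext h1
        · rintro ⟨ψ, rfl⟩
          refine Hm.ext fun a => ?_
          change ψ (j (i a)) = 0
          rw [(hex (i a)).mpr ⟨a, rfl⟩, map_zero])
    linarith

/-- functions on `X` with values in `M` -/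
def Fn (X M : Type) : Type := X → M

section Fn

variable {X M : Type} [AddCommGroup M]

instance : AddCommGroup (Fn X M) := inferInstanceAs (AddCommGroup (X → M))

theorem Fn.ext {f f' : Fn X M} (h : ∀ x, f x = f' x) : f = f' := funext h

theorem Fn.add_apply (f f' : Fn X M) (x : X) : (f + f') x = f x + f' x := rfl

theorem Fn.zero_apply (x : X) : (0 : Fn X M) x = 0 := rfl

theorem Fn.nsmul_apply (n : ℕ) (f : Fn X M) (x : X) : (n • f) x = n • f x := rfl

instance [MulAction Γ X] [DistribMulAction Γ M] : DistribMulAction Γ (Fn X M) where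
  smul g φ := fun x => g • φ (g⁻¹ • x)
  one_smul φ := Fn.ext fun y => by
    change (1 : Γ) • φ ((1 : Γ)⁻¹ • y) = φ y
    rw [inv_one, one_smul, one_smul]
  mul_smul g h φ := Fn.ext fun y => by
    change (g * h) • φ ((g * h)⁻¹ • y) = g • h • φ (h⁻¹ • g⁻¹ • y)
    rw [mul_inv_rev, mul_smul, mul_smul]
  smul_zero g := Fn.ext fun y => by
    change g • (0 : M) = 0
    rw [smul_zero]
  smul_add g φ ψ := Fn.ext fun y => by
    change g • (φ (g⁻¹ • y) + ψ (g⁻¹ • y)) = g • φ (g⁻¹ • y) + g • ψ (g⁻¹ • y)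
    rw [smul_add]

theorem Fn.smul_apply [MulAction Γ X] [DistribMulAction Γ M] (g : Γ) (φ : Fn X M) (x : X) :
    (g • φ) x = g • φ (g⁻¹ • x) := rfl

instance [Finite X] [Finite M] : Finite (Fn X M) := inferInstanceAs (Finite (X → M))

end Fn

instance {X : Type} [Finite X] : Module.Free ℤ (Pm X ℤ) :=
  inferInstanceAs (Module.Free ℤ (X → ℤ))

instance {X : Type} [Finite X] : Module.Finite ℤ (Pm X ℤ) :=
  inferInstanceAs (Module.Finite ℤ (X → ℤ))

open Classical in
/-- basis vectors -/
def dl {X : Type} (x : X) : Pm X ℤ := Pi.single x 1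

theorem dl_self {X : Type} (x : X) : dl x x = 1 := by
  classical
  unfold dl
  rw [Pi.single_apply, if_pos rfl]

theorem smul_dl {X : Type} [MulAction Γ X] (g : Γ) (x : X) : g • dl x = dl (g • x) := by
  classical
  funext y
  rw [Pm.smul_apply]
  unfold dl
  rw [Pi.single_apply, Pi.single_apply]
  congr 1
  rw [inv_smul_eq_iff]

theorem dl_span {X : Type} [Finite X] (f : Pm X ℤ) :
    ∃ s : Finset X, f = ∑ x ∈ s, f x • dl x := by
  classical
  haveI := Fintype.ofFinite X
  refine ⟨Finset.univ, ?_⟩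
  funext y
  have : ∀ x, (f x • dl x : Pm X ℤ) = Pi.single x (f x) := by
    intro x
    funext z
    change f x • (Pi.single x (1 : ℤ) : X → ℤ) z = (Pi.single x (f x) : X → ℤ) z
    rw [Pi.single_apply, Pi.single_apply]
    split_ifs <;> simp
  simp only [this]
  exact (congrFun (Finset.univ_sum_single (f : X → ℤ)) y).symm

/-- homomorphisms from a permutation module -/
theorem exists_hm_fn {X : Type} [Finite X] [MulAction Γ X] (M : Type) [AddCommGroup M]
    [DistribMulAction Γ M] (hk : ∀ m : M, p • m = 0) :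
    ∃ e : Hm (LP p (Pm X ℤ)) M ≃+ Fn X M, ∀ (g : Γ) φ, e (g • φ) = g • e φ := by
  classical
  haveI := Fintype.ofFinite X
  let e0 : Hm (LP p (Pm X ℤ)) M →+ Fn X M :=
    { toFun := fun φ x => φ (LP.mk p _ (dl x))
      map_zero' := rfl
      map_add' := fun _ _ => rfl }
  have he0 : ∀ φ x, e0 φ x = φ (LP.mk p _ (dl x)) := fun _ _ => rfl
  refine ⟨AddEquiv.ofBijective e0 ⟨?_, ?_⟩, fun g φ => ?_⟩
  · intro φ ψ h
    refine Hm.ext fun y => ?_
    obtain ⟨f, rfl⟩ := LP.mk_surjective y
    obtain ⟨s, hs⟩ := dl_span f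
    rw [hs, map_sum, map_sum, map_sum]
    refine Finset.sum_congr rfl fun x _ => ?_
    rw [map_zsmul, map_zsmul, map_zsmul]
    congr 1
    exact congrFun h x
  · intro F
    let ψ : Pm X ℤ →+ M :=
      { toFun := fun f => ∑ x, f x • F x
        map_zero' := by
          refine Finset.sum_eq_zero fun x _ => ?_
          exact zero_smul ℤ (F x)
        map_add' := fun f f' => by
          rw [← Finset.sum_add_distrib]
          refine Finset.sum_congr rfl fun x _ => ?_
          exact add_smul (f x) (f' x) (F x) }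
    have hψ : ∀ x, ψ (dl x) = F x := by
      intro x
      change ∑ y, (Pi.single x (1 : ℤ) : X → ℤ) y • F y = F x
      rw [Finset.sum_eq_single x]
      · rw [Pi.single_eq_same, one_smul]
      · intro y _ hy
        rw [Pi.single_eq_of_ne hy, zero_smul]
      · intro h
        exact absurd (Finset.mem_univ x) h
    refine ⟨Hm.of (QuotientAddGroup.lift _ ψ ?_), ?_⟩
    · rintro _ ⟨y, rfl⟩
      rw [AddMonoidHom.mem_ker]
      change ψ (p • y) = 0
      rw [map_nsmul, hk]
    · exact Fn.ext hψ
  · refine Fn.ext fun x => ?_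
    change g • φ (g⁻¹ • LP.mk p _ (dl x)) = g • φ (LP.mk p _ (dl (g⁻¹ • x)))
    rw [LP.smul_mk, smul_dl]

/-- the standard basis -/
def pmB (X : Type) [Finite X] : Module.Basis X ℤ (Pm X ℤ) := Pi.basisFun ℤ X

/-- trace on a permutation lattice -/
theorem tr_pm {X : Type} [Finite X] [MulAction Γ X] (g : Γ) :
    tr g (Pm X ℤ) = Nat.card (MulAction.fixedBy X g) := by
  classical
  haveI := Fintype.ofFinite X
  unfold tr
  rw [LinearMap.trace_eq_matrix_trace ℤ (pmB X), Matrix.trace]
  have h1 : ∀ x : X, ((LinearMap.toMatrix (pmB X) (pmB X))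
      (DistribSMul.toAddMonoidHom (Pm X ℤ) g).toIntLinearMap).diag x =
      if g • x = x then 1 else 0 := by
    intro x
    have h0 : pmB X x = dl x := by
      refine (Pi.basisFun_apply ℤ X x).trans ?_
      rfl
    rw [Matrix.diag_apply, LinearMap.toMatrix_apply, h0]
    change (g • dl x : Pm X ℤ) x = _
    rw [smul_dl]
    unfold dl
    rw [Pi.single_apply]
    simp only [eq_comm]
  rw [Finset.sum_congr rfl fun x _ => h1 x, Finset.sum_boole, Nat.card_eq_fintype_card,
    Fintype.card_subtype]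
  rfl

/-- permutation modules with the same character -/
theorem fn_eq (hp : p.Prime) [Finite Γ] (E : AddF p Γ) (M : Type) [AddCommGroup M]
    [DistribMulAction Γ M] (hM : Finite M) (hk : ∀ m : M, p • m = 0) (X Y : Type) [Finite X]
    [Finite Y] [MulAction Γ X] [MulAction Γ Y]
    (h : ∀ g : Γ, Nat.card (MulAction.fixedBy X g) = Nat.card (MulAction.fixedBy Y g)) :
    E.d (Fn X M) = E.d (Fn Y M) := by
  obtain ⟨e, he⟩ := exists_hm_fn (Γ := Γ) (p := p) (X := X) M hk
  obtain ⟨e', he'⟩ := exists_hm_fn (Γ := Γ) (p := p) (X := Y) M hk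
  have hkX : ∀ f : Fn X M, p • f = 0 := fun f => Fn.ext fun x => by
    rw [Fn.nsmul_apply, hk, Fn.zero_apply]
  have hkY : ∀ f : Fn Y M, p • f = 0 := fun f => Fn.ext fun x => by
    rw [Fn.nsmul_apply, hk, Fn.zero_apply]
  rw [← E.congr inferInstance hkX e he, ← E.congr inferInstance hkY e' he']
  exact latticeEq hp Γ (E.hom hp M hM hk) (Pm X ℤ) (Pm Y ℤ) fun g => by
    rw [tr_pm, tr_pm, h]

end Fermat.Agent.CFT.EC
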