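import Fermat.Agent.CFT.EC.Art4

/-!
# Artin induction : from cyclic subgroups
-/

set_option autoImplicit false
set_option linter.unusedSectionVars false
set_option linter.style.haveILetI false

noncomputable section

namespace Fermat.Agent.CFT.EC

open Fermat.Agent.CC

variable {p : ℕ} {Γ : Type} [Group Γ]

/-- additivity for disjoint unions -/
theorem fn_sum (E : AddF p Γ) (M : Type) [AddCommGroup M] [DistribMulAction Γ M] (hM : Finite M)
    (hk : ∀ m : M, p • m = 0) (X Y : Type) [Finite X] [Finite Y] [MulAction Γ X] [MulAction Γ Y] :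
    E.d (Fn (X ⊕ Y) M) = E.d (Fn X M) + E.d (Fn Y M) := by
  classical
  let i : Fn X M →+ Fn (X ⊕ Y) M :=
    { toFun := fun f => Sum.elim f fun _ => 0
      map_zero' := by
        funext z
        rcases z with z | z <;> rfl
      map_add' := fun f f' => by
        funext z
        rcases z with z | z
        · rfl
        · exact (add_zero (0 : M)).symm }
  let j : Fn (X ⊕ Y) M →+ Fn Y M :=
    { toFun := fun f y => f (Sum.inr y)
      map_zero' := rfl
      map_add' := fun _ _ => rfl }
  refine E.add inferInstance (fun f => Fn.ext fun x => by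
    rw [Fn.nsmul_apply, hk, Fn.zero_apply]) i j (fun g f => ?_) (fun g f => rfl) (fun f f' h => ?_)
    (fun f => ⟨fun z => Sum.elim (fun _ => 0) f z, rfl⟩) (fun f => ⟨fun h => ?_, ?_⟩)
  · funext z
    rcases z with z | z
    · rfl
    · change (0 : M) = g • (0 : M)
      rw [smul_zero]
  · funext z
    exact congrFun h (Sum.inl z)
  · refine ⟨fun x => f (Sum.inl x), ?_⟩
    funext z
    rcases z with z | z
    · rfl
    · exact (congrFun h z).symm
  · rintro ⟨f, rfl⟩
    rfl

theorem card_fixedBy_sum (X Y : Type) [Finite X] [Finite Y] [MulAction Γ X] [MulAction Γ Y]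
    (g : Γ) : Nat.card (MulAction.fixedBy (X ⊕ Y) g) =
      Nat.card (MulAction.fixedBy X g) + Nat.card (MulAction.fixedBy Y g) := by
  rw [← Nat.card_sum]
  refine Nat.card_congr ?_
  exact
    { toFun := fun z => match z with
        | ⟨Sum.inl x, h⟩ => Sum.inl ⟨x, Sum.inl_injective h⟩
        | ⟨Sum.inr x, h⟩ => Sum.inr ⟨x, Sum.inr_injective h⟩
      invFun := fun z => match z with
        | Sum.inl x => ⟨Sum.inl x.1, congrArg Sum.inl x.2⟩
        | Sum.inr x => ⟨Sum.inr x.1, congrArg Sum.inr x.2⟩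
      left_inv := by
        rintro ⟨z | z, h⟩ <;> rfl
      right_inv := by
        rintro (z | z) <;> rfl }

/-- the empty set -/
def Emp : Type := Empty

instance : IsEmpty Emp := inferInstanceAs (IsEmpty Empty)

instance : MulAction Γ Emp where
  smul _ x := x
  one_smul _ := rfl
  mul_smul _ _ _ := rfl

/-- virtual permutation characters together with the value of `E` -/
def vir (E : AddF p Γ) (M : Type) [AddCommGroup M] [DistribMulAction Γ M] (hM : Finite M)
    (hk : ∀ m : M, p • m = 0) : AddSubgroup ((Γ → ℤ) × ℤ) where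
  carrier := {v | ∃ (X Y : Type) (_ : Finite X) (_ : Finite Y) (_ : MulAction Γ X)
    (_ : MulAction Γ Y), (∀ g, v.1 g = (Nat.card (MulAction.fixedBy X g) : ℤ) -
      Nat.card (MulAction.fixedBy Y g)) ∧ v.2 = E.d (Fn X M) - E.d (Fn Y M)}
  zero_mem' := ⟨PUnit, PUnit, inferInstance, inferInstance, inferInstance, inferInstance,
    fun g => (sub_self _).symm, (sub_self _).symm⟩
  add_mem' := by
    rintro v w ⟨X, Y, _, _, _, _, h1, h2⟩ ⟨X', Y', _, _, _, _, h1', h2'⟩
    refine ⟨X ⊕ X', Y ⊕ Y', inferInstance, inferInstance, inferInstance, inferInstance,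
      fun g => ?_, ?_⟩
    · rw [card_fixedBy_sum, card_fixedBy_sum, Prod.fst_add, Pi.add_apply, h1, h1']
      push_cast
      ring
    · rw [fn_sum E M hM hk, fn_sum E M hM hk, Prod.snd_add, h2, h2']
      ring
  neg_mem' := by
    rintro v ⟨X, Y, _, _, _, _, h1, h2⟩
    refine ⟨Y, X, inferInstance, inferInstance, inferInstance, inferInstance,
      fun g => ?_, ?_⟩
    · rw [Prod.fst_neg, Pi.neg_apply, h1]
      ring
    · rw [Prod.snd_neg, h2]
      ring

section

variable {E : AddF p Γ} {M : Type} [AddCommGroup M] [DistribMulAction Γ M] {hM : Finite M}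
    {hk : ∀ m : M, p • m = 0}

theorem vir_zero (hp : p.Prime) [Finite Γ] {a : ℤ} (h : ((0 : Γ → ℤ), a) ∈ vir E M hM hk) :
    a = 0 := by
  obtain ⟨X, Y, _, _, _, _, h1, h2⟩ := h
  have h3 := fn_eq hp E M hM hk X Y fun g => by
    have := h1 g
    simp only [Pi.zero_apply] at this
    omega
  change a = _ at h2
  rw [h2, h3, sub_self]

theorem vir_of (X : Type) [Finite X] [MulAction Γ X] :
    ((fun g => (Nat.card (MulAction.fixedBy X g) : ℤ)), E.d (Fn X M)) ∈ vir E M hM hk := by
  refine ⟨X, Emp, inferInstance, inferInstance, inferInstance, inferInstance, ?_, ?_⟩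
  · intro g
    rw [Nat.card_of_isEmpty (α := MulAction.fixedBy Emp g)]
    simp
  · haveI : Subsingleton (Fn Emp M) := inferInstanceAs (Subsingleton (Emp → M))
    rw [E.zero (Fn Emp M), sub_zero]

theorem vir_one : ((fun _ => (1 : ℤ)), E.d M) ∈ vir E M hM hk := by
  have h := vir_of (E := E) (M := M) (hM := hM) (hk := hk) PUnit
  have h1 : E.d (Fn PUnit M) = E.d M := by
    refine E.congr hM hk
      { toFun := fun f => f PUnit.unit
        invFun := fun m _ => m
        left_inv := fun f => rfl
        right_inv := fun _ => rfl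
        map_add' := fun _ _ => rfl } fun g a => rfl
  have h2 : (fun g : Γ => (Nat.card (MulAction.fixedBy PUnit.{1} g) : ℤ)) = fun _ => 1 := by
    funext g
    have : Unique (MulAction.fixedBy PUnit.{1} g) := ⟨⟨⟨PUnit.unit, rfl⟩⟩, fun _ => rfl⟩
    rw [Nat.card_unique]
    rfl
  rw [h1, h2] at h
  exact h

end

section Theta

variable [Finite Γ]

/-- `θ_C(g)` : the number of `x` such that `x⁻¹ g x` generates `C` -/
def theta (C : Subgroup Γ) (g : Γ) : ℕ := Nat.card {x : Γ // Subgroup.zpowers (x⁻¹ * g * x) = C}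

theorem theta_eq_zero {C : Subgroup Γ} (hC : ¬ IsCyclic C) (g : Γ) : theta C g = 0 := by
  unfold theta
  haveI : IsEmpty {x : Γ // Subgroup.zpowers (x⁻¹ * g * x) = C} := ⟨fun x => hC (by
    rw [← x.2]
    exact inferInstance)⟩
  exact Nat.card_of_isEmpty

theorem card_mul_fixedBy (C : Subgroup Γ) (g : Γ) :
    Nat.card C * Nat.card (MulAction.fixedBy (Γ ⧸ C) g) =
      Nat.card {x : Γ // x⁻¹ * g * x ∈ C} := by
  rw [← Nat.card_prod]
  refine (Nat.card_congr ((QuotientGroup.preimageMkEquivSubgroupProdSet C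
    (MulAction.fixedBy (Γ ⧸ C) g)).symm.trans (Equiv.subtypeEquivRight fun x => ?_)))
  change g • (x : Γ ⧸ C) = x ↔ _
  change ((g * x : Γ) : Γ ⧸ C) = x ↔ _
  rw [eq_comm, QuotientGroup.eq, mul_assoc]

open Classical in
theorem sum_theta [Fintype (Subgroup Γ)] (C : Subgroup Γ) (g : Γ) :
    ∑ D ∈ Finset.univ.filter (· ≤ C), theta D g = Nat.card {x : Γ // x⁻¹ * g * x ∈ C} := by
  haveI := Fintype.ofFinite Γ
  have h := Finset.card_eq_sum_card_fiberwise (s := Finset.univ.filter fun x : Γ => x⁻¹ * g * x ∈ C)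
    (t := Finset.univ.filter (· ≤ C)) (f := fun x => Subgroup.zpowers (x⁻¹ * g * x)) (by
      intro x hx
      simp only [Finset.coe_filter, Finset.mem_univ, true_and, Set.mem_ofPred_eq] at hx ⊢
      rwa [Subgroup.zpowers_le])
  rw [Nat.card_eq_fintype_card, Fintype.card_subtype, h]
  refine Finset.sum_congr rfl fun D hD => ?_
  rw [Finset.mem_filter] at hD
  unfold theta
  rw [Nat.card_eq_fintype_card, Fintype.card_subtype]
  congr 1
  ext x
  simp only [Finset.mem_filter, Finset.mem_univ, true_and]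
  constructor
  · intro h1
    refine ⟨?_, h1⟩
    have h2 : x⁻¹ * g * x ∈ Subgroup.zpowers (x⁻¹ * g * x) := Subgroup.mem_zpowers _
    rw [h1] at h2
    exact hD.2 h2
  · exact fun h1 => h1.2

end Theta

/-- Artin induction from the cyclic subgroups -/
theorem artin_cyclic (hp : p.Prime) [Finite Γ] (E : AddF p Γ) (M : Type) [AddCommGroup M]
    [DistribMulAction Γ M] (hM : Finite M) (hk : ∀ m : M, p • m = 0)
    (h : ∀ C : Subgroup Γ, IsCyclic C → E.d (Fn (Γ ⧸ C) M) = 0) : E.d M = 0 := by
  classical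
  haveI := Fintype.ofFinite (Subgroup Γ)
  have key : ∀ n : ℕ, ∀ C : Subgroup Γ, Nat.card C = n →
      ((fun g => (theta C g : ℤ)), (0 : ℤ)) ∈ vir E M hM hk := by
    intro n
    induction n using Nat.strong_induction_on with
    | _ n ih =>
    intro C hn
    by_cases hC : IsCyclic C
    · have h1 := vir_of (E := E) (M := M) (hM := hM) (hk := hk) (Γ ⧸ C)
      rw [h C hC] at h1
      have h2 := (vir E M hM hk).nsmul_mem h1 (Nat.card C)
      have h3 : ∑ D ∈ Finset.univ.filter (· < C), ((fun g => (theta D g : ℤ)), (0 : ℤ)) ∈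
          vir E M hM hk := (vir E M hM hk).sum_mem fun D hD => by
        have hD' : D < C := (Finset.mem_filter.mp hD).2
        refine ih (Nat.card D) ?_ D rfl
        rw [← hn]
        exact Set.Finite.card_lt_card (Set.toFinite _) hD'
      have h4 := (vir E M hM hk).sub_mem h2 h3
      convert h4 using 1
      refine Prod.ext ?_ ?_
      · funext g
        have h5 := sum_theta C g
        rw [← card_mul_fixedBy] at h5
        have h6 : Finset.univ.filter (fun D : Subgroup Γ => D ≤ C) =
            insert C (Finset.univ.filter (fun D : Subgroup Γ => D < C)) := by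
          ext D
          simp only [Finset.mem_filter, Finset.mem_univ, true_and, Finset.mem_insert]
          rw [le_iff_eq_or_lt]
        rw [h6, Finset.sum_insert (by simp)] at h5
        rw [Prod.fst_sub, Prod.fst_sum, Pi.sub_apply, Finset.sum_apply, Prod.smul_fst,
          Pi.smul_apply, nsmul_eq_mul]
        have h7 : ((theta C g : ℕ) : ℤ) + ∑ D ∈ Finset.univ.filter (fun D : Subgroup Γ => D < C),
            (theta D g : ℤ) = (Nat.card C : ℤ) * Nat.card (MulAction.fixedBy (Γ ⧸ C) g) := by
          exact_mod_cast h5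
        exact eq_sub_of_add_eq h7
      · rw [Prod.snd_sub, Prod.snd_sum, Prod.smul_snd]
        simp
    · have h1 : (fun g => (theta C g : ℤ)) = 0 := by
        funext g
        rw [theta_eq_zero hC]
        rfl
      rw [h1]
      exact (vir E M hM hk).zero_mem
  have h1 : ∑ D ∈ Finset.univ.filter (· ≤ (⊤ : Subgroup Γ)),
      ((fun g => (theta D g : ℤ)), (0 : ℤ)) ∈ vir E M hM hk :=
    (vir E M hM hk).sum_mem fun D _ => key _ D rfl
  have h2 := (vir E M hM hk).sub_mem ((vir E M hM hk).nsmul_mem
    (vir_one (E := E) (M := M) (hM := hM) (hk := hk)) (Nat.card Γ)) h1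
  have h3 : ((0 : Γ → ℤ), (Nat.card Γ : ℤ) * E.d M) ∈ vir E M hM hk := by
    convert h2 using 1
    refine Prod.ext ?_ ?_
    · funext g
      rw [Prod.fst_sub, Prod.fst_sum, Pi.sub_apply, Finset.sum_apply, Prod.smul_fst,
          Pi.smul_apply, nsmul_eq_mul]
      have h4 := sum_theta (⊤ : Subgroup Γ) g
      have h5 : Nat.card {x : Γ // x⁻¹ * g * x ∈ (⊤ : Subgroup Γ)} = Nat.card Γ :=
        Nat.card_congr (Equiv.subtypeUnivEquiv fun x => Subgroup.mem_top _)
      rw [h5] at h4
      have h6 : ∑ D ∈ Finset.univ.filter (fun D : Subgroup Γ => D ≤ ⊤), (theta D g : ℤ) =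
        Nat.card Γ := by exact_mod_cast h4
      change (0 : ℤ) = (Nat.card Γ : ℤ) * 1 - _
      rw [mul_one]
      exact (sub_eq_zero.mpr h6.symm).symm
    · rw [Prod.snd_sub, Prod.snd_sum, Prod.smul_snd]
      simp
  have h4 := vir_zero hp h3
  rcases mul_eq_zero.mp h4 with h5 | h5
  · exact absurd h5 (by exact_mod_cast Nat.card_pos.ne')
  · exact h5

end Fermat.Agent.CFT.EC
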