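import Fermat.Agent.CFT.EC.Art5

/-!
# Artin induction : from cyclic subgroups to subgroups of order prime to `p`
-/

set_option autoImplicit false
set_option linter.unusedSectionVars false
set_option linter.style.haveILetI false

noncomputable section

namespace Fermat.Agent.CFT.EC

open Fermat.Agent.CC

variable {p : ℕ} {Γ : Type} [Group Γ]

/-- induction of additive functions -/
def AddF.co (E : AddF p Γ) [Finite Γ] (C : Subgroup Γ) : AddF p C where
  d W _ _ := E.d (CoInd C W)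
  add {A B W} _ _ _ _ _ _ hB hBk i j hi hj hinj hsurj hex := by
    let i' : CoInd C A →+ CoInd C B :=
      { toFun := fun f => ⟨fun x => i (f.1 x), fun u x => by
          beta_reduce
          rw [f.2 u x, hi]⟩
        map_zero' := Subtype.ext (funext fun x => map_zero i)
        map_add' := fun f f' => Subtype.ext (funext fun x => map_add i _ _) }
    let j' : CoInd C B →+ CoInd C W :=
      { toFun := fun f => ⟨fun x => j (f.1 x), fun u x => by
          beta_reduce
          rw [f.2 u x, hj]⟩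
        map_zero' := Subtype.ext (funext fun x => map_zero j)
        map_add' := fun f f' => Subtype.ext (funext fun x => map_add j _ _) }
    haveI : Finite (CoInd C B) := inferInstance
    refine E.add inferInstance (fun f => CoInd.ext fun x => ?_) i' j' (fun _ _ => rfl)
      (fun _ _ => rfl) (fun f f' h => CoInd.ext fun x => ?_) (fun f => ?_) (fun f => ⟨fun h => ?_, ?_⟩)
    · exact hBk (f.1 x)
    · exact hinj (congrFun (congrArg Subtype.val h) x)
    · obtain ⟨κ, hκ, -, -⟩ := exists_kappa C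
      refine ⟨⟨fun x => κ x • Function.surjInv hsurj ((κ x)⁻¹ • f.1 x), fun u x => ?_⟩,
        CoInd.ext fun x => ?_⟩
      · beta_reduce
        rw [f.2 u x, hκ, mul_smul, mul_inv_rev, mul_smul, inv_smul_smul]
      · change j (κ x • Function.surjInv hsurj ((κ x)⁻¹ • f.1 x)) = _
        rw [hj, Function.surjInv_eq hsurj, smul_inv_smul]
    · have h1 : ∀ x, ∃ a, i a = f.1 x := fun x => (hex _).mp (congrFun (congrArg Subtype.val h) x)
      choose a ha using h1
      refine ⟨⟨a, fun u x => hinj ?_⟩, CoInd.ext ha⟩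
      rw [ha, hi, ha, f.2 u x]
    · rintro ⟨f, rfl⟩
      exact CoInd.ext fun x => (hex _).mpr ⟨f.1 x, rfl⟩

/-- functions on `Γ ⧸ C` form a coinduced module -/
theorem exists_fn_coInd (C : Subgroup Γ) (M : Type) [AddCommGroup M] [DistribMulAction Γ M] :
    ∃ e : Fn (Γ ⧸ C) M ≃+ CoInd C M, ∀ (g : Γ) f, e (g • f) = g • e f := by
  let e0 : Fn (Γ ⧸ C) M →+ CoInd C M :=
    { toFun := fun f => ⟨fun x => x • f ((x⁻¹ : Γ) : Γ ⧸ C), fun u x => by
        have h : (((u * x)⁻¹ : Γ) : Γ ⧸ C) = ((x⁻¹ : Γ) : Γ ⧸ C) := by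
          rw [QuotientGroup.eq]
          simp
        change ((u : Γ) * x) • f ((((u : Γ) * x)⁻¹ : Γ) : Γ ⧸ C) = _
        rw [h, mul_smul]
        rfl⟩
      map_zero' := CoInd.ext fun x => smul_zero x
      map_add' := fun f f' => CoInd.ext fun x => smul_add x _ _ }
  refine ⟨AddEquiv.ofBijective e0 ⟨?_, fun F => ?_⟩, fun g f => CoInd.ext fun x => ?_⟩
  · intro f f' h
    refine Fn.ext fun y => ?_
    obtain ⟨x, rfl⟩ := QuotientGroup.mk_surjective y
    have h1 : x⁻¹ • f ((x⁻¹⁻¹ : Γ) : Γ ⧸ C) = x⁻¹ • f' ((x⁻¹⁻¹ : Γ) : Γ ⧸ C) :=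
      congrFun (congrArg Subtype.val h) x⁻¹
    rw [inv_inv] at h1
    exact smul_left_cancel _ h1
  · refine ⟨fun y => Quotient.liftOn' y (fun x => x • F.1 x⁻¹) (fun a b hab => ?_), ?_⟩
    · rw [QuotientGroup.leftRel_apply] at hab
      have h1 := F.2 ⟨_, hab⟩ b⁻¹
      have h2 : ((⟨a⁻¹ * b, hab⟩ : C) : Γ) * b⁻¹ = a⁻¹ := by
        change a⁻¹ * b * b⁻¹ = a⁻¹
        group
      rw [h2] at h1
      rw [h1]
      change a • (a⁻¹ * b) • F.1 b⁻¹ = _
      rw [smul_smul]
      congr 1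
      group
    · refine CoInd.ext fun x => ?_
      change x • (x⁻¹ • F.1 (x⁻¹)⁻¹) = _
      rw [smul_inv_smul, inv_inv]
  · change x • g • f (g⁻¹ • ((x⁻¹ : Γ) : Γ ⧸ C)) = (x * g) • f (((x * g)⁻¹ : Γ) : Γ ⧸ C)
    rw [mul_smul, mul_inv_rev]
    rfl

/-- coinduction in stages -/
theorem exists_stages (C D : Subgroup Γ) (hDC : D ≤ C) (M : Type) [AddCommGroup M]
    [DistribMulAction Γ M] :
    ∃ e : CoInd C (Fn (C ⧸ D.subgroupOf C) M) ≃+ CoInd D M, ∀ (g : Γ) f, e (g • f) = g • e f := by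
  let e0 : CoInd C (Fn (C ⧸ D.subgroupOf C) M) →+ CoInd D M :=
    { toFun := fun F => ⟨fun x => F.1 x ((1 : C) : C ⧸ D.subgroupOf C), fun u x => by
        have h1 := F.2 ⟨u, hDC u.2⟩ x
        have h2 : (⟨(u : Γ), hDC u.2⟩ : C)⁻¹ • ((1 : C) : C ⧸ D.subgroupOf C) =
            ((1 : C) : C ⧸ D.subgroupOf C) := by
          change (((⟨(u : Γ), hDC u.2⟩ : C)⁻¹ * 1 : C) : C ⧸ D.subgroupOf C) = _
          rw [QuotientGroup.eq, mul_one, mul_one, Subgroup.mem_subgroupOf]
          simp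
        have h3 := congrFun h1 ((1 : C) : C ⧸ D.subgroupOf C)
        rw [Fn.smul_apply, h2] at h3
        exact h3⟩
      map_zero' := rfl
      map_add' := fun f f' => rfl }
  refine ⟨AddEquiv.ofBijective e0 ⟨?_, fun F => ?_⟩, fun g f => rfl⟩
  · rw [injective_iff_map_eq_zero]
    intro F h
    refine CoInd.ext fun x => Fn.ext fun y => ?_
    obtain ⟨y, rfl⟩ := QuotientGroup.mk_surjective y
    have h0 : F.1 ((y⁻¹ : C) * x) ((1 : C) : C ⧸ D.subgroupOf C) = 0 :=
      congrFun (congrArg Subtype.val h) _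
    rw [F.2 y⁻¹ x, Fn.smul_apply, inv_inv] at h0
    have h1 : y • ((1 : C) : C ⧸ D.subgroupOf C) = (y : C ⧸ D.subgroupOf C) := by
      change ((y * 1 : C) : C ⧸ D.subgroupOf C) = _
      rw [mul_one]
    rw [h1, smul_eq_zero_iff_eq] at h0
    exact h0
  · have hwd : ∀ (x : Γ) (a b : C), a⁻¹ * b ∈ D.subgroupOf C →
        (a : Γ) • F.1 ((a : Γ)⁻¹ * x) = (b : Γ) • F.1 ((b : Γ)⁻¹ * x) := by
      intro x a b hab
      rw [Subgroup.mem_subgroupOf] at hab
      have h1 := F.2 ⟨_, hab⟩ ((b : Γ)⁻¹ * x)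
      have h2 : ((⟨((a⁻¹ * b : C) : Γ), hab⟩ : D) : Γ) * ((b : Γ)⁻¹ * x) = (a : Γ)⁻¹ * x := by
        change ((a : Γ)⁻¹ * b) * ((b : Γ)⁻¹ * x) = _
        group
      rw [h2] at h1
      rw [h1]
      change (a : Γ) • ((a : Γ)⁻¹ * b) • F.1 ((b : Γ)⁻¹ * x) = _
      rw [smul_smul]
      congr 1
      group
    refine ⟨⟨fun x y => Quotient.liftOn' y (fun a : C => (a : Γ) • F.1 ((a : Γ)⁻¹ * x))
      (fun a b hab => ?_), fun u x => ?_⟩, ?_⟩
    · rw [QuotientGroup.leftRel_apply] at hab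
      exact hwd x a b hab
    · refine Fn.ext fun y => ?_
      obtain ⟨y, rfl⟩ := QuotientGroup.mk_surjective y
      change (y : Γ) • F.1 ((y : Γ)⁻¹ * (u * x)) = (u : Γ) • ((u⁻¹ * y : C) : Γ) •
        F.1 (((u⁻¹ * y : C) : Γ)⁻¹ * x)
      rw [smul_smul]
      congr 1
      · change (y : Γ) = u * ((u : Γ)⁻¹ * y)
        group
      · have h5 : (y : Γ)⁻¹ * (u * x) = ((u : Γ)⁻¹ * y)⁻¹ * x := by group
        exact congrArg F.1 h5
    · refine CoInd.ext fun x => ?_
      change ((1 : C) : Γ) • F.1 (((1 : C) : Γ)⁻¹ * x) = _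
      simp

/-- homomorphisms from the trivial module -/
theorem exists_hm_tv (M : Type) [AddCommGroup M] [DistribMulAction Γ M]
    (hk : ∀ m : M, p • m = 0) :
    ∃ e : Hm (Tv (ZMod p)) M ≃+ M, ∀ (g : Γ) f, e (g • f) = g • e f := by
  let e0 : Hm (Tv (ZMod p)) M →+ M :=
    { toFun := fun φ => φ (1 : ZMod p)
      map_zero' := rfl
      map_add' := fun _ _ => rfl }
  refine ⟨AddEquiv.ofBijective e0 ⟨?_, fun m => ?_⟩, fun g f => rfl⟩
  · intro φ ψ h
    refine Hm.ext fun y => ?_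
    obtain ⟨n, hn⟩ : ∃ n : ℤ, (n : ZMod p) = y := ZMod.intCast_surjective y
    have h1 : y = n • (1 : ZMod p) := by
      rw [← hn]
      exact (zsmul_one (R := ZMod p) n).symm
    have h2 : (φ (1 : ZMod p) : M) = ψ (1 : ZMod p) := h
    have h3 : (φ (n • (1 : ZMod p) : ZMod p) : M) = n • φ (1 : ZMod p) := map_zsmul φ n _
    have h4 : (ψ (n • (1 : ZMod p) : ZMod p) : M) = n • ψ (1 : ZMod p) := map_zsmul ψ n _
    rw [h1, h3, h4, h2]
  · have hm : zmultiplesHom M m p = 0 := by rw [zmultiplesHom_apply, natCast_zsmul, hk]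
    refine ⟨Hm.of (ZMod.lift p ⟨zmultiplesHom M m, hm⟩), ?_⟩
    change ZMod.lift p ⟨zmultiplesHom M m, hm⟩ (1 : ZMod p) = m
    have := ZMod.lift_coe p ⟨zmultiplesHom M m, hm⟩ 1
    rw [Int.cast_one] at this
    rw [this, zmultiplesHom_apply, one_smul]

/-- actions of `p`-groups are unipotent -/
theorem d_unipotent (hp : p.Prime) (E : AddF p Γ) (n : ℕ) : ∀ (W : Type) [AddCommGroup W]
    [DistribMulAction Γ W], Finite W → (∀ w : W, p • w = 0) →
    (∀ g : Γ, ∃ k : ℕ, ∀ w : W, g ^ (p ^ k) • w = w) → Nat.card W = n →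
    ∃ r : ℕ, Nat.card W = p ^ r ∧ E.d W = r * E.d (Tv (ZMod p)) := by
  haveI := Fact.mk hp
  induction n using Nat.strong_induction_on with
  | _ n ih =>
  intro W _ _ hW hk hu hn
  by_cases hs : Subsingleton W
  · exact ⟨0, by rw [pow_zero]; exact Nat.card_unique, by rw [E.zero W]; simp⟩
  · rw [not_subsingleton_iff_nontrivial] at hs
    -- a fixed vector
    obtain ⟨w, hw, hw0⟩ : ∃ w : W, (∀ g : Γ, g • w = w) ∧ 0 ≠ w := by
      have hP : IsPGroup p (MulAction.toPermHom Γ W).range := by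
        rintro ⟨_, g, rfl⟩
        obtain ⟨k, hk⟩ := hu g
        refine ⟨k, Subtype.ext ?_⟩
        change (MulAction.toPermHom Γ W g) ^ (p ^ k) = 1
        rw [← map_pow]
        exact Equiv.ext hk
      have hdvd : p ∣ Nat.card W := by
        obtain ⟨x, hx⟩ := exists_ne (0 : W)
        have h1 : addOrderOf x = p := addOrderOf_eq_prime (hk x) hx
        rw [← h1]
        exact addOrderOf_dvd_natCard x
      obtain ⟨w, hw, hw0⟩ := hP.exists_fixed_point_of_prime_dvd_card_of_fixed_point W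
        hdvd (a := (0 : W)) (by
          rintro ⟨_, g, rfl⟩
          exact smul_zero g)
      exact ⟨w, fun g => hw ⟨_, g, rfl⟩, hw0⟩
    let i : Tv (ZMod p) →+ W := ZMod.lift p ⟨zmultiplesHom W w, by
      rw [zmultiplesHom_apply, natCast_zsmul, hk]⟩
    have hi : ∀ n : ℤ, i (n : ZMod p) = n • w := fun n => by
      change ZMod.lift p ⟨zmultiplesHom W w, _⟩ (n : ZMod p) = n • w
      rw [ZMod.lift_coe]
      rfl
    have hinj : Function.Injective i := by
      change Function.Injective (ZMod.lift p ⟨zmultiplesHom W w, _⟩)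
      rw [ZMod.lift_injective]
      intro m hm
      rw [ZMod.intCast_zmod_eq_zero_iff_dvd]
      have h1 : addOrderOf w = p := addOrderOf_eq_prime (hk w) hw0.symm
      rw [← h1]
      exact addOrderOf_dvd_iff_zsmul_eq_zero.mpr hm
    have heq : ∀ (g : Γ) x, i (g • x) = g • i x := by
      intro g x
      obtain ⟨n, hn⟩ : ∃ n : ℤ, (n : ZMod p) = x := ZMod.intCast_surjective x
      rw [Tv.smul_eq, ← hn, hi, smul_comm, hw]
    letI : DistribMulAction Γ (W ⧸ i.range) := quoAct i.range (by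
      rintro g _ ⟨x, rfl⟩
      exact ⟨g • x, heq g x⟩)
    have hcard : Nat.card W = Nat.card (W ⧸ i.range) * p := by
      rw [AddSubgroup.card_eq_card_quotient_mul_card_addSubgroup i.range]
      congr 1
      rw [← Nat.card_congr (AddMonoidHom.ofInjective hinj).toEquiv]
      exact Nat.card_zmod p
    have hlt : Nat.card (W ⧸ i.range) < n := by
      rw [← hn, hcard]
      exact lt_mul_of_one_lt_right Nat.card_pos hp.one_lt
    obtain ⟨r, hr, hr'⟩ := ih _ hlt (W ⧸ i.range) inferInstance (fun x => by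
      obtain ⟨x, rfl⟩ := QuotientAddGroup.mk_surjective x
      change (((p • x : W)) : W ⧸ i.range) = 0
      rw [hk]
      rfl) (fun g => by
      obtain ⟨k, hk⟩ := hu g
      refine ⟨k, fun x => ?_⟩
      obtain ⟨x, rfl⟩ := QuotientAddGroup.mk_surjective x
      change (((g ^ p ^ k • x : W)) : W ⧸ i.range) = _
      rw [hk]) rfl
    refine ⟨r + 1, by rw [hcard, hr, pow_succ], ?_⟩
    rw [E.add (A := Tv (ZMod p)) (B := W) (C := W ⧸ i.range) hW hk i
      (QuotientAddGroup.mk' i.range) heq (fun _ _ => rfl) hinj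
      (QuotientAddGroup.mk'_surjective _) (fun b => by
        rw [QuotientAddGroup.mk'_apply, QuotientAddGroup.eq_zero_iff]
        rfl), hr']
    push_cast
    ring

/-- the case of cyclic subgroups -/
theorem d_coInd_cyclic (hp : p.Prime) [Finite Γ] (E : AddF p Γ)
    (h : ∀ (C : Subgroup Γ), (Nat.card C).Coprime p → ∀ (M : Type) [AddCommGroup M]
      [DistribMulAction Γ M], Finite M → (∀ m : M, p • m = 0) → E.d (CoInd C M) = 0)
    (C : Subgroup Γ) (hC : IsCyclic C) (M : Type) [AddCommGroup M]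
    [DistribMulAction Γ M] (hM : Finite M) (hk : ∀ m : M, p • m = 0) : E.d (CoInd C M) = 0 := by
  haveI := Fact.mk hp
  obtain ⟨c, hc⟩ := hC.exists_zpow_surjective
  set a := (Nat.card C).factorization p with ha
  -- the prime to `p` part
  let D : Subgroup Γ := Subgroup.zpowers ((c : Γ) ^ (p ^ a))
  have hDC : D ≤ C := by
    rw [Subgroup.zpowers_le]
    exact C.pow_mem c.2 _
  have hmem : ∀ x : C, ((x ^ (p ^ a) : C) : Γ) ∈ D := by
    intro x
    obtain ⟨n, rfl⟩ := hc x
    refine ⟨n, ?_⟩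
    change ((c : Γ) ^ p ^ a) ^ n = ((c : Γ) ^ n) ^ p ^ a
    rw [← zpow_natCast, ← zpow_natCast, ← zpow_mul, ← zpow_mul, mul_comm]
  have hcard : (Nat.card D).Coprime p := by
    have h1 : orderOf (c : Γ) = Nat.card C := by
      rw [Subgroup.orderOf_coe]
      exact orderOf_eq_card_of_forall_mem_zpowers hc
    have h2 : Nat.card D = Nat.card C / p ^ a := by
      rw [Nat.card_zpowers, orderOf_pow' _ (pow_ne_zero _ hp.ne_zero), h1,
        Nat.gcd_eq_right (Nat.ordProj_dvd _ _)]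
    rw [h2]
    exact (Nat.coprime_ordCompl hp Nat.card_pos.ne').symm
  have hD := h D hcard M hM hk
  -- the additive function on `C`
  let F : AddF p C := (E.co C).hom hp M hM hk
  have hF : ∀ (W : Type) [AddCommGroup W] [DistribMulAction C W], F.d W =
    (E.co C).d (Hm W M) := fun _ _ _ => rfl
  have h1 : F.d (Tv (ZMod p)) = E.d (CoInd C M) := by
    obtain ⟨e, he⟩ := exists_hm_tv (Γ := C) (p := p) M hk
    rw [hF]
    exact (E.co C).congr hM hk e he
  have h2 : F.d (LP p (Pm (C ⧸ D.subgroupOf C) ℤ)) = 0 := by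
    obtain ⟨e, he⟩ := exists_hm_fn (Γ := C) (p := p) (X := C ⧸ D.subgroupOf C) M hk
    obtain ⟨e', he'⟩ := exists_stages C D hDC M
    rw [hF, (E.co C).congr inferInstance (fun f => Fn.ext fun x => by
      rw [Fn.nsmul_apply, hk, Fn.zero_apply]) e he, ← hD]
    exact E.congr inferInstance (fun f => CoInd.ext fun x => hk _) e' he'
  obtain ⟨r, hr, hr'⟩ := d_unipotent hp F _ (LP p (Pm (C ⧸ D.subgroupOf C) ℤ))
    (finite_LP hp.ne_zero) LP.killed (fun g => ⟨a, fun w => by
      obtain ⟨f, rfl⟩ := LP.mk_surjective w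
      rw [LP.smul_mk]
      congr 1
      funext y
      rw [Pm.smul_apply]
      congr 1
      obtain ⟨y, rfl⟩ := QuotientGroup.mk_surjective y
      change (((g ^ p ^ a)⁻¹ * y : C) : C ⧸ D.subgroupOf C) = _
      rw [QuotientGroup.eq, Subgroup.mem_subgroupOf]
      have hcomm : ((g ^ p ^ a)⁻¹ * y)⁻¹ * y = g ^ p ^ a := by
        have h5 : ∀ x y : C, x * y = y * x := by
          intro x y
          obtain ⟨m, rfl⟩ := hc x
          obtain ⟨n, rfl⟩ := hc y
          beta_reduce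
          rw [← zpow_add, ← zpow_add, add_comm]
        rw [mul_inv_rev, inv_inv, mul_assoc, h5 (g ^ p ^ a), inv_mul_cancel_left]
      rw [hcomm]
      exact hmem g⟩) rfl
  rw [h2, h1] at hr'
  rcases mul_eq_zero.mp hr'.symm with h3 | h3
  · exfalso
    have h4 : r = 0 := by exact_mod_cast h3
    rw [h4, pow_zero] at hr
    haveI := finite_LP (L := Pm (C ⧸ D.subgroupOf C) ℤ) hp.ne_zero
    have h5 : Subsingleton (LP p (Pm (C ⧸ D.subgroupOf C) ℤ)) :=
      (Nat.card_eq_one_iff_unique.mp hr).1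
    have h6 : LP.mk p (Pm (C ⧸ D.subgroupOf C) ℤ) (dl ((1 : C) : C ⧸ D.subgroupOf C)) = 0 :=
      Subsingleton.elim _ _
    rw [LP.mk_eq_zero] at h6
    obtain ⟨f, hf⟩ := h6
    have h7 := congrFun hf ((1 : C) : C ⧸ D.subgroupOf C)
    have h8 : dl ((1 : C) : C ⧸ D.subgroupOf C) ((1 : C) : C ⧸ D.subgroupOf C) = 1 := dl_self _
    rw [h8] at h7
    have h9 : (p : ℤ) * f ((1 : C) : C ⧸ D.subgroupOf C) = 1 := by
      rw [← h7, ← nsmul_eq_mul]
      rfl
    have h10 : (p : ℤ) ∣ 1 := ⟨_, h9.symm⟩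
    have h11 : p ∣ 1 := by exact_mod_cast h10
    exact hp.one_lt.ne' (Nat.dvd_one.mp h11)
  · exact h3

/-- **(A2)** Artin induction. -/
theorem artin (hp : p.Prime) : Artin p := by
  intro Γ _ _ E h M _ _ hM hk
  refine artin_cyclic hp E M hM hk fun C hC => ?_
  obtain ⟨e, he⟩ := exists_fn_coInd C M
  rw [E.congr inferInstance (fun f => CoInd.ext fun x => hk _) e he]
  exact d_coInd_cyclic hp E h C hC M hM hk

end Fermat.Agent.CFT.EC
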