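import Fermat.Agent.CFT.EC.Add

/-!
# Global Euler characteristic : coinduced modules
-/

set_option autoImplicit false
set_option maxHeartbeats 400000

noncomputable section

namespace Fermat.Agent.CFT.EC

open Fermat.Agent.CC

section CoExact

variable {G : Type} [Group G] {U : Subgroup G} {A B C : Type} [AddCommGroup A] [AddCommGroup B]
  [AddCommGroup C] [DistribMulAction U A] [DistribMulAction U B] [DistribMulAction U C]

theorem coMapH_inj (i : A →+ B) (hi : ∀ (g : U) (a : A), i (g • a) = g • i a)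
    (inj : Function.Injective i) : Function.Injective (coMapH i hi) := fun _ _ h =>
  CoInd.ext fun x => inj (congrArg (fun t : CoInd U B => t.1 x) h)

theorem coMapH_surj (j : B →+ C) (hj : ∀ (g : U) (b : B), j (g • b) = g • j b)
    (surj : Function.Surjective j) : Function.Surjective (coMapH j hj) := by
  intro f
  obtain ⟨κ, hκ, -, -⟩ := exists_kappa U
  let s : C → B := Function.surjInv surj
  have hs : ∀ c, j (s c) = c := Function.surjInv_eq surj
  refine ⟨⟨fun x => κ x • s (f.1 ((κ x : G)⁻¹ * x)), fun u x => ?_⟩, CoInd.ext fun x => ?_⟩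
  · beta_reduce
    rw [hκ, mul_smul, Subgroup.coe_mul, mul_inv_rev, mul_assoc, inv_mul_cancel_left]
  · change j (κ x • s _) = _
    rw [hj, hs]
    have h1 := f.2 (κ x) ((κ x : G)⁻¹ * x)
    rw [mul_inv_cancel_left] at h1
    exact h1.symm

theorem coMapH_exact (i : A →+ B) (hi : ∀ (g : U) (a : A), i (g • a) = g • i a) (j : B →+ C)
    (hj : ∀ (g : U) (b : B), j (g • b) = g • j b) (inj : Function.Injective i)
    (ex : ∀ b, j b = 0 ↔ ∃ a, i a = b) (f : CoInd U B) :
    coMapH j hj f = 0 ↔ ∃ f', coMapH i hi f' = f := by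
  constructor
  · intro h
    have h1 : ∀ x, ∃ a, i a = f.1 x := fun x =>
      (ex _).mp (congrArg (fun t : CoInd U C => t.1 x) h)
    choose a ha using h1
    refine ⟨⟨a, fun u x => inj ?_⟩, CoInd.ext ha⟩
    rw [hi, ha, ha, f.2]
  · rintro ⟨f', rfl⟩
    exact CoInd.ext fun x => (ex _).mpr ⟨_, rfl⟩

/-- coinduction of an isomorphism -/
def coEquiv (f : A ≃+ B) (hf : ∀ (g : U) (a : A), f (g • a) = g • f a) : CoInd U A ≃+ CoInd U B :=
  AddEquiv.ofBijective (coMapH f.toAddMonoidHom hf)
    ⟨coMapH_inj f.toAddMonoidHom hf f.injective, coMapH_surj f.toAddMonoidHom hf f.surjective⟩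

theorem coEquiv_smul (f : A ≃+ B) (hf : ∀ (g : U) (a : A), f (g • a) = g • f a) (g : G)
    (φ : CoInd U A) : coEquiv f hf (g • φ) = g • coEquiv f hf φ := rfl

end CoExact

section Swap

variable {G : Type} [Group G] (U H : Subgroup G) (M : Type) [AddCommGroup M] [DistribMulAction G M]

/-- exchange of two coinductions -/
def swapHom : CoInd U (CoInd H M) →+ CoInd H (CoInd U M) where
  toFun F := ⟨fun y => ⟨fun z => z • (F.1 (z * y)).1 z⁻¹, fun u z => by
      beta_reduce
      rw [mul_assoc, F.2 u (z * y)]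
      change ((u : G) * z) • (F.1 (z * y)).1 (((u : G) * z)⁻¹ * (u : G)) = _
      rw [mul_inv_rev, inv_mul_cancel_right, mul_smul]
      rfl⟩, fun h y => CoInd.ext fun z => by
      change z • (F.1 (z * (h * y))).1 z⁻¹ = (z * h) • (F.1 (z * h * y)).1 (z * h)⁻¹
      have h1 := (F.1 (z * (h * y))).2 h⁻¹ z⁻¹
      rw [mul_assoc z, mul_inv_rev, mul_smul]
      congr 1
      have h2 : (h : G) • ((h⁻¹ : H) • (F.1 (z * (h * y))).1 z⁻¹) = (F.1 (z * (h * y))).1 z⁻¹ := by
        change (h : G) • ((h : G)⁻¹ • (F.1 (z * (h * y))).1 z⁻¹) = _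
        rw [smul_inv_smul]
      rw [← h1] at h2
      exact h2.symm⟩
  map_zero' := CoInd.ext fun y => CoInd.ext fun z => smul_zero z
  map_add' F F' := CoInd.ext fun y => CoInd.ext fun z => smul_add z _ _

theorem swapHom_apply (F : CoInd U (CoInd H M)) (y z : G) :
    ((swapHom U H M F).1 y).1 z = z • (F.1 (z * y)).1 z⁻¹ := rfl

theorem swap_swap (F : CoInd U (CoInd H M)) : swapHom H U M (swapHom U H M F) = F :=
  CoInd.ext fun y => CoInd.ext fun z => by
    rw [swapHom_apply, swapHom_apply, inv_inv, inv_mul_cancel_left, smul_inv_smul]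

/-- exchange of two coinductions -/
def swap : CoInd U (CoInd H M) ≃+ CoInd H (CoInd U M) where
  __ := swapHom U H M
  invFun := swapHom H U M
  left_inv := swap_swap U H M
  right_inv := swap_swap H U M

theorem swap_smul (g : G) (F : CoInd U (CoInd H M)) : swap U H M (g • F) = g • swap U H M F :=
  CoInd.ext fun y => CoInd.ext fun z => by
    change z • (F.1 (z * y * g)).1 z⁻¹ = z • (F.1 (z * (y * g))).1 z⁻¹
    rw [mul_assoc]

end Swap

section Inf

variable {G : Type} [Group G] {H : Subgroup G} [H.Normal] (C : Subgroup (G ⧸ H)) (M : Type)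
  [AddCommGroup M] [DistribMulAction (G ⧸ H) M]

/-- inflation and coinduction -/
def infCo : Infl H (CoInd C M) ≃+ CoInd (C.comap (QuotientGroup.mk' H)) (Infl H M) where
  toFun (f : CoInd C M) := ⟨fun x => f.1 (x : G ⧸ H), fun u x => f.2 ⟨_, u.2⟩ x⟩
  invFun F := (⟨fun q => F.1 q.out, fun u q => by
    beta_reduce
    have key : ∀ x y : G, (x : G ⧸ H) = y → F.1 x = F.1 y := by
      intro x y hxy
      have h1 : y * x⁻¹ ∈ H := by
        rw [← QuotientGroup.eq_one_iff, QuotientGroup.mk_mul, QuotientGroup.mk_inv, hxy,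
          mul_inv_cancel]
      have h2 := F.2 ⟨y * x⁻¹, by
        rw [Subgroup.mem_comap]
        change ((y * x⁻¹ : G) : G ⧸ H) ∈ C
        rw [(QuotientGroup.eq_one_iff _).mpr h1]
        exact C.one_mem⟩ x
      change F.1 (y * x⁻¹ * x) = _ at h2
      rw [inv_mul_cancel_right] at h2
      rw [h2]
      exact (Infl.triv (M := M) ⟨y * x⁻¹, h1⟩ (F.1 x)).symm
    have h4 : ((Quotient.out (u : G ⧸ H) : G) : G ⧸ H) = u := Quotient.out_eq _
    have h5 : ((Quotient.out q : G) : G ⧸ H) = q := Quotient.out_eq _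
    rw [key (Quotient.out ((u : G ⧸ H) * q)) (Quotient.out (u : G ⧸ H) * Quotient.out q) (by
      rw [QuotientGroup.mk_mul, h4, h5]; exact Quotient.out_eq _)]
    have h6 := F.2 ⟨Quotient.out (u : G ⧸ H), by
      rw [Subgroup.mem_comap]
      change ((Quotient.out (u : G ⧸ H) : G) : G ⧸ H) ∈ C
      rw [h4]
      exact u.2⟩ (Quotient.out q)
    refine h6.trans ?_
    change @HSMul.hSMul (G ⧸ H) M M _ ((Quotient.out (u : G ⧸ H) : G) : G ⧸ H) _ = _
    rw [h4]
    rfl⟩ : CoInd C M)
  left_inv f := by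
    refine CoInd.ext (A := M) fun q => ?_
    exact congrArg f.1 (Quotient.out_eq q)
  right_inv F := by
    refine CoInd.ext fun x => ?_
    have h1 : ((Quotient.out (x : G ⧸ H) : G) : G ⧸ H) = x := Quotient.out_eq _
    have h2 : x * (Quotient.out (x : G ⧸ H))⁻¹ ∈ H := by
      rw [← QuotientGroup.eq_one_iff, QuotientGroup.mk_mul, QuotientGroup.mk_inv, h1,
        mul_inv_cancel]
    have h3 := F.2 ⟨x * (Quotient.out (x : G ⧸ H))⁻¹, by
        rw [Subgroup.mem_comap]
        change ((x * (Quotient.out (x : G ⧸ H))⁻¹ : G) : G ⧸ H) ∈ C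
        rw [(QuotientGroup.eq_one_iff _).mpr h2]
        exact C.one_mem⟩ (Quotient.out (x : G ⧸ H))
    change F.1 (x * (Quotient.out (x : G ⧸ H))⁻¹ * Quotient.out (x : G ⧸ H)) = _ at h3
    rw [inv_mul_cancel_right] at h3
    change F.1 (Quotient.out (x : G ⧸ H)) = F.1 x
    rw [h3]
    exact (Infl.triv (M := M) ⟨_, h2⟩ (F.1 _)).symm
  map_add' f f' := rfl

theorem infCo_smul (g : G) (f : Infl H (CoInd C M)) :
    infCo C M (g • f) = g • infCo C M f := rfl

end Inf

end Fermat.Agent.CFT.EC
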