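import Fermat.Agent.CFT.EC.Defs
import Fermat.Agent.CC.PT10

/-!
# Global Euler characteristic : abstract setting
-/

set_option autoImplicit false

noncomputable section

namespace Fermat.Agent.CFT.EC

open Fermat.Agent.CC

/-- abstract data for the global Euler characteristic. `Y` is the group of `S`-units of `K`
modulo `p`, `Γ = G ⧸ H` the Galois group of `K`. -/
structure ECData (p : ℕ) [Fact p.Prime] {G : Type} [Group G] {T : Type} [AddCommGroup T]
    [DistribMulAction G T] (𝒢 : GLD p G T) (H H₀ : Subgroup G) [H.Normal] [Finite (G ⧸ H)]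
    [Finite (G ⧸ H₀)] where
  I : 𝒢.GIn H H₀
  odd : p ≠ 2
  c : G
  cc : c * c = 1
  cT : ∀ t : T, c • t = -t
  Y : Type
  [grp : AddCommGroup Y]
  [act : DistribMulAction (G ⧸ H) Y]
  fY : Finite Y
  kY : ∀ y : Y, p • y = 0
  ι : Z1 (𝒢.𝓛.sub H) T →+ Y
  inj : Function.Injective ι
  equi : ∀ (g : G) (f f' : Z1 (𝒢.𝓛.sub H) T),
    (∀ h h' : H, (h' : G) = g⁻¹ * h * g → f'.1 h = g • f.1 h') → ι f' = (g : G ⧸ H) • ι f
  unit : ∀ [DistribMulAction (G ⧸ H) T], (∀ (g : G) (t : T), (g : G ⧸ H) • t = g • t) →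
    ∀ E : AddF p (G ⧸ H), E.d Y + E.d (Tv (ZMod p)) = E.d T +
      E.d (Pm (Σ v : 𝒢.V, (G ⧸ H) ⧸ ((𝒢.D v).map (QuotientGroup.mk' H))) (ZMod p)) +
      E.d (Pm ((G ⧸ H) ⧸ (Subgroup.zpowers (QuotientGroup.mk' H c))) (ZMod p))

attribute [instance] ECData.grp ECData.act

/-- the order of the fixed points of `c` -/
def cfix {G : Type} [Group G] (c : G) (M : Type) [AddCommGroup M] [DistribMulAction G M] : ℕ :=
  Nat.card {m : M // c • m = m}

/-- inequality (C) : the target for subgroups `C` of order prime to `p` -/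
def ECData.LeC {p : ℕ} [Fact p.Prime] {G : Type} [Group G] {T : Type} [AddCommGroup T]
    [DistribMulAction G T] {𝒢 : GLD p G T} {H H₀ : Subgroup G} [H.Normal] [Finite (G ⧸ H)]
    [Finite (G ⧸ H₀)] (D : ECData p 𝒢 H H₀) : Prop :=
  ∀ (C : Subgroup (G ⧸ H)), (Nat.card C).Coprime p →
    ∀ (M M' : Type) [AddCommGroup M] [AddCommGroup M'] [DistribMulAction G M]
      [DistribMulAction G M'] (e : M →+ M' →+ T), Pr p 𝒢.𝓛 e → (∀ (h : H) (m : M), h • m = m) →
      (∀ (h : H) (m : M'), h • m = m) →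
      Nat.card (H1 𝒢.𝓛 (CoInd (C.comap (QuotientGroup.mk' H)) M)) *
          cfix D.c (CoInd (C.comap (QuotientGroup.mk' H)) M) ≤
        Nat.card (H0 G (CoInd (C.comap (QuotientGroup.mk' H)) M)) *
          Nat.card (H2 𝒢.𝓛 (CoInd (C.comap (QuotientGroup.mk' H)) M)) *
          Nat.card (CoInd (C.comap (QuotientGroup.mk' H)) M)

/-- the global Euler characteristic -/
def ECData.EC {p : ℕ} [Fact p.Prime] {G : Type} [Group G] {T : Type} [AddCommGroup T]
    [DistribMulAction G T] {𝒢 : GLD p G T} {H H₀ : Subgroup G} [H.Normal] [Finite (G ⧸ H)]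
    [Finite (G ⧸ H₀)] (D : ECData p 𝒢 H H₀) : Prop :=
  ∀ (M M' : Type) [AddCommGroup M] [AddCommGroup M'] [DistribMulAction G M]
      [DistribMulAction G M'] (e : M →+ M' →+ T), Pr p 𝒢.𝓛 e → (∀ (h : H) (m : M), h • m = m) →
      (∀ (h : H) (m : M'), h • m = m) →
      Nat.card (H1 𝒢.𝓛 M) * cfix D.c M =
        Nat.card (H0 G M) * Nat.card (H2 𝒢.𝓛 M) * Nat.card M

end Fermat.Agent.CFT.EC
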