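import Fermat.Agent.CC.Shapiro
import Fermat.Agent.CC.GQ
import Fermat.Agent.CC.Kummer

/-!
# Global Euler characteristic : definitions and interface statements
-/

set_option autoImplicit false

noncomputable section

namespace Fermat.Agent.CFT.EC

open Fermat.Agent.CC

/-- additive functions on the finite modules killed by `p` of a group `Γ` -/
structure AddF (p : ℕ) (Γ : Type) [Group Γ] where
  d : ∀ (M : Type) [AddCommGroup M] [DistribMulAction Γ M], ℤ
  add : ∀ {A B C : Type} [AddCommGroup A] [AddCommGroup B] [AddCommGroup C]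
    [DistribMulAction Γ A] [DistribMulAction Γ B] [DistribMulAction Γ C] (_ : Finite B)
    (_ : ∀ b : B, p • b = 0) (i : A →+ B) (j : B →+ C) (_ : ∀ (g : Γ) (a : A), i (g • a) = g • i a)
    (_ : ∀ (g : Γ) (b : B), j (g • b) = g • j b) (_ : Function.Injective i)
    (_ : Function.Surjective j) (_ : ∀ b, j b = 0 ↔ ∃ a, i a = b), d B = d A + d C

/-- `L / p` -/
def LP (p : ℕ) (L : Type) [AddCommGroup L] : Type := L ⧸ (nsmulAddMonoidHom (α := L) p).range

section LP

variable {p : ℕ} {L : Type} [AddCommGroup L]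

instance : AddCommGroup (LP p L) :=
  inferInstanceAs (AddCommGroup (L ⧸ (nsmulAddMonoidHom (α := L) p).range))

/-- the projection -/
def LP.mk (p : ℕ) (L : Type) [AddCommGroup L] : L →+ LP p L :=
  QuotientAddGroup.mk' (nsmulAddMonoidHom (α := L) p).range

theorem LP.mk_surjective : Function.Surjective (LP.mk p L) := QuotientAddGroup.mk'_surjective _

theorem LP.mk_eq_zero {x : L} : LP.mk p L x = 0 ↔ ∃ y : L, p • y = x :=
  QuotientAddGroup.eq_zero_iff x

theorem LP.killed (x : LP p L) : p • x = 0 := by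
  obtain ⟨x, rfl⟩ := LP.mk_surjective x
  rw [← map_nsmul, LP.mk_eq_zero]
  exact ⟨x, rfl⟩

/-- functoriality -/
def LP.map (p : ℕ) {L L' : Type} [AddCommGroup L] [AddCommGroup L'] (f : L →+ L') :
    LP p L →+ LP p L' :=
  QuotientAddGroup.map _ _ f (by
    rintro _ ⟨y, rfl⟩
    exact ⟨f y, (map_nsmul f p y).symm⟩)

@[simp] theorem LP.map_mk {L' : Type} [AddCommGroup L'] (f : L →+ L') (x : L) :
    LP.map p f (LP.mk p L x) = LP.mk p L' (f x) := rfl

instance {Γ : Type} [Group Γ] [DistribMulAction Γ L] : DistribMulAction Γ (LP p L) where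
  smul g x := LP.map p (DistribSMul.toAddMonoidHom L g) x
  one_smul x := by
    obtain ⟨x, rfl⟩ := LP.mk_surjective x
    change LP.mk p L ((1 : Γ) • x) = _
    rw [one_smul]
  mul_smul g h x := by
    obtain ⟨x, rfl⟩ := LP.mk_surjective x
    change LP.mk p L ((g * h) • x) = LP.mk p L (g • h • x)
    rw [mul_smul]
  smul_zero g := map_zero (LP.map p (DistribSMul.toAddMonoidHom L g))
  smul_add g x y := map_add (LP.map p (DistribSMul.toAddMonoidHom L g)) x y

theorem LP.smul_mk {Γ : Type} [Group Γ] [DistribMulAction Γ L] (g : Γ) (x : L) :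
    g • LP.mk p L x = LP.mk p L (g • x) := rfl

end LP

/-- permutation modules: functions on `X` with values in `R` (trivial action on `R`) -/
def Pm (X R : Type) : Type := X → R

section Pm

variable {X R : Type} [AddCommGroup R]

instance : AddCommGroup (Pm X R) := inferInstanceAs (AddCommGroup (X → R))

instance {Γ : Type} [Group Γ] [MulAction Γ X] : DistribMulAction Γ (Pm X R) where
  smul g f := fun x => f (g⁻¹ • x)
  one_smul f := by
    funext x
    change f ((1 : Γ)⁻¹ • x) = f x
    rw [inv_one, one_smul]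
  mul_smul g h f := by
    funext x
    change f ((g * h)⁻¹ • x) = f (h⁻¹ • g⁻¹ • x)
    rw [mul_inv_rev, mul_smul]
  smul_zero g := rfl
  smul_add g f f' := rfl

theorem Pm.smul_apply {Γ : Type} [Group Γ] [MulAction Γ X] (g : Γ) (f : Pm X R) (x : X) :
    (g • f) x = f (g⁻¹ • x) := rfl

theorem Pm.add_apply (f f' : Pm X R) (x : X) : (f + f') x = f x + f' x := rfl

end Pm

/-- trivial modules -/
def Tv (R : Type) : Type := R

section Tv

variable {R : Type} [AddCommGroup R]

instance : AddCommGroup (Tv R) := inferInstanceAs (AddCommGroup R)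

instance {Γ : Type} [Group Γ] : DistribMulAction Γ (Tv R) where
  smul _ x := x
  one_smul _ := rfl
  mul_smul _ _ _ := rfl
  smul_zero _ := rfl
  smul_add _ _ _ := rfl

theorem Tv.smul_eq {Γ : Type} [Group Γ] (g : Γ) (x : Tv R) : g • x = x := rfl

end Tv

/-- trace of `g` on the lattice `L` -/
def tr {Γ : Type} [Group Γ] (g : Γ) (L : Type) [AddCommGroup L] [DistribMulAction Γ L] : ℤ :=
  LinearMap.trace ℤ L (DistribSMul.toAddMonoidHom L g).toIntLinearMap

/-- (A1) lattices with the same character have the same class mod `p` -/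
def LatticeEq (p : ℕ) : Prop :=
  ∀ (Γ : Type) [Group Γ] [Finite Γ] (E : AddF p Γ) (L L' : Type) [AddCommGroup L]
    [AddCommGroup L'] [DistribMulAction Γ L] [DistribMulAction Γ L'] [Module.Free ℤ L]
    [Module.Finite ℤ L] [Module.Free ℤ L'] [Module.Finite ℤ L'],
    (∀ g : Γ, tr g L = tr g L') → E.d (LP p L) = E.d (LP p L')

/-- (A2) Artin induction -/
def Artin (p : ℕ) : Prop :=
  ∀ (Γ : Type) [Group Γ] [Finite Γ] (E : AddF p Γ),
    (∀ (C : Subgroup Γ), (Nat.card C).Coprime p → ∀ (M : Type) [AddCommGroup M]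
      [DistribMulAction Γ M], Finite M → (∀ m : M, p • m = 0) → E.d (CoInd C M) = 0) →
    ∀ (M : Type) [AddCommGroup M] [DistribMulAction Γ M], Finite M → (∀ m : M, p • m = 0) →
      E.d M = 0

end Fermat.Agent.CFT.EC
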