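import Fermat.Agent.CFT.EC.Data
import Fermat.Agent.CFT.EC.Defs2
import Fermat.Agent.CFT.EC.Art2
import Fermat.Agent.CC.Inst4
import Fermat.Agent.H02M.CountH1b
import Fermat.Agent.EGal.Kummer

/-!
# The data for the global Euler characteristic over `ℚ`
-/

set_option autoImplicit false
set_option maxHeartbeats 400000
set_option linter.unusedSectionVars false
set_option linter.style.haveILetI false

noncomputable section

namespace Fermat.Agent.CFT.EC

open Fermat.Agent.CC
open Fermat.Agent.LF (DK mem_of_fixed)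
open Fermat.Agent.H02M (SL smH divp toH0 kK kK_surjective infl1 comap_range_infl1 BS_eq triv_mu)
open scoped Pointwise

/-- the action of a quotient group -/
@[reducible] def quoG {G : Type} [Group G] (H : Subgroup G) [H.Normal] (A : Type) [AddCommGroup A]
    [DistribMulAction G A] (h : ∀ g ∈ H, ∀ a : A, g • a = a) : DistribMulAction (G ⧸ H) A :=
  DistribMulAction.compHom A (QuotientGroup.lift H (DistribMulAction.toAddMonoidEnd G A)
    (fun g hg => AddMonoidHom.ext fun a => h g hg a))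

theorem quoG_smul {G : Type} [Group G] (H : Subgroup G) [H.Normal] (A : Type) [AddCommGroup A]
    [DistribMulAction G A] (h : ∀ g ∈ H, ∀ a : A, g • a = a) (g : G) (a : A) :
    letI := quoG H A h
    (g : G ⧸ H) • a = g • a := rfl

variable {p : ℕ} [Fact p.Prime] {S : Finset Nat.Primes} {K : IntermediateField ℚ Qb}

theorem smul_mem_ESK (hn : K.fixingSubgroup.Normal) (g : GQ) (x : UL Qb) (hx : x ∈ ESK S K) :
    g • x ∈ ESK S K := by
  refine ⟨?_, hx.2.smul g⟩
  refine mem_of_fixed K fun σ hσ => ?_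
  have h1 : g⁻¹ * σ * g ∈ K.fixingSubgroup := by simpa using hn.conj_mem σ hσ g⁻¹
  have h2 := (IntermediateField.mem_fixingSubgroup_iff K _).mp h1 _ hx.1
  rw [UL.val_smul]
  change σ (g x.val) = g x.val
  have h3 := congrArg g h2
  rw [← AlgEquiv.mul_apply] at h3
  have h4 : g * (g⁻¹ * σ * g) = σ * g := by group
  rw [h4, AlgEquiv.mul_apply] at h3
  exact h3

theorem fix_ESK {g : GQ} (hg : g ∈ K.fixingSubgroup) {x : UL Qb} (hx : x ∈ ESK S K) : g • x = x :=
  UL.ext ((IntermediateField.mem_fixingSubgroup_iff K _).mp hg _ hx.1)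

/-- the action of `G_ℚ` on the `S`-units -/
@[reducible] def actE (S : Finset Nat.Primes) (K : IntermediateField ℚ Qb)
    (hn : K.fixingSubgroup.Normal) : DistribMulAction GQ (ESK S K) :=
  subAct (ESK S K) (smul_mem_ESK hn)

/-- the action of `Gal(K/ℚ)` on the `S`-units -/
@[reducible] def actEK (S : Finset Nat.Primes) (K : IntermediateField ℚ Qb)
    [hn : K.fixingSubgroup.Normal] : DistribMulAction (GQ ⧸ K.fixingSubgroup) (ESK S K) :=
  letI := actE S K hn
  quoG K.fixingSubgroup (ESK S K) fun _ hg x => Subtype.ext (fix_ESK hg x.2)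

/-- the Kummer relation -/
def KR (p : ℕ) (S : Finset Nat.Primes) (K : IntermediateField ℚ Qb)
    (f : Z1 ((levS S).sub K.fixingSubgroup) (Mu p)) (y : LP p (ESK S K)) : Prop :=
  ∃ (b : UL Qb) (hb : p • b ∈ ESK S K), (∀ g : K.fixingSubgroup,
    TorP.incl p (UL Qb) (f.1 g) = (g : GQ) • b - b) ∧ LP.mk p (ESK S K) ⟨p • b, hb⟩ = y

theorem mem_ESK_of_smul {b : UL Qb} (hb : p • b ∈ ESK S K) (hK : b.val ∈ K) : b ∈ ESK S K := by
  have hp : p.Prime := Fact.out
  refine ⟨hK, ?_⟩
  have h1 := hb.2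
  rw [UL.val_nsmul] at h1
  exact h1.of_pow hp.ne_zero

theorem KR.unique {f : Z1 ((levS S).sub K.fixingSubgroup) (Mu p)} {y y' : LP p (ESK S K)}
    (h : KR p S K f y) (h' : KR p S K f y') : y = y' := by
  obtain ⟨b, hb, h1, rfl⟩ := h
  obtain ⟨b', hb', h1', rfl⟩ := h'
  have hK : (b - b').val ∈ K := by
    refine mem_of_fixed K fun σ hσ => ?_
    have h2 := h1 ⟨σ, hσ⟩
    rw [h1' ⟨σ, hσ⟩] at h2
    have h3 : σ • (b - b') = b - b' := by
      have h4 : σ • b' - b' = σ • b - b := h2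
      rw [smul_sub, sub_eq_sub_iff_sub_eq_sub.mp h4.symm]
    exact congrArg UL.val h3
  have hm : b - b' ∈ ESK S K := mem_ESK_of_smul (by
    rw [smul_sub]
    exact (ESK S K).sub_mem hb hb') hK
  rw [← sub_eq_zero, ← map_sub, LP.mk_eq_zero]
  refine ⟨⟨b - b', hm⟩, Subtype.ext ?_⟩
  change p • (b - b') = p • b - p • b'
  rw [smul_sub]

theorem KR.add {f f' : Z1 ((levS S).sub K.fixingSubgroup) (Mu p)} {y y' : LP p (ESK S K)}
    (h : KR p S K f y) (h' : KR p S K f' y') : KR p S K (f + f') (y + y') := by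
  obtain ⟨b, hb, h1, rfl⟩ := h
  obtain ⟨b', hb', h1', rfl⟩ := h'
  refine ⟨b + b', by rw [smul_add]; exact (ESK S K).add_mem hb hb', fun g => ?_, ?_⟩
  · change TorP.incl p (UL Qb) (f.1 g + f'.1 g) = _
    rw [map_add, h1, h1', smul_add]
    abel
  · rw [← map_add]
    congr 1
    apply Subtype.ext
    change p • (b + b') = p • b + p • b'
    rw [smul_add]

theorem KR.eq_zero (hζ : ∃ ζ ∈ K, IsPrimitiveRoot ζ p)
    {f : Z1 ((levS S).sub K.fixingSubgroup) (Mu p)} (h : KR p S K f 0) : f = 0 := by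
  obtain ⟨b, hb, h1, h2⟩ := h
  rw [LP.mk_eq_zero] at h2
  obtain ⟨e, he⟩ := h2
  have he' : p • (e : UL Qb) = p • b := congrArg Subtype.val he
  apply Subtype.ext
  funext g
  apply TorP.incl_injective
  have h3 : p • (b - e) = 0 := by rw [smul_sub, he', sub_self]
  have h4 := triv_mu hζ le_rfl g (TorP.mk (b - e) h3)
  have h5 : (g : GQ) • (b - (e : UL Qb)) = b - e := congrArg (TorP.incl p (UL Qb)) h4
  rw [smul_sub, fix_ESK g.2 e.2] at h5
  change TorP.incl p (UL Qb) (f.1 g) = TorP.incl p (UL Qb) 0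
  rw [h1 g, map_zero, sub_eq_zero]
  exact sub_left_injective h5

theorem KR.smul [hn : K.fixingSubgroup.Normal] {f f' : Z1 ((levS S).sub K.fixingSubgroup) (Mu p)}
    {y : LP p (ESK S K)} (h : KR p S K f y) (g : GQ)
    (hf : ∀ h h' : K.fixingSubgroup, (h' : GQ) = g⁻¹ * h * g → f'.1 h = g • f.1 h') :
    letI := actEK S K
    KR p S K f' ((g : GQ ⧸ K.fixingSubgroup) • y) := by
  obtain ⟨b, hb, h1, rfl⟩ := h
  have hgb : p • (g • b) = g • (p • b) := smul_comm p g b
  refine ⟨g • b, by rw [hgb]; exact smul_mem_ESK hn g _ hb, fun σ => ?_, ?_⟩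
  · have h2 : g⁻¹ * σ * g ∈ K.fixingSubgroup := by simpa using hn.conj_mem σ σ.2 g⁻¹
    rw [hf σ ⟨_, h2⟩ rfl, TorP.incl_smul, h1]
    change g • ((g⁻¹ * σ * g) • b - b) = _
    rw [smul_sub, smul_smul, smul_smul]
    congr 2
    group
  · letI := actEK S K
    rw [LP.smul_mk]
    congr 1
    exact Subtype.ext hgb

theorem exists_KR_of (hSK : SK p S K) (y : LP p (ESK S K)) :
    ∃ f : Z1 ((levS S).sub K.fixingSubgroup) (Mu p), KR p S K f y := by
  have hp : p.Prime := Fact.out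
  have hnq : ∀ q : Nat.Primes, q ∉ S → ¬ (q : ℕ) ∣ p := by
    intro q hq hd
    have h3 : q = CC.pP p := Nat.Primes.coe_nat_injective
      ((Nat.prime_dvd_prime_iff_eq q.2 hp).mp hd)
    exact hq (by rw [h3]; exact hSK.pS)
  obtain ⟨a, rfl⟩ := LP.mk_surjective y
  obtain ⟨b, hb⟩ := divp p (a : UL Qb)
  have hbp : b.val ^ p = (a : UL Qb).val := by rw [← hb, UL.val_nsmul]
  have hbS : SL S b.val := SL.root_unit (SL.of_mem hSK.unr a.2.1) (a : UL Qb).val_ne_zero a.2.2
    hbp hnq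
  have hfix : ∀ g : K.fixingSubgroup, p • (g • b - b) = 0 := by
    intro g
    have h1 : p • (g • b) = (g : GQ) • (p • b) := smul_comm p (g : GQ) b
    rw [smul_sub, h1, hb, fix_ESK g.2 a.2, sub_self]
  refine ⟨⟨fun g => TorP.mk _ (hfix g), ?_, ?_⟩, b, by rw [hb]; exact a.2, fun g => rfl, ?_⟩
  · refine ⟨(IntermediateField.adjoin ℚ {b.val}).fixingSubgroup.comap
      K.fixingSubgroup.subtype, ⟨_, ⟨_, hbS.unr, le_rfl⟩, le_rfl⟩, fun g s hs => ?_⟩
    apply TorP.incl_injective
    have hs' : (s : GQ) ∈ (IntermediateField.adjoin ℚ {b.val}).fixingSubgroup := hs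
    rw [IntermediateField.mem_fixingSubgroup_iff] at hs'
    have h3 : s • b = b :=
      UL.ext (hs' _ (IntermediateField.mem_adjoin_simple_self ℚ _))
    change (g * s) • b - b = g • b - b
    rw [mul_smul, h3]
  · intro g h
    apply TorP.incl_injective
    change (g * h) • b - b = (g • b - b) + g • (h • b - b)
    rw [mul_smul, smul_sub]
    abel
  · congr 1
    exact Subtype.ext hb

theorem exists_KR (hSK : SK p S K) (hcl : ClTriv p S K)
    (f : Z1 ((levS S).sub K.fixingSubgroup) (Mu p)) : ∃ y, KR p S K f y := by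
  have hfd : FiniteDimensional ℚ K := hSK.unr.1
  haveI : NumberField K := ⟨⟩
  obtain ⟨a, ha⟩ := kK_surjective (K := K) (p := p) (Multiplicative.ofAdd
    (infl1 S K.fixingSubgroup (Mu p) (H1.mk _ _ f)))
  have hmem : a ∈ (AddSubgroup.toSubgroup (infl1 S K.fixingSubgroup (Mu p)).range).comap
      (kK K p) := ⟨H1.mk _ _ f, ha.symm⟩
  rw [comap_range_infl1 hSK, BS_eq hcl, Subgroup.mem_sup] at hmem
  obtain ⟨s, hs, _, ⟨c, rfl⟩, hsc⟩ := hmem
  have hsc' : s * c ^ p = a := hsc
  obtain ⟨b, f', hb, hf', hk⟩ := exists_kap (smH K.fixingSubgroup) (divp p)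
    (toH0 (le_refl K.fixingSubgroup) a).toAdd
  have h1 : H1.mk (lev.sub K.fixingSubgroup) (Mu p) f' =
      infl1 S K.fixingSubgroup (Mu p) (H1.mk _ _ f) := by
    rw [← hk]
    exact congrArg Multiplicative.toAdd ha
  have h1' : H1.mk (lev.sub K.fixingSubgroup) (Mu p) f' = H1.mk (lev.sub K.fixingSubgroup) (Mu p)
    (Z1map (MonoidHom.id _) H02M.contS (AddMonoidHom.id _) (fun _ _ => rfl) f) := h1
  rw [H1.mk_eq_mk] at h1'
  obtain ⟨m, hm⟩ := h1'
  have h2 : ∀ g : K.fixingSubgroup, f'.1 g = f.1 g := by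
    intro g
    have h3 := hm g
    rw [triv_mu hSK.root le_rfl, sub_self, add_zero] at h3
    exact h3
  have hc0 : ((c : K) : Qb) ≠ 0 := by exact_mod_cast c.ne_zero
  have hs0 : ((s : K) : Qb) ≠ 0 := by exact_mod_cast s.ne_zero
  have hbc : p • (b - UL.mk ((c : K) : Qb) hc0) = UL.mk ((s : K) : Qb) hs0 := by
    apply UL.ext
    rw [smul_sub, hb, UL.val_sub, UL.val_nsmul, UL.val_mk, UL.val_mk]
    change ((a : K) : Qb) / _ = _
    rw [← hsc', div_eq_iff (pow_ne_zero _ hc0), Units.val_mul, Units.val_pow_eq_pow_val]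
    push_cast
    rfl
  have hsE : UL.mk ((s : K) : Qb) hs0 ∈ ESK S K := ⟨(s : K).2, (H02M.SU_iff s).mpr hs⟩
  refine ⟨_, b - UL.mk ((c : K) : Qb) hc0, by rw [hbc]; exact hsE, fun g => ?_, rfl⟩
  rw [← h2, hf', smul_sub]
  have h3 : (g : GQ) • UL.mk ((c : K) : Qb) hc0 = UL.mk ((c : K) : Qb) hc0 :=
    UL.ext ((IntermediateField.mem_fixingSubgroup_iff K _).mp g.2 _ (c : K).2)
  rw [h3]
  exact (sub_sub_sub_cancel_right ((g : GQ) • b) b _).symm

/-- the inverse of the Kummer map -/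
def iot (hSK : SK p S K) (hcl : ClTriv p S K) :
    Z1 ((levS S).sub K.fixingSubgroup) (Mu p) →+ LP p (ESK S K) :=
  AddMonoidHom.mk' (fun f => Classical.choose (exists_KR hSK hcl f)) fun f f' =>
    (Classical.choose_spec (exists_KR hSK hcl (f + f'))).unique
      ((Classical.choose_spec (exists_KR hSK hcl f)).add
        (Classical.choose_spec (exists_KR hSK hcl f')))

theorem iot_spec (hSK : SK p S K) (hcl : ClTriv p S K)
    (f : Z1 ((levS S).sub K.fixingSubgroup) (Mu p)) : KR p S K f (iot hSK hcl f) :=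
  Classical.choose_spec (exists_KR hSK hcl f)

theorem iot_injective (hSK : SK p S K) (hcl : ClTriv p S K) :
    Function.Injective (iot hSK hcl) := by
  rw [injective_iff_map_eq_zero]
  intro f hf
  have h := iot_spec hSK hcl f
  rw [hf] at h
  exact h.eq_zero hSK.root

theorem iot_surjective (hSK : SK p S K) (hcl : ClTriv p S K) :
    Function.Surjective (iot hSK hcl) := by
  intro y
  obtain ⟨f, hf⟩ := exists_KR_of hSK y
  exact ⟨f, (iot_spec hSK hcl f).unique hf⟩

theorem finite_Z1 (hSK : SK p S K) (hcl : ClTriv p S K) :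
    Finite (Z1 ((levS S).sub K.fixingSubgroup) (Mu p)) := by
  have hp : p.Prime := Fact.out
  have hfd : FiniteDimensional ℚ K := hSK.unr.1
  haveI : NumberField K := ⟨⟩
  haveI : Fintype (H02M.SK S K) := (H02M.SK_finite S K).fintype
  haveI : Finite (H1 ((levS S).sub K.fixingSubgroup) (Mu p)) := by
    apply Nat.finite_of_card_ne_zero
    rw [H02M.card_H1S hSK hcl]
    exact pow_ne_zero _ hp.ne_zero
  refine Finite.of_injective (H1.mk ((levS S).sub K.fixingSubgroup) (Mu p)) ?_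
  rw [injective_iff_map_eq_zero]
  intro f hf
  rw [H1.mk_eq_zero] at hf
  obtain ⟨m, hm⟩ := hf
  apply Subtype.ext
  funext g
  have := hm g
  rw [triv_mu hSK.root le_rfl, sub_self] at this
  exact this

theorem finite_Y (hSK : SK p S K) (hcl : ClTriv p S K) : Finite (LP p (ESK S K)) := by
  haveI := finite_Z1 hSK hcl
  exact Finite.of_surjective _ (iot_surjective hSK hcl)

theorem cc_mu (t : Mu p) : cc • t = -t := by
  have hp : p.Prime := Fact.out
  apply TorP.incl_injective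
  rw [TorP.incl_smul, map_neg]
  apply UL.ext
  have h1 := congrArg UL.val (TorP.incl_mem t)
  rw [UL.val_nsmul, UL.val_zero] at h1
  rw [UL.val_smul, UL.val_neg]
  exact EGal.conj_mu hp.ne_zero h1

/-- **the data for the global Euler characteristic over `ℚ`** -/
theorem exists_ecdata (𝒟 : CC.Dat p S) (hp2 : p ≠ 2) (hpS : pP p ∈ S)
    {K K₀ : IntermediateField ℚ Qb} [K.fixingSubgroup.Normal] [Finite (GQ ⧸ K.fixingSubgroup)]
    [Finite (GQ ⧸ K₀.fixingSubgroup)]
    (I : (𝒟.gld hp2 hpS).GIn K.fixingSubgroup K₀.fixingSubgroup) (hSK : SK p S K)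
    (hcl : ClTriv p S K) (hU : CFT.EC.UnitEq p) :
    ∃ D : CFT.EC.ECData p (𝒟.gld hp2 hpS) K.fixingSubgroup K₀.fixingSubgroup,
      D.c = CFT.EC.cc ∧ Function.Surjective D.ι := by
  letI := actEK S K
  refine ⟨
    { I := I
      odd := hp2
      c := cc
      cc := complexConjugation_mul_self
      cT := cc_mu
      Y := LP p (ESK S K)
      fY := finite_Y hSK hcl
      kY := LP.killed
      ι := iot hSK hcl
      inj := iot_injective hSK hcl
      equi := fun g f f' h => (iot_spec hSK hcl f').unique ((iot_spec hSK hcl f).smul g h)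
      unit := ?_ }, rfl, iot_surjective hSK hcl⟩
  intro _ hT E
  have h1 := hU S K hSK 𝒟.A 𝒟.hA (fun g x => rfl) hT E
  have key : ∀ D D' : S → Subgroup GQ, D = D' →
      E.d (Pm (Σ v : S, (GQ ⧸ K.fixingSubgroup) ⧸ ((D v).map (QuotientGroup.mk' K.fixingSubgroup)))
        (ZMod p)) =
      E.d (Pm (Σ v : S, (GQ ⧸ K.fixingSubgroup) ⧸
        ((D' v).map (QuotientGroup.mk' K.fixingSubgroup))) (ZMod p)) := by
    rintro D _ rfl
    rfl
  have h2 := key (fun q => DK (𝒟.A q) ⊥) (fun q => (𝒟.A q).decompositionSubgroup ℚ) (by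
    funext q
    ext σ
    exact mem_DK_bot)
  rw [← h2] at h1
  exact h1

end Fermat.Agent.CFT.EC
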