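import Fermat.Agent.CFT.EC.SelDefs
import Fermat.Agent.CC.Desc5

/-!
# The Greenberg–Wiles formula : descent from `S'` to `S`
-/

set_option autoImplicit false
set_option linter.unusedSectionVars false

noncomputable section

namespace Fermat.Agent.CFT.EC

open Fermat.Agent.CC

/-- invariants are the fixed points of Frobenius -/
theorem card_H0_procyc {D : Type*} [Group D] {L : Lev D} {I : Subgroup D} {φ : D}
    (P : Procyc L I φ) {M : Type*} [AddCommGroup M] [DistribMulAction D M] (sm : L.Smooth M)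
    (hI : ∀ i ∈ I, ∀ m : M, i • m = m) :
    Nat.card (H0 D M) = Nat.card (subC φ 1 M).ker := by
  have h1 : ∀ m : M, m ∈ H0 D M ↔ m ∈ (subC φ 1 M).ker := by
    intro m
    rw [AddMonoidHom.mem_ker, subC_apply, one_smul, sub_eq_zero]
    constructor
    · intro h
      exact h φ
    · intro h g
      obtain ⟨N, hN, hm⟩ := sm m
      obtain ⟨n, i, hi, hs⟩ := P.gen N hN g
      have h2 : ∀ k : ℕ, φ ^ k • m = m := by
        intro k
        induction k with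
        | zero => rw [pow_zero, one_smul]
        | succ k ih => rw [pow_succ, mul_smul, h, ih]
      have h3 : g = φ ^ n * (i * ((φ ^ n * i)⁻¹ * g)) := by group
      rw [h3, mul_smul, mul_smul, hm _ hs, hI i hi, h2]
  exact Nat.card_congr (Equiv.subtypeEquivRight h1)

theorem cancel_aux (a a' b b' cf h0' h0 P Q R : ℕ) (ha : a = a') (hb : b = b') (hR : 0 < R)
    (h : a' * cf * h0' * (P * R) = b' * (Q * R) * h0) : a * cf * h0' * P = b * Q * h0 := by
  subst ha hb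
  apply Nat.eq_of_mul_eq_mul_right hR
  calc a * cf * h0' * P * R = a * cf * h0' * (P * R) := by ring
    _ = b * (Q * R) * h0 := h
    _ = b * Q * h0 * R := by ring

theorem prod_split {V V₀ : Type*} [Fintype V] [Fintype V₀] [DecidableEq V] {ι : V₀ → V}
    (hι : Function.Injective ι) (f : V → ℕ) :
    ∏ v, f v = (∏ w, f (ι w)) * ∏ v ∈ (Finset.univ.image ι)ᶜ, f v := by
  rw [← Finset.prod_mul_prod_compl (Finset.univ.image ι) f,
    Finset.prod_image fun a _ b _ h => hι h]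

section

variable {p : ℕ} [Fact p.Prime] {G : Type} [Group G] {T : Type} [AddCommGroup T]
  [DistribMulAction G T] {𝒢 : GLD p G T} {𝓛₀ : Lev G} {N : Subgroup G} {V₀ : Type}
  {ι : V₀ → 𝒢.V} {I : ∀ v, Subgroup (𝒢.D v)}

/-- extension of a family of local conditions by the unramified condition -/
def extL (ι : V₀ → 𝒢.V) (I : ∀ v, Subgroup (𝒢.D v)) (M : Type) [AddCommGroup M]
    [DistribMulAction G M] (L : ∀ v : V₀, AddSubgroup (H1 (𝒢.L (ι v)) M)) (v : 𝒢.V) :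
    AddSubgroup (H1 (𝒢.L v) M) where
  carrier := {x | (∀ w (hw : ι w = v), x ∈ (hw ▸ L w : AddSubgroup (H1 (𝒢.L v) M))) ∧
    (v ∉ Set.range ι → x ∈ HUr (𝒢.L v) (I v) M)}
  zero_mem' := ⟨fun _ _ => AddSubgroup.zero_mem _, fun _ => AddSubgroup.zero_mem _⟩
  add_mem' := fun ha hb => ⟨fun w hw => AddSubgroup.add_mem _ (ha.1 w hw) (hb.1 w hw),
    fun hv => AddSubgroup.add_mem _ (ha.2 hv) (hb.2 hv)⟩
  neg_mem' := fun ha => ⟨fun w hw => AddSubgroup.neg_mem _ (ha.1 w hw),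
    fun hv => AddSubgroup.neg_mem _ (ha.2 hv)⟩

theorem extL_ι (hι : Function.Injective ι) {M : Type} [AddCommGroup M] [DistribMulAction G M]
    (L : ∀ v : V₀, AddSubgroup (H1 (𝒢.L (ι v)) M)) (w : V₀) :
    extL ι I M L (ι w) = L w := by
  ext x
  constructor
  · intro h
    exact h.1 w rfl
  · intro h
    refine ⟨fun w' hw' => ?_, fun hv => absurd ⟨w, rfl⟩ hv⟩
    obtain rfl := hι hw'
    exact h

theorem extL_out {M : Type} [AddCommGroup M] [DistribMulAction G M]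
    (L : ∀ v : V₀, AddSubgroup (H1 (𝒢.L (ι v)) M)) {v : 𝒢.V} (hv : v ∉ Set.range ι) :
    extL ι I M L v = HUr (𝒢.L v) (I v) M := by
  ext x
  constructor
  · intro h
    exact h.2 hv
  · intro h
    exact ⟨fun w hw => absurd ⟨w, hw⟩ hv, fun _ => h⟩

variable [Fintype V₀] [Nonempty V₀] (Δ : GLD.DIn 𝒢 𝓛₀ N ι I)
  (hrec : ∀ x : H2 𝓛₀ T, ∑ v, 𝒢.inv (ι v) (𝒢.l2 T (infl2 Δ.c T x) (ι v)) = 0)

include Δ in
/-- comparison of Selmer groups -/
theorem gSel_equiv {X : Type} [AddCommGroup X] [DistribMulAction G X]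
    (sm : 𝓛₀.Smooth X) (L : ∀ v : V₀, AddSubgroup (H1 (𝒢.L (ι v)) X))
    (L' : ∀ v, AddSubgroup (H1 (𝒢.L v) X)) (h1 : ∀ w, L' (ι w) = L w)
    (h2 : ∀ v ∉ Set.range ι, L' v = HUr (𝒢.L v) (I v) X) :
    Nonempty (gSel (𝒢.restr Δ.c ι hrec) X L ≃ gSel 𝒢 X L') := by
  have hloc : ∀ (x : H1 𝓛₀ X) (w : V₀), loc1 ((𝒢.restr Δ.c ι hrec).cont w) X x =
      loc1 (𝒢.cont (ι w)) X (infl1 Δ.c X x) := by
    intro x w
    obtain ⟨x, rfl⟩ := H1.mk_surjective x
    rfl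
  refine ⟨Equiv.ofBijective (fun x => ⟨infl1 Δ.c X x.1, ?_⟩) ⟨?_, ?_⟩⟩
  · rw [mem_gSel]
    intro v
    by_cases hv : v ∈ Set.range ι
    · obtain ⟨w, rfl⟩ := hv
      rw [h1]
      exact (congrArg (fun z => z ∈ L w) (hloc x.1 w)).mp
        ((mem_gSel (𝒢.restr Δ.c ι hrec)).mp x.2 w)
    · rw [h2 v hv]
      exact (Δ.infl1_range sm (infl1 Δ.c X x.1)).mp ⟨_, rfl⟩ v hv
  · intro a b hab
    exact Subtype.ext (infl1_injective Δ.c X (congrArg Subtype.val hab))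
  · rintro ⟨x, hx⟩
    rw [mem_gSel] at hx
    obtain ⟨y, rfl⟩ := (Δ.infl1_range sm x).mpr (fun v hv => by
      have := hx v
      rw [h2 v hv] at this
      exact this)
    refine ⟨⟨y, (mem_gSel (𝒢.restr Δ.c ι hrec)).mpr fun (w : V₀) => ?_⟩, rfl⟩
    have h3 := hx (ι w)
    rw [h1] at h3
    exact (congrArg (fun z => z ∈ L w) (hloc y w)).mpr h3

/-- **Descent of the Greenberg–Wiles formula** -/
theorem gwf_descend (hι : Function.Injective ι) (ht : GLD.TameOut 𝒢 ι I) (smT : 𝓛₀.Smooth T)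
    {c : G} {M M' : Type} [AddCommGroup M] [AddCommGroup M'] [DistribMulAction G M]
    [DistribMulAction G M'] {e : M →+ M' →+ T} (h : Pr p 𝓛₀ e)
    (hG : ∀ L', GWf 𝒢 c (h.coarse Δ.c) L')
    (L : ∀ v : V₀, AddSubgroup (H1 (𝒢.L (ι v)) M)) : GWf (𝒢.restr Δ.c ι hrec) c h L := by
  classical
  have hfM := h.fA
  have hfM' := h.fB
  have h' := h.coarse Δ.c
  have hperp := Δ.perpUr ht smT h
  set L' : ∀ v, AddSubgroup (H1 (𝒢.L v) M) := fun v => extL ι I M L v with hL'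
  obtain ⟨g1, g2, g3⟩ := hG L'
  have hι1 : ∀ w, L' (ι w) = L w := fun w => extL_ι hι L w
  have hι2 : ∀ v ∉ Set.range ι, L' v = HUr (𝒢.L v) (I v) M := fun v hv => extL_out L hv
  have hd1 : ∀ w, gDual 𝒢 (h.coarse Δ.c) (ι w) (L' (ι w)) =
      gDual (𝒢.restr Δ.c ι hrec) h w (L w) := by
    intro w
    rw [hι1]
    rfl
  have hd2 : ∀ v ∉ Set.range ι, gDual 𝒢 (h.coarse Δ.c) v (L' v) = HUr (𝒢.L v) (I v) M' := by
    intro v hv
    ext y
    rw [mem_gDual, hι2 v hv, ← hperp v hv y]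
    refine forall_congr' fun x => forall_congr' fun _ => ?_
    rw [GLD.b11_apply]
    exact (map_eq_zero_iff _ (𝒢.inv v).injective).symm
  obtain ⟨e1⟩ := gSel_equiv Δ hrec h.smA L L' hι1 hι2
  obtain ⟨e2⟩ := gSel_equiv Δ hrec h.smB (fun w => gDual (𝒢.restr Δ.c ι hrec) h w (L w))
    (fun v => gDual 𝒢 (h.coarse Δ.c) v (L' v)) hd1 hd2
  refine ⟨Finite.of_equiv _ e1.symm, Finite.of_equiv _ e2.symm, ?_⟩
  rw [prod_split hι (fun v => Nat.card (H0 (𝒢.D v) M)),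
    prod_split hι (fun v => Nat.card (L' v))] at g3
  have hout : ∏ v ∈ (Finset.univ.image ι)ᶜ, Nat.card (L' v) =
      ∏ v ∈ (Finset.univ.image ι)ᶜ, Nat.card (H0 (𝒢.D v) M) := by
    refine Finset.prod_congr rfl fun v hv => ?_
    have hv' : v ∉ Set.range ι := by
      rintro ⟨w, rfl⟩
      exact Finset.mem_compl.mp hv (Finset.mem_image_of_mem _ (Finset.mem_univ w))
    obtain ⟨φ, P⟩ := Δ.pc v hv'
    have hI : ∀ i ∈ I v, ∀ m : M, i • m = m := fun i hi m => Δ.trivI h.smA hv' i hi m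
    rw [hι2 v hv', card_HUr P h.kA (smooth_loc (𝒢.cont v) h'.smA) hI,
      card_H0_procyc P (smooth_loc (𝒢.cont v) h'.smA) hI]
  rw [hout] at g3
  have hin : ∏ w, Nat.card (L' (ι w)) = ∏ w, Nat.card (L w) :=
    Finset.prod_congr rfl fun w _ => by rw [hι1]
  rw [hin] at g3
  have hpos : 0 < ∏ v ∈ (Finset.univ.image ι)ᶜ, Nat.card (H0 (𝒢.D v) M) :=
    Finset.prod_pos fun v _ => Nat.card_pos
  exact cancel_aux _ _ _ _ _ _ _ _ _ _ (Nat.card_congr e1) (Nat.card_congr e2) hpos g3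

end

end Fermat.Agent.CFT.EC
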