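import Fermat.Agent.CFT.EC.Data
import Fermat.Agent.CFT.EC.Defs2

/-!
# The Greenberg–Wiles formula : statement
-/

set_option autoImplicit false

noncomputable section

namespace Fermat.Agent.CFT.EC

open Fermat.Agent.CC
open Fermat.Agent.LF (DK)

section

variable {p : ℕ} [Fact p.Prime] (S : Finset Nat.Primes) (A : S → ValuationSubring Qb)

/-- Selmer group : classes of `H¹(G_S, M)` which are locally in `L q` for all `q ∈ S` -/
def SelS (M : Type) [AddCommGroup M] [DistribMulAction GQ M]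
    (L : ∀ q : S, AddSubgroup (H1 (lev.sub (DK (A q) ⊥)) M)) : AddSubgroup (H1 (levS S) M) :=
  ⨅ q : S, (L q).comap (loc1 (cont_D S (A q) ⊥) M)

theorem mem_SelS {M : Type} [AddCommGroup M] [DistribMulAction GQ M]
    {L : ∀ q : S, AddSubgroup (H1 (lev.sub (DK (A q) ⊥)) M)} {x : H1 (levS S) M} :
    x ∈ SelS S A M L ↔ ∀ q, loc1 (cont_D S (A q) ⊥) M x ∈ L q := by
  rw [SelS, AddSubgroup.mem_iInf]
  rfl

variable {M M' : Type} [AddCommGroup M] [AddCommGroup M'] [DistribMulAction GQ M]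
  [DistribMulAction GQ M'] {e : M →+ M' →+ Mu p}

/-- dual local condition -/
def dualC (h : Pr p (levS S) e) (q : S) (L : AddSubgroup (H1 (lev.sub (DK (A q) ⊥)) M)) :
    AddSubgroup (H1 (lev.sub (DK (A q) ⊥)) M') where
  carrier := {y | ∀ x ∈ L, cup11 e (h.he.sub (DK (A q) ⊥)) (smooth_loc (cont_D S (A q) ⊥) h.smB)
    x y = 0}
  zero_mem' x _ := map_zero _
  add_mem' {a b} ha hb x hx := by rw [map_add, ha x hx, hb x hx, add_zero]
  neg_mem' {a} ha x hx := by rw [map_neg, ha x hx, neg_zero]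

omit [Fact p.Prime] in
theorem mem_dualC {h : Pr p (levS S) e} {q : S} {L : AddSubgroup (H1 (lev.sub (DK (A q) ⊥)) M)}
    {y : H1 (lev.sub (DK (A q) ⊥)) M'} : y ∈ dualC S A h q L ↔ ∀ x ∈ L,
      cup11 e (h.he.sub (DK (A q) ⊥)) (smooth_loc (cont_D S (A q) ⊥) h.smB) x y = 0 := Iff.rfl

/-- dual Selmer group -/
def SelD (h : Pr p (levS S) e) (L : ∀ q : S, AddSubgroup (H1 (lev.sub (DK (A q) ⊥)) M)) :
    AddSubgroup (H1 (levS S) M') :=
  SelS S A M' fun q => dualC S A h q (L q)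

end

/-- **Greenberg–Wiles formula**. `Pr p (levS S) e` : `M, M'` finite, killed by `p`, unramified
outside `S`, `e : M × M' → μ_p` equivariant and perfect. -/
def GW (p : ℕ) [Fact p.Prime] : Prop :=
  ∀ (S : Finset Nat.Primes), pP p ∈ S → ∀ (A : S → ValuationSubring Qb),
    (∀ q : S, (A q).LiesOverPrime ((q : Nat.Primes) : ℕ)) →
    ∀ (M M' : Type) [AddCommGroup M] [AddCommGroup M'] [DistribMulAction GQ M]
      [DistribMulAction GQ M'] (e : M →+ M' →+ Mu p) (h : Pr p (levS S) e)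
      (L : ∀ q : S, AddSubgroup (H1 (lev.sub (DK (A q) ⊥)) M)),
      Finite (SelS S A M L) ∧ Finite (SelD S A h L) ∧
        Nat.card (SelS S A M L) * cfix cc M * Nat.card (H0 GQ M') *
            (∏ q : S, Nat.card (H0 (DK (A q) ⊥) M)) =
          Nat.card (SelD S A h L) * (∏ q : S, Nat.card (L q)) * Nat.card (H0 GQ M)

end Fermat.Agent.CFT.EC
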