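import Fermat.Agent.CFT.EC.GWBig
import Fermat.Agent.CFT.EC.GWStmt
import Fermat.Agent.CFT.EC.GW2
import Fermat.Agent.CFT.EC.ECQ
import Fermat.Agent.CFT.EC.Art6
import Fermat.Agent.H29EC.LeC
import Fermat.Agent.H23.EC.UnitEqU
import Fermat.Agent.CC.Desc12

/-!
# The Greenberg–Wiles formula
-/

set_option autoImplicit false
set_option maxHeartbeats 800000

noncomputable section

namespace Fermat.Agent.CFT.EC

open Fermat.Agent.CC
open Fermat.Agent.LF (DK)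

variable {p : ℕ} [Fact p.Prime]

/-- Greenberg–Wiles formula at the data of `S` -/
theorem gwf_S (hp2 : p ≠ 2) (S : Finset Nat.Primes) (hpS : pP p ∈ S)
    (A : S → ValuationSubring Qb) (hA : ∀ q : S, (A q).LiesOverPrime ((q : Nat.Primes) : ℕ))
    (M M' : Type) [AddCommGroup M] [AddCommGroup M'] [DistribMulAction GQ M]
    [DistribMulAction GQ M'] (e : M →+ M' →+ Mu p) (h : Pr p (levS S) e) :
    ∃ 𝒟 : Dat p S, 𝒟.A = A ∧ ∀ L, GWf (𝒟.gld hp2 hpS) cc h L := by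
  obtain ⟨K₁, hK₁, hK₁t⟩ := exists_triv h
  obtain ⟨S', K, K₀, hS, f1, f2, hKK, hn, hSK, -, -, hcl, -, hJ⟩ := exists_gin hp2 S K₁ hpS hK₁
  obtain ⟨tM, tM'⟩ := hK₁t K hKK
  obtain ⟨𝒟, h𝒟⟩ := exists_dat_ext hp2 hS A hA
  refine ⟨𝒟.res hS, h𝒟, fun L => ?_⟩
  obtain ⟨D, hc, hs⟩ := exists_ecdata 𝒟 hp2 (hS hpS) (hJ 𝒟) (hSK.mono hS) hcl (H23.EC.unitEq p)
  have hne : Nonempty S := ⟨⟨_, hpS⟩⟩
  refine gwf_descend (din 𝒟 hp2 hpS hS) (hrecS 𝒟 hp2 hpS hS) (inclS_injective hS)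
    (tameOut 𝒟 hp2 hpS hS) (smooth_Mu hpS) h (fun L' => ?_) L
  rw [← hc]
  exact gwf_of_data D hs (H29EC.leC D) (artin Fact.out) (h.coarse (din 𝒟 hp2 hpS hS).c) tM tM' L'

/-- **the Greenberg–Wiles formula** -/
theorem gw (hp2 : p ≠ 2) : GW p := by
  intro S hpS A hA M M' _ _ _ _ e h L
  obtain ⟨𝒟, rfl, hG⟩ := gwf_S hp2 S hpS A hA M M' e h
  exact hG L

end Fermat.Agent.CFT.EC
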