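import Fermat.Agent.CFT.EC.Co

/-!
# Global Euler characteristic : vanishing for modules coinduced from `H`
-/

set_option autoImplicit false
set_option maxHeartbeats 400000

noncomputable section

namespace Fermat.Agent.CFT.EC

open Fermat.Agent.CC

section Dual

variable {p : ℕ} [Fact p.Prime] {G : Type} [Group G] {T : Type} [AddCommGroup T]
  [DistribMulAction G T] {𝓛 : Lev G} {M M' : Type} [AddCommGroup M] [AddCommGroup M']
  [DistribMulAction G M] [DistribMulAction G M'] {e : M →+ M' →+ T}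

theorem cfix_dual (τ : T ≃+ ZMod p) (hp2 : p ≠ 2) {c : G} (hcc : c * c = 1)
    (cT : ∀ t : T, c • t = -t) (h : Pr p 𝓛 e) : cfix c M * cfix c M' = Nat.card M := by
  have := h.fA
  have := h.fB
  obtain ⟨n, hn⟩ := (Fact.out : p.Prime).odd_of_ne_two hp2
  have hT : ∀ t : T, t = -t → t = 0 := by
    intro t ht
    have h1 : (2 : ℕ) • t = 0 := by
      rw [two_nsmul]
      nth_rewrite 2 [ht]
      exact add_neg_cancel t
    have h2 := killedT τ t
    rw [hn, add_nsmul, mul_comm, mul_nsmul', h1, smul_zero, zero_add, one_nsmul] at h2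
    exact h2
  let e' : M →+ M' →+ ZMod p := e.compr₂ τ.toAddMonoidHom
  have he' : ∀ m m', e' m m' = 0 ↔ e m m' = 0 := fun m m' => by
    change τ (e m m') = 0 ↔ _
    rw [EmbeddingLike.map_eq_zero_iff]
  have h1 : perp e' (Fix c M') = Fix c M := by
    ext m
    constructor
    · intro hm
      rw [mem_Fix]
      have h2 : c • m - m = 0 := by
        refine h.hl _ fun m' => ?_
        have h3 := (he' _ _).mp (hm (m' + c • m') (by
          rw [mem_Fix, smul_add, ← mul_smul, hcc, one_smul, add_comm]))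
        have h4 : e m (c • m') = - e (c • m) m' := by
          have := h.he c (c • m) m'
          rw [← mul_smul, hcc, one_smul, cT] at this
          exact this
        rw [map_add, h4, add_neg_eq_zero] at h3
        rw [map_sub, AddMonoidHom.sub_apply, h3, sub_self]
      exact sub_eq_zero.mp h2
    · intro hm m' hm'
      rw [he']
      apply hT
      have := h.he c m m'
      rw [(mem_Fix c M).mp hm, (mem_Fix c M').mp hm', cT] at this
      exact this
  have h2 := card_perp h.kA h.kB e' (fun y hy => h.hr y fun x => (he' x y).mp (hy x)) (Fix c M')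
  rw [h1] at h2
  exact h2

end Dual

section CoT

variable {G : Type} [Group G] {H : Subgroup G} [H.Normal] {T : Type} [AddCommGroup T]
  [DistribMulAction H T] (htT : ∀ (h : H) (t : T), h • t = t)

include htT in
theorem coT_eq (F : CoInd H T) {x y : G} (h : (x : G ⧸ H) = y) : F.1 x = F.1 y := by
  have h1 : y * x⁻¹ ∈ H := by
    rw [← QuotientGroup.eq_one_iff, QuotientGroup.mk_mul, QuotientGroup.mk_inv, h,
      mul_inv_cancel]
  have h2 := F.2 ⟨y * x⁻¹, h1⟩ x
  rw [htT] at h2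
  change F.1 (y * x⁻¹ * x) = _ at h2
  rw [inv_mul_cancel_right] at h2
  exact h2.symm

/-- coinduction of a trivial module -/
def coTEquiv : CoInd H T ≃ (G ⧸ H → T) where
  toFun F q := F.1 q.out
  invFun φ := ⟨fun x => φ x, fun u x => by
    beta_reduce
    rw [htT, QuotientGroup.mk_mul, (QuotientGroup.eq_one_iff (u : G)).mpr u.2, one_mul]⟩
  left_inv F := CoInd.ext fun x => coT_eq htT F (Quotient.out_eq _)
  right_inv φ := funext fun q => congrArg φ (Quotient.out_eq q)

/-- invariants in the coinduction of a trivial module -/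
def h0Equiv (D : Subgroup G) :
    H0 D (CoInd H T) ≃ ((G ⧸ H) ⧸ D.map (QuotientGroup.mk' H) → T) where
  toFun F q := F.1.1 q.out.out
  invFun φ := ⟨⟨fun x => φ ((x : G ⧸ H) : (G ⧸ H) ⧸ D.map (QuotientGroup.mk' H)), fun u x => by
    beta_reduce
    rw [htT, QuotientGroup.mk_mul, (QuotientGroup.eq_one_iff (u : G)).mpr u.2, one_mul]⟩,
    fun d => CoInd.ext fun x => by
      change φ (((x * d : G) : G ⧸ H) : (G ⧸ H) ⧸ D.map (QuotientGroup.mk' H)) = φ _
      congr 1
      rw [eq_comm, QuotientGroup.eq, QuotientGroup.mk_mul, inv_mul_cancel_left]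
      exact ⟨d, d.2, rfl⟩⟩
  left_inv F := Subtype.ext (CoInd.ext fun x => by
    change F.1.1 (Quotient.out (Quotient.out ((x : G ⧸ H) :
      (G ⧸ H) ⧸ D.map (QuotientGroup.mk' H)))) = F.1.1 x
    set q := Quotient.out ((x : G ⧸ H) : (G ⧸ H) ⧸ D.map (QuotientGroup.mk' H)) with hq
    have h1 : ((x : G ⧸ H) : (G ⧸ H) ⧸ D.map (QuotientGroup.mk' H)) = (q : _) :=
      (Quotient.out_eq _).symm
    rw [QuotientGroup.eq] at h1
    obtain ⟨d, hd, hdq⟩ := h1
    have h2 : ((q.out : G) : G ⧸ H) = ((x * d : G) : G ⧸ H) := by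
      rw [QuotientGroup.mk_mul]
      change _ = _ * (QuotientGroup.mk' H d)
      rw [hdq, mul_inv_cancel_left]
      exact Quotient.out_eq q
    rw [coT_eq htT F.1 h2]
    have h3 := congrArg (fun t : CoInd H T => t.1 x) (F.2 ⟨d, hd⟩)
    exact h3)
  right_inv φ := funext fun q => by
    change φ (((Quotient.out (Quotient.out q : G ⧸ H) : G) : G ⧸ H) : _) = φ q
    congr 1
    have h1 : ((Quotient.out (Quotient.out q : G ⧸ H) : G) : G ⧸ H) = Quotient.out q :=
      Quotient.out_eq _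
    rw [h1]
    exact Quotient.out_eq q

end CoT

/-- `log_p` of the order -/
def lgF (p : ℕ) [Fact p.Prime] (Γ : Type) [Group Γ] : AddF p Γ where
  d M _ _ := lg p (Nat.card M)
  add {A B C} _ _ _ _ _ _ _ _ i j _ _ inj surj ex := by
    have : Finite A := Finite.of_injective i inj
    have : Finite C := Finite.of_surjective j surj
    rw [← lg_mul p Nat.card_pos.ne' Nat.card_pos.ne']
    congr 1
    rw [card_exact i j ex, AddMonoidHom.range_eq_top.mpr surj,
      Nat.card_congr (AddSubgroup.topEquiv (G := C)).toEquiv,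
      ← Nat.card_congr (AddMonoidHom.ofInjective inj).toEquiv]

theorem lgF_d (p : ℕ) [Fact p.Prime] (Γ : Type) [Group Γ] (M : Type) [AddCommGroup M]
    [DistribMulAction Γ M] : (lgF p Γ).d M = lg p (Nat.card M) := rfl

theorem card_Pm {X R : Type} [Finite X] : Nat.card (Pm X R) = Nat.card R ^ Nat.card X :=
  Nat.card_fun

/-- action of `G ⧸ H` -/
@[reducible] def qAct {G : Type} [Group G] {H : Subgroup G} [H.Normal] {M : Type} [AddCommGroup M]
    [DistribMulAction G M] (ht : ∀ (h : H) (m : M), h • m = m) : DistribMulAction (G ⧸ H) M where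
  smul q m := (Quotient.out q : G) • m
  one_smul m := by
    have h1 : ((Quotient.out (1 : G ⧸ H) : G) : G ⧸ H) = 1 := Quotient.out_eq _
    exact ht ⟨_, (QuotientGroup.eq_one_iff _).mp h1⟩ m
  mul_smul q q' m := by
    change (Quotient.out (q * q') : G) • m = (Quotient.out q : G) • (Quotient.out q' : G) • m
    rw [← mul_smul]
    have h1 : ((Quotient.out (q * q') : G) : G ⧸ H) = ((Quotient.out q * Quotient.out q' : G) : G ⧸ H) := by
      have e1 : ((Quotient.out q : G) : G ⧸ H) = q := Quotient.out_eq _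
      have e2 : ((Quotient.out q' : G) : G ⧸ H) = q' := Quotient.out_eq _
      rw [QuotientGroup.mk_mul, e1, e2]
      exact Quotient.out_eq _
    rw [eq_comm, QuotientGroup.eq] at h1
    have h2 := ht ⟨_, h1⟩ m
    change ((Quotient.out q * Quotient.out q')⁻¹ * Quotient.out (q * q')) • m = m at h2
    rw [mul_smul, inv_smul_eq_iff] at h2
    exact h2
  smul_zero q := smul_zero (Quotient.out q : G)
  smul_add q a b := smul_add (Quotient.out q : G) a b

theorem qAct_mk {G : Type} [Group G] {H : Subgroup G} [H.Normal] {M : Type} [AddCommGroup M]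
    [DistribMulAction G M] (ht : ∀ (h : H) (m : M), h • m = m) (g : G) (m : M) :
    (qAct ht).smul (g : G ⧸ H) m = g • m := by
  change (Quotient.out (g : G ⧸ H) : G) • m = g • m
  have h1 : (g : G ⧸ H) = ((Quotient.out (g : G ⧸ H) : G) : G ⧸ H) := (Quotient.out_eq _).symm
  rw [QuotientGroup.eq] at h1
  have h2 := ht ⟨_, h1⟩ m
  change (g⁻¹ * Quotient.out (g : G ⧸ H)) • m = m at h2
  rw [mul_smul, inv_smul_eq_iff] at h2
  exact h2

section Main

variable {p : ℕ} [Fact p.Prime] {G : Type} [Group G] {T : Type} [AddCommGroup T]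
  [DistribMulAction G T] {𝒢 : GLD p G T} {H H₀ : Subgroup G} [H.Normal] [Finite (G ⧸ H)]
  [Finite (G ⧸ H₀)] (D : ECData p 𝒢 H H₀)

include 𝒢 in
omit [H.Normal] [Finite (G ⧸ H)] [Finite (G ⧸ H₀)] in
theorem card_T : Nat.card T = p := by
  rw [Nat.card_congr 𝒢.τ.toEquiv, Nat.card_zmod]

theorem orderOf_c : orderOf (QuotientGroup.mk' H D.c) = 2 := by
  have hp : p.Prime := Fact.out
  refine orderOf_eq_prime ?_ ?_
  · rw [← map_pow, sq, D.cc, map_one]
  · intro h
    have h1 : D.c ∈ H := (QuotientGroup.eq_one_iff _).mp h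
    have h2 : ∀ t : T, -t = t := fun t => by
      rw [← D.cT]
      exact D.I.htT ⟨_, h1⟩ t
    have h3 := h2 (𝒢.τ.symm 1)
    rw [neg_eq_iff_add_eq_zero, ← map_add, EmbeddingLike.map_eq_zero_iff] at h3
    have h4 : ((2 : ℕ) : ZMod p) = 0 := by
      push_cast
      rw [← one_add_one_eq_two]
      exact h3
    rw [ZMod.natCast_eq_zero_iff] at h4
    exact D.odd ((Nat.prime_dvd_prime_iff_eq hp Nat.prime_two).mp h4)

theorem card_soo : Nat.card (G ⧸ H) =
    2 * Nat.card ((G ⧸ H) ⧸ (Subgroup.zpowers (QuotientGroup.mk' H D.c))) := by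
  rw [Subgroup.card_eq_card_quotient_mul_card_subgroup (Subgroup.zpowers (QuotientGroup.mk' H D.c)),
    Nat.card_zpowers, orderOf_c, mul_comm]

theorem card_H1_Y (hs : Function.Surjective D.ι) :
    Nat.card (H1 𝒢.𝓛 (CoInd H T)) = Nat.card D.Y := by
  rw [Nat.card_congr (Equiv.ofBijective (sh1 𝒢.𝓛 H T) ⟨sh1_injective, sh1_surjective D.I.hH⟩),
    ← Nat.card_congr (Equiv.ofBijective D.ι ⟨D.inj, hs⟩)]
  refine (Nat.card_congr (Equiv.ofBijective (H1.mk (𝒢.𝓛.sub H) T) ⟨?_, H1.mk_surjective⟩)).symm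
  rw [injective_iff_map_eq_zero]
  intro f hf
  obtain ⟨a, ha⟩ := H1.mk_eq_zero.mp hf
  apply Subtype.ext
  funext g
  rw [ha, D.I.htT, sub_self]
  rfl

theorem lg_Y : lg p (Nat.card D.Y) = (Nat.card (Σ v : 𝒢.V, (G ⧸ H) ⧸ ((𝒢.D v).map
    (QuotientGroup.mk' H))) : ℤ) +
      Nat.card ((G ⧸ H) ⧸ (Subgroup.zpowers (QuotientGroup.mk' H D.c))) := by
  let _ : DistribMulAction (G ⧸ H) T := qAct D.I.htT
  have h1 := D.unit (fun g t => qAct_mk D.I.htT g t) (lgF p (G ⧸ H))
  simp only [lgF_d] at h1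
  rw [card_Pm, card_Pm, Nat.card_zmod, lg_pow, lg_pow, card_T (𝒢 := 𝒢)] at h1
  have h2 : Nat.card (Tv (ZMod p)) = p := Nat.card_zmod p
  rw [h2] at h1
  linarith

include D in
theorem lg_c0 : lg p (𝒢.c0 (CoInd H T)) = (Nat.card (Σ v : 𝒢.V, (G ⧸ H) ⧸ ((𝒢.D v).map
    (QuotientGroup.mk' H))) : ℤ) := by
  have h1 : 𝒢.c0 (CoInd H T) = p ^ (Nat.card (Σ v : 𝒢.V, (G ⧸ H) ⧸ ((𝒢.D v).map
    (QuotientGroup.mk' H)))) := by
    rw [GLD.c0, Nat.card_congr ((Equiv.piCongrRight fun v => h0Equiv D.I.htT (𝒢.D v)).trans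
      (Equiv.piCurry fun _ _ => T).symm)]
    exact Nat.card_fun.trans (congrArg (fun n => n ^ _) (card_T (𝒢 := 𝒢)))
  rw [h1, lg_pow]

theorem dZ_coT (hs : Function.Surjective D.ι) : dZ 𝒢 D.c (CoInd H T) = 0 := by
  have hPr := 𝒢.prT D.I.hH D.I.htT
  have := hPr.fA
  have f2 : Finite (H2 𝒢.𝓛 (CoInd H T)) := finH2 D.I hPr.kA (GLD.coInd_triv D.I.hn D.I.htT)
  have e1 := 𝒢.card_E2 hPr D.I.hE2
  have e2 : Nat.card (𝒢.Sh2 (CoInd H T)) = 1 := by
    rw [Nat.card_eq_one_iff_unique]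
    refine ⟨⟨fun a b => ?_⟩, ⟨0⟩⟩
    exact Subtype.ext ((D.I.sha2 a.1 a.2).trans (D.I.sha2 b.1 b.2).symm)
  rw [e2, one_mul, ← 𝒢.c0_eq hPr] at e1
  have e3 := congrArg (lg p) e1
  rw [lg_mul p Nat.card_pos.ne' Nat.card_pos.ne', lg_c0 D] at e3
  have e4 := congrArg (lg p) (cfix_dual 𝒢.τ D.odd D.cc D.cT hPr)
  rw [lg_mul p (cfix_ne _) (cfix_ne _)] at e4
  have e5 : lg p (Nat.card (CoInd H T)) = 2 *
      (Nat.card ((G ⧸ H) ⧸ (Subgroup.zpowers (QuotientGroup.mk' H D.c))) : ℤ) := by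
    rw [Nat.card_congr (coTEquiv D.I.htT), Nat.card_fun, card_T (𝒢 := 𝒢), lg_pow, card_soo D]
    push_cast
    rfl
  have e6 := lg_Y D
  rw [dZ, card_H1_Y D hs]
  linarith

end Main

end Fermat.Agent.CFT.EC
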