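import Fermat.Agent.CFT.EC.SelDefs
import Fermat.Agent.CFT.EC.Zero
import Fermat.Agent.CC.Desc3

/-!
# Greenberg–Wiles formula from the global Euler characteristic
-/

set_option autoImplicit false
set_option maxHeartbeats 400000

noncomputable section

namespace Fermat.Agent.CFT.EC

open Fermat.Agent.CC

section Arith

/-- local Euler characteristic, arithmetic -/
theorem arith_loc {h1 h1' h0 h0' h2 h2' c c' m m' sh sh' c0 c1 c2 r r' : ℕ}
    (e1 : h1 * c = h0 * h2 * m) (e2 : h1' * c' = h0' * h2' * m') (e3 : c * c' = m)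
    (e4 : h0 * h0' * h2 * h2' = sh * sh' * (c0 * c2)) (e5 : h1 = sh * r) (e6 : h1' = sh' * r')
    (e7 : r * r' = c1) (e8 : m' = m) (p1 : 0 < sh) (p2 : 0 < sh') (p3 : 0 < m) :
    c1 = c0 * c2 * m := by
  have a1 : (h1 * c) * (h1' * c') = (h0 * h2 * m) * (h0' * h2' * m') := by rw [e1, e2]
  have a2 : (sh * sh' * m) * c1 = (sh * sh' * m) * (c0 * c2 * m) := by
    calc (sh * sh' * m) * c1 = (sh * r) * (sh' * r') * m := by rw [← e7]; ring
      _ = h1 * h1' * (c * c') := by rw [← e5, ← e6, e3]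
      _ = (h1 * c) * (h1' * c') := by ring
      _ = (h0 * h0' * h2 * h2') * (m * m') := by rw [a1]; ring
      _ = (sh * sh' * (c0 * c2)) * (m * m) := by rw [e4, e8]
      _ = _ := by ring
  exact Nat.eq_of_mul_eq_mul_left (by positivity) a2

/-- Greenberg–Wiles, arithmetic -/
theorem arith_gw {s s' h1 h0 h0' h2 c m sh1 sh1' c0 c1 c2 l r x y j : ℕ}
    (es : s = sh1 * x) (es' : s' = sh1' * y) (eh : h1 = sh1 * r) (ej : y * j = c1)
    (er : r * l = j * x) (e2 : h2 * h0' = sh1' * c2) (ec : h1 * c = h0 * h2 * m)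
    (el : c1 = c0 * c2 * m) (p1 : 0 < h2) (p2 : 0 < m) (p3 : 0 < c2) :
    s * c * h0' * c0 = s' * l * h0 := by
  have a0 : s' * h1 * l = sh1' * c1 * s := by
    calc s' * h1 * l = (sh1' * y) * (sh1 * r) * l := by rw [es', eh]
      _ = sh1' * sh1 * y * (r * l) := by ring
      _ = sh1' * (y * j) * (sh1 * x) := by rw [er]; ring
      _ = _ := by rw [ej, es]
  have a1 : (h2 * m * c2) * (s * c * h0' * c0) = (h2 * m * c2) * (s' * l * h0) := by
    calc (h2 * m * c2) * (s * c * h0' * c0) = (h2 * h0') * (c0 * c2 * m) * s * c := by ring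
      _ = (sh1' * c1 * s) * c2 * c := by rw [e2, ← el]; ring
      _ = s' * l * (h1 * c) * c2 := by rw [← a0]; ring
      _ = _ := by rw [ec]; ring
  exact Nat.eq_of_mul_eq_mul_left (by positivity) a1

end Arith

section Count

variable {X : Type*} [AddCommGroup X]

/-- `|A| |B| = |A ⊔ B| |A ⊓ B|` -/
theorem card_sup_inf (A B : AddSubgroup X) :
    Nat.card A * Nat.card B = Nat.card (A ⊔ B : AddSubgroup X) *
      Nat.card (A ⊓ B : AddSubgroup X) := by
  let f : A × B →+ X := A.subtype.coprod B.subtype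
  have h1 := card_ker_range f
  rw [Nat.card_prod] at h1
  have h2 : f.range = A ⊔ B := by
    ext x
    rw [AddSubgroup.mem_sup]
    constructor
    · rintro ⟨⟨a, b⟩, rfl⟩
      exact ⟨a, a.2, b, b.2, rfl⟩
    · rintro ⟨a, ha, b, hb, rfl⟩
      exact ⟨(⟨a, ha⟩, ⟨b, hb⟩), rfl⟩
  have h3 : Nat.card f.ker = Nat.card (A ⊓ B : AddSubgroup X) := by
    refine Nat.card_congr (Equiv.ofBijective (fun t : f.ker => (⟨t.1.1.1, t.1.1.2, ?_⟩ :
      (A ⊓ B : AddSubgroup X))) ⟨?_, ?_⟩)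
    · have h4 : (t.1.1 : X) + (t.1.2 : X) = 0 := t.2
      rw [eq_neg_of_add_eq_zero_left h4]
      exact B.neg_mem t.1.2.2
    · rintro ⟨⟨a, b⟩, h⟩ ⟨⟨a', b'⟩, h'⟩ hab
      have h4 : (a : X) + (b : X) = 0 := h
      have h5 : (a' : X) + (b' : X) = 0 := h'
      have h6 : (a : X) = a' := congrArg (fun t : (A ⊓ B : AddSubgroup X) => (t : X)) hab
      have h7 : (b : X) = b' := by
        rw [eq_neg_of_add_eq_zero_right h4, eq_neg_of_add_eq_zero_right h5, h6]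
      exact Subtype.ext (Prod.ext (Subtype.ext h6) (Subtype.ext h7))
    · rintro ⟨x, hA, hB⟩
      exact ⟨⟨(⟨x, hA⟩, ⟨-x, B.neg_mem hB⟩), add_neg_cancel x⟩, rfl⟩
  rw [h1, h2, h3, mul_comm]

end Count

variable {p : ℕ} [Fact p.Prime] {G : Type} [Group G] {T : Type} [AddCommGroup T]
  [DistribMulAction G T] {𝒢 : GLD p G T}

section Pi

variable {M : Type} [AddCommGroup M] [DistribMulAction G M]

/-- product of local conditions -/
def piL (L : ∀ v, AddSubgroup (H1 (𝒢.L v) M)) : AddSubgroup (∀ v, H1 (𝒢.L v) M) :=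
  AddSubgroup.pi Set.univ L

theorem mem_piL {L : ∀ v, AddSubgroup (H1 (𝒢.L v) M)} {y : ∀ v, H1 (𝒢.L v) M} :
    y ∈ piL L ↔ ∀ v, y v ∈ L v := by
  rw [piL, AddSubgroup.mem_pi]
  exact ⟨fun h v => h v trivial, fun h v _ => h v⟩

theorem card_piL (L : ∀ v, AddSubgroup (H1 (𝒢.L v) M)) :
    Nat.card (piL L) = ∏ v, Nat.card (L v) := by
  rw [← Nat.card_pi]
  refine Nat.card_congr
    { toFun := fun y v => ⟨y.1 v, mem_piL.mp y.2 v⟩
      invFun := fun y => ⟨fun v => y v, mem_piL.mpr fun v => (y v).2⟩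
      left_inv := fun _ => rfl
      right_inv := fun _ => rfl }

/-- the order of a Selmer group -/
theorem card_gSel (L : ∀ v, AddSubgroup (H1 (𝒢.L v) M)) :
    Nat.card (gSel 𝒢 M L) = Nat.card (𝒢.Sh1 M) *
      Nat.card ((𝒢.l1 M).range ⊓ piL L : AddSubgroup (∀ v, H1 (𝒢.L v) M)) := by
  rw [card_ker_range ((𝒢.l1 M).comp (gSel 𝒢 M L).subtype)]
  congr 1
  · refine Nat.card_congr (Equiv.ofBijective (fun x => (⟨x.1.1, x.2⟩ : 𝒢.Sh1 M)) ⟨?_, ?_⟩)
    · intro a b hab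
      have h1 : a.1.1 = b.1.1 := congrArg (fun t : 𝒢.Sh1 M => t.1) hab
      exact Subtype.ext (Subtype.ext h1)
    · rintro ⟨x, hx⟩
      have hx' : 𝒢.l1 M x = 0 := hx
      have hxY : x ∈ gSel 𝒢 M L := (mem_gSel 𝒢).mpr fun v => by
        have : loc1 (𝒢.cont v) M x = 0 := congrFun hx' v
        rw [this]
        exact AddSubgroup.zero_mem _
      exact ⟨⟨⟨x, hxY⟩, hx'⟩, rfl⟩
  · congr 1
    have : ((𝒢.l1 M).comp (gSel 𝒢 M L).subtype).range = (𝒢.l1 M).range ⊓ piL L := by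
      ext y
      constructor
      · rintro ⟨x, rfl⟩
        exact ⟨⟨_, rfl⟩, mem_piL.mpr fun v => (mem_gSel 𝒢).mp x.2 v⟩
      · rintro ⟨⟨x, rfl⟩, hx⟩
        exact ⟨⟨x, (mem_gSel 𝒢).mpr fun v => mem_piL.mp hx v⟩, rfl⟩
    rw [this]

end Pi

section Main

variable {H H₀ : Subgroup G} [Finite (G ⧸ H)] [Finite (G ⧸ H₀)] (I : 𝒢.GIn H H₀)
  {M M' : Type} [AddCommGroup M] [AddCommGroup M'] [DistribMulAction G M] [DistribMulAction G M']
  {e : M →+ M' →+ T} (h : Pr p 𝒢.𝓛 e)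

theorem perp_piL (L : ∀ v, AddSubgroup (H1 (𝒢.L v) M)) :
    perp (𝒢.s11 h.flip) (piL L) = piL fun v => gDual 𝒢 h v (L v) := by
  classical
  ext y
  rw [mem_perp, mem_piL]
  have key : ∀ x : ∀ v, H1 (𝒢.L v) M, 𝒢.s11 h.flip y x = -𝒢.s11 h x y := fun x =>
    𝒢.s11_flip h x y
  constructor
  · intro hy v x hx
    have h1 := hy (Pi.single v x) (mem_piL.mpr fun w => by
      by_cases hwv : w = v
      · subst hwv
        rw [Pi.single_eq_same]
        exact hx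
      · rw [Pi.single_eq_of_ne hwv]
        exact AddSubgroup.zero_mem _)
    rw [key, neg_eq_zero, GLD.s11_apply, Finset.sum_eq_single v] at h1
    · rw [Pi.single_eq_same, GLD.b11_apply, EmbeddingLike.map_eq_zero_iff] at h1
      exact h1
    · intro w _ hw
      rw [Pi.single_eq_of_ne hw, map_zero]; rfl
    · intro h; exact absurd (Finset.mem_univ v) h
  · intro hy x hx
    rw [key, neg_eq_zero, GLD.s11_apply]
    refine Finset.sum_eq_zero fun v _ => ?_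
    rw [GLD.b11_apply, hy v (x v) (mem_piL.mp hx v), map_zero]

include h in
omit [Finite (G ⧸ H)] [Finite (G ⧸ H₀)] in
theorem card_T_dual : Nat.card M = Nat.card M' := by
  have := h.fA
  have := h.fB
  exact (fpT_perfect 𝒢.τ h.kA h.kB e h.hl h.hr).2.2

include I in
/-- **Greenberg–Wiles formula from the Euler characteristic** -/
theorem gwf_of_ec (hp2 : p ≠ 2) {c : G} (hcc : c * c = 1) (cT : ∀ t : T, c • t = -t)
    (tM : ∀ (h : H) (m : M), h • m = m) (tM' : ∀ (h : H) (m : M'), h • m = m)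
    (hEC : Nat.card (H1 𝒢.𝓛 M) * cfix c M =
      Nat.card (H0 G M) * Nat.card (H2 𝒢.𝓛 M) * Nat.card M)
    (hEC' : Nat.card (H1 𝒢.𝓛 M') * cfix c M' =
      Nat.card (H0 G M') * Nat.card (H2 𝒢.𝓛 M') * Nat.card M')
    (L : ∀ v, AddSubgroup (H1 (𝒢.L v) M)) : GWf 𝒢 c h L := by
  have fM := h.fA
  have fM' := h.fB
  have f1 := I.finite_H1 h tM
  have f2 := I.finite_H2 h tM
  have f1' := I.finite_H1 h.flip tM'
  have f2' := I.finite_H2 h.flip tM'
  have g1 := 𝒢.finP1A h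
  have g1' := 𝒢.finP1B h
  have kPA : ∀ x : (∀ v, H1 (𝒢.L v) M), p • x = 0 := GLD.pi_killed fun v => H1_killed h.kA
  have kPB : ∀ x : (∀ v, H1 (𝒢.L v) M'), p • x = 0 := GLD.pi_killed fun v => H1_killed h.kB
  refine ⟨inferInstance, inferInstance, ?_⟩
  have hE := I.E5_all h tM tM'
  have hE' := I.E5_all h.flip tM' tM
  have e7 := (𝒢.E5_iff h).mp hE
  have el := arith_loc hEC hEC' (cfix_dual 𝒢.τ hp2 hcc cT h) (I.card_all h tM tM')
    (card_ker_range (𝒢.l1 M)) (card_ker_range (𝒢.l1 M')) e7 (card_T_dual h).symm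
    Nat.card_pos Nat.card_pos Nat.card_pos
  -- the orthogonal of `R ⊔ ∏ L`
  have h1 := card_perp kPB kPA (𝒢.s11 h.flip) (fun y hy => 𝒢.s11_right h.flip y hy)
    ((𝒢.l1 M).range ⊔ piL L)
  have h2 : perp (𝒢.s11 h.flip) (𝒢.l1 M).range = (𝒢.l1 M').range :=
    le_antisymm (fun y hy => hE' y fun b => hy _ ⟨b, rfl⟩) (𝒢.range_le_perp h.flip)
  rw [GLD.perp_sup, h2, perp_piL h] at h1
  have h3 : Nat.card (∀ v, H1 (𝒢.L v) M') = 𝒢.c1 M := 𝒢.c1_eq h.flip
  rw [h3] at h1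
  have e2 := 𝒢.card_E2 h (I.E2_all h tM tM')
  rw [I.card_sha h tM tM'] at e2
  have h5 : (∏ v, Nat.card (H0 (𝒢.D v) M)) = 𝒢.c0 M := by rw [GLD.c0, Nat.card_pi]
  rw [h5, ← card_piL]
  refine arith_gw (card_gSel L) (card_gSel fun v => gDual 𝒢 h v (L v))
    (card_ker_range (𝒢.l1 M)) h1 (card_sup_inf _ _) e2 hEC el Nat.card_pos Nat.card_pos ?_
  rw [← 𝒢.c0_eq h.flip]
  exact 𝒢.c0_pos h.flip

end Main

end Fermat.Agent.CFT.EC
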