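import Fermat.Agent.CFT.EC.Main
import Fermat.Agent.CFT.EC.GW1
import Fermat.Agent.CFT.EC.Defs2
import Fermat.Agent.CC.Inst5

/-!
# Greenberg–Wiles formula over `ℚ` for large `S`
-/

set_option autoImplicit false
set_option maxHeartbeats 400000

noncomputable section

namespace Fermat.Agent.CFT.EC

open Fermat.Agent.CC

/-- Greenberg–Wiles from abstract Euler characteristic data -/
theorem gwf_of_data {p : ℕ} [Fact p.Prime] {G : Type} [Group G] {T : Type} [AddCommGroup T]
    [DistribMulAction G T] {𝒢 : GLD p G T} {H H₀ : Subgroup G} [H.Normal] [Finite (G ⧸ H)]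
    [Finite (G ⧸ H₀)] (D : ECData p 𝒢 H H₀) (hs : Function.Surjective D.ι) (hle : D.LeC)
    (hA : Artin p) {M M' : Type} [AddCommGroup M] [AddCommGroup M'] [DistribMulAction G M]
    [DistribMulAction G M'] {e : M →+ M' →+ T} (h : Pr p 𝒢.𝓛 e)
    (tM : ∀ (h : H) (m : M), h • m = m) (tM' : ∀ (h : H) (m : M'), h • m = m)
    (L : ∀ v, AddSubgroup (H1 (𝒢.L v) M)) : GWf 𝒢 D.c h L := by
  have hEC := D.ec hs hle hA
  exact gwf_of_ec D.I h D.odd D.cc D.cT tM tM' (hEC M M' e h tM tM') (hEC M' M _ h.flip tM' tM) L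

/-- a field trivialising two modules -/
theorem exists_triv {p : ℕ} {S : Finset Nat.Primes} {M M' T : Type} [AddCommGroup M]
    [AddCommGroup M'] [AddCommGroup T] [DistribMulAction GQ M] [DistribMulAction GQ M']
    [DistribMulAction GQ T] {e : M →+ M' →+ T} (h : Pr p (levS S) e) :
    ∃ K₁ : IntermediateField ℚ Qb, K₁.IsUnramifiedOutside S ∧
      ∀ K : IntermediateField ℚ Qb, K₁ ≤ K → (∀ (h : K.fixingSubgroup) (m : M), h • m = m) ∧
        ∀ (h : K.fixingSubgroup) (m : M'), h • m = m := by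
  have := h.fA
  have := h.fB
  obtain ⟨U, hU, hUt⟩ := h.smA.finite (Set.toFinite (Set.univ : Set M))
  obtain ⟨V, hV, hVt⟩ := h.smB.finite (Set.toFinite (Set.univ : Set M'))
  obtain ⟨K₁, hK₁, hK₁U⟩ := (levS S).inf U V hU hV
  refine ⟨K₁, hK₁, fun K hKK => ?_⟩
  have hle : K.fixingSubgroup ≤ U ⊓ V :=
    (IntermediateField.fixingSubgroup_antitone hKK).trans hK₁U
  exact ⟨fun s m => hUt m trivial _ (hle s.2).1, fun s m => hVt m trivial _ (hle s.2).2⟩

end Fermat.Agent.CFT.EC
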