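import Fermat.Agent.CFT.EC.Zero

/-!
# Global Euler characteristic : conclusion from `LeC` and Artin induction
-/

set_option autoImplicit false
set_option maxHeartbeats 400000

noncomputable section

namespace Fermat.Agent.CFT.EC

open Fermat.Agent.CC

variable {p : ℕ} [Fact p.Prime] {G : Type} [Group G] {T : Type} [AddCommGroup T]
  [DistribMulAction G T] {𝒢 : GLD p G T} {H H₀ : Subgroup G} [H.Normal] [Finite (G ⧸ H)]
  [Finite (G ⧸ H₀)] (D : ECData p 𝒢 H H₀)

include D in
theorem odd_p : Odd p := (Fact.out : p.Prime).odd_of_ne_two D.odd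

/-- `CoInd H Tⁿ` -/
theorem dZ_coTn (hs : Function.Surjective D.ι) (n : ℕ) :
    dZ 𝒢 D.c (CoInd H (Fin n → T)) = 0 := by
  have fT : Finite T := Finite.of_equiv _ 𝒢.τ.symm.toEquiv
  have kT := killedT 𝒢.τ
  induction n with
  | zero =>
    have : Subsingleton (CoInd H (Fin 0 → T)) :=
      ⟨fun a b => CoInd.ext fun x => Subsingleton.elim _ _⟩
    exact dZ_subsingleton D.c D.I (odd_p D) D.cc
  | succ n ih =>
    have htn : ∀ (h : H) (f : Fin (n + 1) → T), h • f = f := fun h f =>
      funext fun k => D.I.htT h (f k)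
    let i : T →+ (Fin (n + 1) → T) := AddMonoidHom.single (fun _ => T) 0
    let j : (Fin (n + 1) → T) →+ (Fin n → T) :=
      { toFun := fun f k => f k.succ
        map_zero' := rfl
        map_add' := fun _ _ => rfl }
    have hi : ∀ (h : H) (t : T), i (h • t) = h • i t := fun h t => by
      rw [htn, D.I.htT]
    have hj : ∀ (h : H) (f : Fin (n + 1) → T), j (h • f) = h • j f := fun _ _ => rfl
    have inj : Function.Injective i := fun a b h => by
      have h0 := congrFun h 0
      change Pi.single (M := fun _ : Fin (n + 1) => T) 0 a 0 =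
        Pi.single (M := fun _ : Fin (n + 1) => T) 0 b 0 at h0
      rwa [Pi.single_eq_same, Pi.single_eq_same] at h0
    have surj : Function.Surjective j := fun f =>
      ⟨Fin.cons (α := fun _ : Fin (n + 1) => T) 0 f, funext fun k =>
        Fin.cons_succ (α := fun _ : Fin (n + 1) => T) 0 f k⟩
    have ex : ∀ f, j f = 0 ↔ ∃ t, i t = f := by
      intro f
      constructor
      · intro h
        refine ⟨f 0, funext fun k => ?_⟩
        refine Fin.cases ?_ (fun k => ?_) k
        · exact Pi.single_eq_same (M := fun _ : Fin (n + 1) => T) 0 (f 0)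
        · exact (Pi.single_eq_of_ne (M := fun _ : Fin (n + 1) => T) (Fin.succ_ne_zero k)
            (f 0)).trans (congrFun h k).symm
      · rintro ⟨t, rfl⟩
        exact funext fun k => Pi.single_eq_of_ne (M := fun _ : Fin (n + 1) => T)
          (Fin.succ_ne_zero k) t
    have f1 : Finite (CoInd H (Fin (n + 1) → T)) := finite_coInd
    rw [dZ_add D.c D.I (odd_p D) D.cc (B := CoInd H (Fin (n + 1) → T)) (A := CoInd H T)
      (C := CoInd H (Fin n → T)) (fun f => CoInd.ext fun x => funext fun k => kT _)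
      (GLD.coInd_triv D.I.hn htn)
      (coMapH i hi) (coMapH j hj) (fun _ _ => rfl) (fun _ _ => rfl) (coMapH_inj i hi inj)
      (coMapH_surj j hj surj) (coMapH_exact i hi j hj inj ex), ih, dZ_coT D hs, add_zero]

theorem exists_fin_aux (Y : Type) [AddCommGroup Y] [Finite Y] [Module (ZMod p) Y] :
    ∃ n : ℕ, Nonempty (Y ≃+ (Fin n → ZMod p)) := by
  have : Module.Finite (ZMod p) Y := Module.Finite.of_finite
  exact ⟨_, ⟨(Module.finBasis (ZMod p) Y).equivFun.toAddEquiv⟩⟩

theorem exists_fin (Y : Type) [AddCommGroup Y] [Finite Y] (kY : ∀ y : Y, p • y = 0) :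
    ∃ n : ℕ, Nonempty (Y ≃+ (Fin n → ZMod p)) := by
  let _ : Module (ZMod p) Y := AddCommGroup.zmodModule kY
  exact exists_fin_aux Y

/-- modules coinduced from `H` -/
theorem dZ_coTriv (hs : Function.Surjective D.ι) {Y : Type} [AddCommGroup Y]
    [DistribMulAction H Y] [Finite Y] (kY : ∀ y : Y, p • y = 0)
    (tY : ∀ (h : H) (y : Y), h • y = y) : dZ 𝒢 D.c (CoInd H Y) = 0 := by
  have fT : Finite T := Finite.of_equiv _ 𝒢.τ.symm.toEquiv
  have kT := killedT 𝒢.τ
  obtain ⟨n, ⟨f₀⟩⟩ := exists_fin Y kY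
  let f : Y ≃+ (Fin n → T) := f₀.trans (AddEquiv.piCongrRight fun _ => 𝒢.τ.symm)
  have htn : ∀ (h : H) (f : Fin n → T), h • f = f := fun h f =>
      funext fun k => D.I.htT h (f k)
  have f1 : Finite (CoInd H (Fin n → T)) := finite_coInd
  rw [dZ_congr D.c D.I (odd_p D) D.cc (A := CoInd H Y)
    (B := CoInd H (Fin n → T))
    (fun f => CoInd.ext fun x => funext fun k => kT _)
    (GLD.coInd_triv D.I.hn htn) (coEquiv f fun h y => by rw [tY, htn]) (fun _ _ => rfl)]
  exact dZ_coTn D hs _

section Prime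

variable {U : Subgroup G} (hU : H ≤ U)

include hU in
omit [Finite (G ⧸ H)] in
theorem coU_triv {M : Type} [AddCommGroup M] [DistribMulAction G M]
    (htM : ∀ (h : H) (m : M), h • m = m) (s : H) (f : CoInd U M) : s • f = f := by
  refine CoInd.ext fun x => ?_
  change f.1 (x * s) = f.1 x
  have hn : H.Normal := inferInstance
  have h1 : x * s = ((⟨x * s * x⁻¹, hU (hn.conj_mem _ s.2 x)⟩ : U) : G) * x := by simp
  rw [h1, f.2]
  exact htM ⟨_, hn.conj_mem _ s.2 x⟩ _

include hU in
/-- vanishing for modules coinduced from `U` -/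
theorem dZ_coU (hs : Function.Surjective D.ι)
    (hle : ∀ (M : Type) [AddCommGroup M] [DistribMulAction G M] [Finite M]
      (_ : ∀ m : M, p • m = 0) (_ : ∀ (h : H) (m : M), h • m = m),
      dZ 𝒢 D.c (CoInd U M) ≤ 0) {M : Type} [AddCommGroup M] [DistribMulAction G M] [Finite M]
    (kM : ∀ m : M, p • m = 0) (tM : ∀ (h : H) (m : M), h • m = m) :
    dZ 𝒢 D.c (CoInd U M) = 0 := by
  have fU : Finite (G ⧸ U) := by
    have : H.FiniteIndex := ⟨by
      rw [Subgroup.index]; exact Nat.card_pos.ne'⟩
    have : U.FiniteIndex := Subgroup.finiteIndex_of_le hU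
    infer_instance
  have f1 : Finite (CoInd H M) := finite_coInd
  have f2 : Finite (CoInd U M) := finite_coInd
  have f3 : Finite (CoInd U (CoInd H M)) := finite_coInd
  have f4 : Finite (CoInd H (CoInd U M)) := finite_coInd
  have k1 : ∀ f : CoInd H M, p • f = 0 := fun f => CoInd.ext fun x => kM _
  have k2 : ∀ f : CoInd U M, p • f = 0 := fun f => CoInd.ext fun x => kM _
  have t1 : ∀ (h : H) (f : CoInd H M), h • f = f := GLD.coInd_triv D.I.hn tM
  have t2 : ∀ (h : H) (f : CoInd U M), h • f = f := coU_triv hU tM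
  let N := GSub.range (unitMap H M) (unitMap_smul H M)
  have fQ : Finite N.Q := Finite.of_surjective _ N.proj_surjective
  have kQ : ∀ q : N.Q, p • q = 0 := fun q => by
    obtain ⟨f, rfl⟩ := N.proj_surjective q
    rw [← map_nsmul, k1, map_zero]
  have tQ : ∀ (h : H) (q : N.Q), h • q = q := fun h q => by
    obtain ⟨f, rfl⟩ := N.proj_surjective q
    exact (N.proj_smul (h : G) f).symm.trans (congrArg _ (t1 h f))
  have h1 := dZ_add D.c D.I (odd_p D) D.cc (A := CoInd U M) (B := CoInd U (CoInd H M))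
    (C := CoInd U N.Q) (fun f => CoInd.ext fun x => k1 _) (coU_triv hU t1)
    (coMapH (unitMap H M) (fun g a => unitMap_smul H M (g : G) a))
    (coMapH N.proj (fun g a => N.proj_smul (g : G) a)) (fun _ _ => rfl) (fun _ _ => rfl)
    (coMapH_inj _ _ unitMap_injective) (coMapH_surj _ _ N.proj_surjective)
    (coMapH_exact _ _ _ _ unitMap_injective (fun b => N.proj_eq_zero))
  have h2 := dZ_congr D.c D.I (odd_p D) D.cc (A := CoInd U (CoInd H M))
    (B := CoInd H (CoInd U M)) (fun f => CoInd.ext fun x => k2 _)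
    (GLD.coInd_triv D.I.hn t2) (swap U H M) (swap_smul U H M)
  rw [dZ_coTriv D hs k2 t2] at h2
  have h3 := hle M kM tM
  have h4 := hle N.Q kQ tQ
  linarith

end Prime

/-- **the global Euler characteristic** -/
theorem ECData.ec (hs : Function.Surjective D.ι) (hle : D.LeC) (hA : Artin p) : D.EC := by
  have key : ∀ (M : Type) [AddCommGroup M] [DistribMulAction (G ⧸ H) M], Finite M →
      (∀ m : M, p • m = 0) → (ecF D).d M = 0 := by
    refine hA (G ⧸ H) (ecF D) fun C hC M _ _ fM kM => ?_
    have hU : H ≤ C.comap (QuotientGroup.mk' H) := fun h hh => by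
      rw [Subgroup.mem_comap]
      change (h : G ⧸ H) ∈ C
      rw [(QuotientGroup.eq_one_iff _).mpr hh]
      exact C.one_mem
    have fU : Finite (G ⧸ C.comap (QuotientGroup.mk' H)) := by
      have : H.FiniteIndex := ⟨by
        rw [Subgroup.index]; exact Nat.card_pos.ne'⟩
      have : (C.comap (QuotientGroup.mk' H)).FiniteIndex := Subgroup.finiteIndex_of_le hU
      infer_instance
    have f1 : Finite (CoInd (C.comap (QuotientGroup.mk' H)) (Infl H M)) := finite_coInd
    have k1 : ∀ f : CoInd (C.comap (QuotientGroup.mk' H)) (Infl H M), p • f = 0 :=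
      fun f => CoInd.ext fun x => kM _
    have h1 := dZ_congr D.c D.I (odd_p D) D.cc (A := Infl H (CoInd C M)) k1
      (coU_triv hU Infl.triv) (infCo C M) (infCo_smul C M)
    change dZ 𝒢 D.c (Infl H (CoInd C M)) = 0
    rw [h1]
    refine dZ_coU D hU hs ?_ (M := Infl H M) kM Infl.triv
    intro M _ _ _ kM tM
    have hPr := prD (T := T) D.I kM tM
    have f2 : Finite (CoInd (C.comap (QuotientGroup.mk' H)) M) := finite_coInd
    rw [dZ_nonpos_iff D.c D.I (M := CoInd (C.comap (QuotientGroup.mk' H)) M)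
      (fun f => CoInd.ext fun x => kM _) (coU_triv hU tM)]
    refine hle C hC M (Du M T) (evP M T) hPr tM fun h φ => ?_
    refine Du.ext fun m => ?_
    change evP M T m ((h : G) • φ) = _
    rw [evP_smul]
    exact (D.I.htT h _).trans (congrArg (fun x => evP M T x φ) (tM h⁻¹ m))
  intro M M' _ _ _ _ e h tM tM'
  have := h.fA
  rw [← dZ_eq_zero_iff D.c D.I h.kA tM]
  let _ : DistribMulAction (G ⧸ H) M := qAct tM
  have h1 := dZ_congr D.c D.I (odd_p D) D.cc (A := Infl H M) (B := M) h.kA tM
    (AddEquiv.refl M) (fun g m => qAct_mk tM g m)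
  rw [← h1]
  exact key M inferInstance h.kA

end Fermat.Agent.CFT.EC
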