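import Fermat.Agent.CFT.EC.Data

/-!
# Abstract Selmer groups
-/

set_option autoImplicit false

noncomputable section

namespace Fermat.Agent.CFT.EC

open Fermat.Agent.CC

variable {p : ℕ} [Fact p.Prime] {G : Type} [Group G] {T : Type} [AddCommGroup T]
  [DistribMulAction G T] (𝒢 : GLD p G T) {M M' : Type} [AddCommGroup M] [AddCommGroup M']
  [DistribMulAction G M] [DistribMulAction G M'] {e : M →+ M' →+ T}

/-- Selmer group -/
def gSel (M : Type) [AddCommGroup M] [DistribMulAction G M]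
    (L : ∀ v, AddSubgroup (H1 (𝒢.L v) M)) : AddSubgroup (H1 𝒢.𝓛 M) :=
  ⨅ v, (L v).comap (loc1 (𝒢.cont v) M)

theorem mem_gSel {L : ∀ v, AddSubgroup (H1 (𝒢.L v) M)} {x : H1 𝒢.𝓛 M} :
    x ∈ gSel 𝒢 M L ↔ ∀ v, loc1 (𝒢.cont v) M x ∈ L v := by
  rw [gSel, AddSubgroup.mem_iInf]
  rfl

/-- dual local conditions -/
def gDual (h : Pr p 𝒢.𝓛 e) (v : 𝒢.V) (L : AddSubgroup (H1 (𝒢.L v) M)) :
    AddSubgroup (H1 (𝒢.L v) M') where
  carrier := {y | ∀ x ∈ L, cup11 e (h.he.sub (𝒢.D v)) (smooth_loc (𝒢.cont v) h.smB) x y = 0}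
  zero_mem' x _ := map_zero _
  add_mem' {a b} ha hb x hx := by rw [map_add, ha x hx, hb x hx, add_zero]
  neg_mem' {a} ha x hx := by rw [map_neg, ha x hx, neg_zero]

theorem mem_gDual {h : Pr p 𝒢.𝓛 e} {v : 𝒢.V} {L : AddSubgroup (H1 (𝒢.L v) M)}
    {y : H1 (𝒢.L v) M'} : y ∈ gDual 𝒢 h v L ↔ ∀ x ∈ L,
      cup11 e (h.he.sub (𝒢.D v)) (smooth_loc (𝒢.cont v) h.smB) x y = 0 := Iff.rfl

/-- the Greenberg–Wiles formula for abstract data -/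
def GWf (c : G) (h : Pr p 𝒢.𝓛 e) (L : ∀ v, AddSubgroup (H1 (𝒢.L v) M)) : Prop :=
  Finite (gSel 𝒢 M L) ∧ Finite (gSel 𝒢 M' fun v => gDual 𝒢 h v (L v)) ∧
    Nat.card (gSel 𝒢 M L) * cfix c M * Nat.card (H0 G M') *
        (∏ v, Nat.card (H0 (𝒢.D v) M)) =
      Nat.card (gSel 𝒢 M' fun v => gDual 𝒢 h v (L v)) * (∏ v, Nat.card (L v)) *
        Nat.card (H0 G M)

end Fermat.Agent.CFT.EC
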